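import Fermat.Agent.RT.Lifting.Defs

/-!
# The degeneracy homomorphisms: composition and Hecke equivariance

`degHom d` is conjugation by `diag(d, 1)`; the maps `degCls` compose by multiplying the degrees and
commute with `T_ℓ` for `ℓ` prime to the upper level.
-/

set_option autoImplicit false

noncomputable section

namespace Fermat.Agent.RT.Lifting

open MvPolynomial
open Fermat.Agent.RT.GammaH
open Matrix.SpecialLinearGroup
open scoped MatrixGroups

variable {M L : ℕ} {d : ℕ} [NeZero d] (h : d * M ∣ L)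

theorem coe_degHom (g : gammaH L (⊤ : Subgroup (ZMod L)ˣ)) (i j : Fin 2) :
    (degHom d h g : SL(2, ℤ)) i j = degMat d ((g : SL(2, ℤ)) : Matrix (Fin 2) (Fin 2) ℤ) i j :=
  rfl

include h in
omit [NeZero d] in
theorem dvd_of_mul_dvd_left : M ∣ L := (dvd_mul_left M d).trans h

theorem isIntMat_degDiag (d : ℕ) [NeZero d] :
    IsIntMat (ModularForm.heckeDiagMatrix d) !![(d : ℤ), 0; 0, 1] := by
  unfold IsIntMat
  rw [ModularForm.val_heckeDiagMatrix (NeZero.ne d)]
  ext a b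
  fin_cases a <;> fin_cases b <;> simp

theorem mapGL_degHom (g : gammaH L (⊤ : Subgroup (ZMod L)ˣ)) :
    mapGL ℝ (degHom d h g : SL(2, ℤ)) = ModularForm.heckeDiagMatrix d *
      mapGL ℝ (g : SL(2, ℤ)) * (ModularForm.heckeDiagMatrix d)⁻¹ := by
  rw [eq_mul_inv_iff_mul_eq]
  refine ((isIntMat_mapGL _).mul (isIntMat_degDiag d)).ext ?_
  convert (isIntMat_degDiag d).mul (isIntMat_mapGL (g : SL(2, ℤ))) using 1
  have hc : ((g : SL(2, ℤ)) 1 0 / d) * d = (g : SL(2, ℤ)) 1 0 :=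
    Int.ediv_mul_cancel ((Dvd.intro (M : ℤ) rfl).trans (by
      have := dvd_lowerLeft d h g; push_cast at this; exact this))
  ext i j
  fin_cases i <;> fin_cases j <;>
    simp [Matrix.mul_apply, Fin.sum_univ_two, coe_degHom, degMat, hc, mul_comm]

include h in
theorem admissible_deg :
    Admissible (gammaH M (⊤ : Subgroup (ZMod M)ˣ)) (gammaH L (⊤ : Subgroup (ZMod L)ˣ))
      fun _ : Unit => (ModularForm.heckeDiagMatrix d : GLR) :=
  fun γ => ⟨id, Function.bijective_id, fun _ => by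
    rw [id_eq, ← mapGL_degHom h γ]
    exact mapGL_mem_img.2 (degHom d h γ).2⟩

variable {A : Type*} [AddCommGroup A]

/-- The degeneracy map as a coset operator. -/
def degOp (R : Type*) [Semiring R] [Module R A] :
    (Additive (gammaH M (⊤ : Subgroup (ZMod M)ˣ)) →+ A) →ₗ[R]
      (Additive (gammaH L (⊤ : Subgroup (ZMod L)ˣ)) →+ A) :=
  opOf (admissible_deg h) R

theorem degOp_apply (R : Type*) [Semiring R] [Module R A]
    (φ : Additive (gammaH M (⊤ : Subgroup (ZMod M)ˣ)) →+ A)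
    (γ : gammaH L (⊤ : Subgroup (ZMod L)ˣ)) :
    degOp h R φ (Additive.ofMul γ) = φ (Additive.ofMul (degHom d h γ)) := by
  have hσ : IsPerm (gammaH M (⊤ : Subgroup (ZMod M)ˣ))
      (fun _ : Unit => (ModularForm.heckeDiagMatrix d : GLR)) (mapGL ℝ (γ : SL(2, ℤ))) id :=
    ⟨Function.bijective_id, fun _ => by
      rw [id_eq, ← mapGL_degHom h γ]
      exact mapGL_mem_img.2 (degHom d h γ).2⟩
  rw [degOp, opOf_apply_of_isPerm _ _ _ hσ, Fintype.sum_unique, ← mapGL_degHom h γ,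
    onImg_mapGL]

theorem degHom_degHom {N : ℕ} {e : ℕ} [NeZero e] (h' : e * N ∣ M) (h'' : e * d * N ∣ L)
    (g : gammaH L (⊤ : Subgroup (ZMod L)ˣ)) :
    degHom e h' (degHom d h g) = degHom (e * d) h'' g := by
  refine Subtype.ext (Matrix.SpecialLinearGroup.ext _ _ fun i j => ?_)
  rw [coe_degHom, coe_degHom]
  fin_cases i <;> fin_cases j <;> simp [degMat, coe_degHom, mul_assoc]
  rw [mul_comm (e : ℤ), ← Int.ediv_ediv_of_nonneg (Int.natCast_nonneg d)]

theorem degOp_degOp (R : Type*) [Semiring R] [Module R A] {N : ℕ} {e : ℕ} [NeZero e]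
    (h' : e * N ∣ M) (h'' : e * d * N ∣ L)
    (φ : Additive (gammaH N (⊤ : Subgroup (ZMod N)ˣ)) →+ A) :
    degOp h R (degOp h' R φ) = degOp h'' R φ := by
  refine AddMonoidHom.ext fun x => ?_
  obtain ⟨γ, rfl⟩ := Additive.ofMul.surjective x
  rw [degOp_apply, degOp_apply, degOp_apply, degHom_degHom h h' h'']

include h in
theorem deg_conj {ℓ : ℕ} {g : GLR} (hg : g ∈ heckeSet L (⊤ : Subgroup (ZMod L)ˣ) ℓ) :
    ModularForm.heckeDiagMatrix d * g * (ModularForm.heckeDiagMatrix d)⁻¹ ∈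
      heckeSet M (⊤ : Subgroup (ZMod M)ˣ) ℓ := by
  obtain ⟨A, hA, hd, hc, u, -, ha⟩ := hg
  obtain ⟨c, hc'⟩ : ((d * M : ℕ) : ℤ) ∣ A 1 0 :=
    (Int.natCast_dvd_natCast.2 h).trans ((ZMod.intCast_zmod_eq_zero_iff_dvd _ _).1 hc)
  push_cast at hc'
  refine ⟨!![A 0 0, d * A 0 1; (M : ℤ) * c, A 1 1], ?_, ?_, by simp,
    ZMod.unitsMap (dvd_of_mul_dvd_left h) u, Subgroup.mem_top _, ?_⟩
  · have h1 : IsIntMat (ModularForm.heckeDiagMatrix d * g)
        (!![A 0 0, d * A 0 1; (M : ℤ) * c, A 1 1] * !![(d : ℤ), 0; 0, 1]) := by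
      convert (isIntMat_degDiag d).mul hA using 1
      ext a b
      fin_cases a <;> fin_cases b <;>
        simp [Matrix.mul_apply, Fin.sum_univ_two, hc'] <;> ring
    have h2 := isIntMat_degDiag d
    unfold IsIntMat at *
    rw [Units.val_mul, h1, Matrix.map_mul, ← h2, mul_assoc, ← Units.val_mul,
      mul_inv_cancel, Units.val_one, mul_one]
  · rw [Matrix.det_fin_two] at hd
    rw [Matrix.det_fin_two_of]
    linear_combination hd + A 0 1 * hc'
  · simp only [Matrix.cons_val', Matrix.cons_val_zero, Matrix.of_apply, Matrix.cons_val_fin_one]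
    rw [← map_intCast (ZMod.castHom (dvd_of_mul_dvd_left h) (ZMod M)), ha]
    rfl

/-- `T_ℓ` commutes with the degeneracy maps for `ℓ` prime to the upper level. -/
theorem hecke_degOp (R : Type*) [Semiring R] [Module R A] {ℓ : ℕ} [hℓ : Fact ℓ.Prime]
    (hℓL : ¬ ℓ ∣ L) (φ : Additive (gammaH M (⊤ : Subgroup (ZMod M)ˣ)) →+ A) :
    hecke L ⊤ ℓ R (degOp h R φ) = degOp h R (hecke M ⊤ ℓ R φ) := by
  have hℓM : ¬ ℓ ∣ M := fun hd => hℓL (hd.trans (dvd_of_mul_dvd_left h))
  have hℓd : ¬ (ℓ : ℤ) ∣ (d : ℤ) := fun hd => hℓL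
    ((Int.natCast_dvd_natCast.1 hd).trans ((dvd_mul_right d M).trans h))
  set k : HIdx L ℓ → GLR := fun i => ModularForm.heckeDiagMatrix d * hRep L ℓ i *
    (ModularForm.heckeDiagMatrix d)⁻¹
  have hk : IsReps (gammaH M (⊤ : Subgroup (ZMod M)ˣ)) (heckeSet M ⊤ ℓ) k :=
    isReps_hRep.of_card (fun i => deg_conj h (hRep_mem_heckeSet i))
      (fun i j hij => by
        obtain ⟨γ, -, hγ⟩ := hij
        have e : ModularForm.heckeDiagMatrix d * hRep L ℓ i =
            mapGL ℝ γ * ModularForm.heckeDiagMatrix d * hRep L ℓ j := by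
          rw [hγ]; simp only [k]; group
        refine factor_unique (isIntMat_degDiag d)
          ((isIntMat_mapGL γ).mul (isIntMat_degDiag d)) ?_ ?_ e
        · simpa [Matrix.det_fin_two_of] using hℓd
        · simpa [Matrix.det_mul, Matrix.det_fin_two_of] using hℓd)
      (Nat.card_congr (Equiv.subtypeEquivRight fun o => by simp [hℓL, hℓM])).le
  rw [hecke_eq_opOf R (hk.admissible fun _ hg γ => heckeSet_mul_gammaH hg γ) hk]
  unfold degOp hecke
  rw [opOf_comp, opOf_comp]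
  exact LinearMap.congr_fun (opOf_congr _ _ (Equiv.prodComm Unit (HIdx L ℓ)) fun p => by
    simp [k]) φ

variable {O : Type} [CommRing O] {S : Finset ℕ}

theorem degCls_eq_degOp (φ : Classes O S M) :
    degCls d O S h φ = toHomMod (degOp h O ((toHomMod (O := O)).symm φ)) :=
  DFunLike.ext _ _ fun x => by
    obtain ⟨γ, rfl⟩ := Additive.ofMul.surjective x
    exact (degOp_apply h O _ γ).symm

theorem degCls_degCls {N : ℕ} {e : ℕ} [NeZero e] (h' : e * N ∣ M) (h'' : e * d * N ∣ L)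
    (φ : Classes O S N) :
    degCls d O S h (degCls e O S h' φ) = degCls (e * d) O S h'' φ := by
  rw [degCls_eq_degOp, degCls_eq_degOp, degCls_eq_degOp]
  exact degOp_degOp h O h' h'' _

theorem X_smul_degCls (hS : ∀ q : ℕ, q.Prime → q ∣ L → q ∈ S) (i : {ℓ : ℕ // ℓ.Prime ∧ ℓ ∉ S})
    (φ : Classes O S M) :
    (X (Sum.inr i) : OpRing O L S) • degCls d O S h φ =
      degCls d O S h ((X (Sum.inr i) : OpRing O M S) • φ) := by
  have : Fact i.1.Prime := ⟨i.2.1⟩
  rw [degCls_eq_degOp, degCls_eq_degOp, X_inr_smul, X_inr_smul]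
  exact hecke_degOp h O (fun hd => i.2.2 (hS i.1 i.2.1 hd)) _

theorem degCls_mem_eigVec {a : ℕ → O} (hS : ∀ q : ℕ, q.Prime → q ∣ L → q ∈ S)
    {u : Classes O S M} (hu : u ∈ eigVec S M a) : degCls d O S h u ∈ eigVec S L a :=
  mem_eigVec.2 fun i => by rw [X_smul_degCls h hS, mem_eigVec.1 hu i, map_smul]

end Fermat.Agent.RT.Lifting
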