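import Fermat.Agent.RT.Lifting.Interface
import Fermat.Agent.RT.GammaH.Complex

/-!
# Eigen classes over `O` and over `ℂ`

The operators on eigen classes and eigen functionals, eigen homomorphisms to `ℂ` as combinations of
eigen classes, and membership descended from `ℂ` to `O`.
-/

set_option autoImplicit false
set_option linter.style.haveILetI false

noncomputable section

namespace Fermat.Agent.RT.Lifting.Step

open IsLocalRing MvPolynomial
open Fermat.Agent.RT.GammaH
open scoped MatrixGroups

section Operators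

variable {O : Type} [CommRing O] {S : Finset ℕ} {L : ℕ} {a : ℕ → O}

/-- The values of the operators at the system `a`. -/
def opEval (L : ℕ) (a : ℕ → O) : OpRing O L S →ₐ[O] O :=
  aeval (Sum.elim (fun _ => 1) fun i => a i.1)

theorem opEval_inr (i : {ℓ : ℕ // ℓ.Prime ∧ ℓ ∉ S}) :
    opEval L a (X (Sum.inr i) : OpRing O L S) = a i.1 := by simp [opEval]

theorem inl_smul (v : (ZMod L)ˣ) (u : Classes O S L) :
    (X (Sum.inl v) : OpRing O L S) • u = u :=
  (X_inl_smul v u).trans (diamond_of_mem O (Subgroup.mem_top v) u)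

theorem eigVec_smul {u : Classes O S L} (hu : u ∈ eigVec S L a) (P : OpRing O L S) :
    P • u = opEval L a P • u := by
  induction P using MvPolynomial.induction_on with
  | C c => rw [← algebraMap_eq, AlgHom.commutes, algebraMap_smul]; rfl
  | add x y hx hy => rw [add_smul, hx, hy, map_add, add_smul]
  | mul_X x i ih =>
    rw [mul_smul, map_mul, mul_comm (opEval L a x), mul_smul]
    rcases i with v | i
    · rw [inl_smul, ih,
        show opEval L a (X (Sum.inl v) : OpRing O L S) = 1 by simp [opEval], one_smul]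
    · rw [mem_eigVec.1 hu i, smul_comm, ih, opEval_inr]

theorem eigFun_smul {φ : Classes O S L →ₗ[O] O} (hφ : IsEigFun S L a φ) (P : OpRing O L S)
    (u : Classes O S L) : φ (P • u) = opEval L a P * φ u := by
  induction P using MvPolynomial.induction_on generalizing u with
  | C c => rw [← algebraMap_eq, AlgHom.commutes, algebraMap_smul, map_smul]; rfl
  | add x y hx hy => rw [add_smul, map_add, hx, hy, map_add, add_mul]
  | mul_X x i ih =>
    rw [mul_smul, ih, map_mul, mul_assoc]
    congr 1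
    rcases i with v | i
    · rw [inl_smul,
        show opEval L a (X (Sum.inl v) : OpRing O L S) = 1 by simp [opEval], one_mul]
    · rw [hφ i u, opEval_inr]

theorem residue_opEval [IsLocalRing O] {abar : ℕ → ResidueField O}
    (ha : ∀ ℓ : ℕ, ℓ.Prime → ℓ ∉ S → residue O (a ℓ) = abar ℓ) (P : OpRing O L S) :
    residue O (opEval L a P) = opRes S abar L P := by
  induction P using MvPolynomial.induction_on with
  | C c => rw [← algebraMap_eq, AlgHom.commutes, AlgHom.commutes]; rfl
  | add x y hx hy => rw [map_add, map_add, map_add, hx, hy]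
  | mul_X x i ih =>
    rw [map_mul, map_mul, map_mul, ih]
    congr 1
    rcases i with v | i
    · rw [opRes_inl, show opEval L a (X (Sum.inl v) : OpRing O L S) = 1 by simp [opEval],
        map_one]
    · rw [opRes_inr, opEval_inr, ha i.1 i.2.1 i.2.2]

end Operators

section Complex

variable {O : Type} [CommRing O] [IsDomain O] [IsPrincipalIdealRing O] [Algebra O ℂ]
  {S : Finset ℕ} {L : ℕ} [NeZero L] {a : ℕ → O}

omit [IsDomain O] [IsPrincipalIdealRing O] [NeZero L] in
theorem hecke_toHomC (i : {ℓ : ℕ // ℓ.Prime ∧ ℓ ∉ S}) [Fact i.1.Prime] (u : Classes O S L) :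
    toHomC ((X (Sum.inr i) : OpRing O L S) • u) = hecke L ⊤ i.1 ℂ (toHomC u) := by
  rw [toHomC_smul, opC_inr]

omit [IsDomain O] [IsPrincipalIdealRing O] [NeZero L] in
theorem smul_eq_algebraMap_smul {c : O} {φ : HomC (⊤ : Subgroup (ZMod L)ˣ)} :
    c • φ = algebraMap O ℂ c • φ :=
  AddMonoidHom.ext fun γ => Algebra.smul_def c (φ γ)

omit [IsDomain O] [IsPrincipalIdealRing O] [NeZero L] in
theorem toHomC_eigVec {u : Classes O S L} (hu : u ∈ eigVec S L a) {ℓ : ℕ} [hℓ : Fact ℓ.Prime]
    (hℓS : ℓ ∉ S) : hecke L ⊤ ℓ ℂ (toHomC u) = algebraMap O ℂ (a ℓ) • toHomC u := by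
  have : Fact (⟨ℓ, hℓ.out, hℓS⟩ : {ℓ : ℕ // ℓ.Prime ∧ ℓ ∉ S}).1.Prime := hℓ
  rw [← hecke_toHomC ⟨ℓ, hℓ.out, hℓS⟩, mem_eigVec.1 hu ⟨ℓ, hℓ.out, hℓS⟩, map_smul, smul_eq_algebraMap_smul]

/-- An eigen homomorphism to `ℂ` is a combination of eigen classes. -/
theorem mem_span_eigVec (hinj : Function.Injective (algebraMap O ℂ))
    {ψ : HomC (⊤ : Subgroup (ZMod L)ˣ)}
    (hψ : ∀ (ℓ : ℕ) [Fact ℓ.Prime], ℓ ∉ S → hecke L ⊤ ℓ ℂ ψ = algebraMap O ℂ (a ℓ) • ψ) :
    ψ ∈ Submodule.span ℂ (toHomC '' (eigVec S L a : Set (Classes O S L))) := by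
  classical
  have : FaithfulSMul O ℂ := (faithfulSMul_iff_algebraMap_injective O ℂ).2 hinj
  have : Group.FG SL(2, ℤ) := Group.fg_iff.2
    ⟨{ModularGroup.S, Gamma0.ST}, Gamma0.closure_S_ST, Set.toFinite _⟩
  have h1 : Group.FG (gammaH L (⊤ : Subgroup (ZMod L)ˣ)) := Subgroup.fg_of_index_ne_zero _
  have h2 : AddGroup.FG (Additive (gammaH L (⊤ : Subgroup (ZMod L)ˣ))) :=
    GroupFG.iff_add_fg.1 h1
  obtain ⟨s, hs⟩ := h2.out
  set P : Submodule O ℂ := Submodule.span O (ψ '' s) with hPdef
  have : Module.Finite O P := Module.Finite.iff_fg.2 ⟨s.image ψ, by rw [Finset.coe_image]⟩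
  have : Module.IsTorsionFree O ℂ :=
    Function.Injective.moduleIsTorsionFree (LinearMap.id : ℂ →ₗ[O] ℂ) (fun _ _ h => h)
      fun _ _ => rfl
  have : Module.IsTorsionFree O P :=
    Function.Injective.moduleIsTorsionFree P.subtype Subtype.coe_injective fun _ _ => rfl
  have : Module.Free O P := Module.free_of_finite_type_torsion_free'
  have hmem : ∀ x, ψ x ∈ P := by
    intro x
    have hx : x ∈ AddSubgroup.closure (s : Set (Additive (gammaH L (⊤ : Subgroup (ZMod L)ˣ)))) :=
      hs.symm ▸ AddSubgroup.mem_top x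
    induction hx using AddSubgroup.closure_induction with
    | mem y hy => exact Submodule.subset_span ⟨y, hy, rfl⟩
    | zero => rw [map_zero]; exact zero_mem _
    | add y z _ _ hy hz => rw [map_add]; exact add_mem hy hz
    | neg y _ hy => rw [map_neg]; exact neg_mem hy
  set ψ' : HomMod O S (⊤ : Subgroup (ZMod L)ˣ) P := toHomMod
    (AddMonoidHom.mk' (fun x => (⟨ψ x, hmem x⟩ : P)) fun x y => Subtype.ext (map_add ψ x y))
  have heig : ∀ i : {ℓ : ℕ // ℓ.Prime ∧ ℓ ∉ S},
      (X (Sum.inr i) : OpRing O L S) • ψ' = a i.1 • ψ' := by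
    intro i
    have : Fact i.1.Prime := ⟨i.2.1⟩
    have hinjP : Function.Injective (mapCoeff (M := L) (S := S)
        (K := (⊤ : Subgroup (ZMod L)ˣ)) P.subtype) := fun φ φ' h =>
      DFunLike.ext _ _ fun γ => Subtype.ext (DFunLike.congr_fun h γ)
    refine hinjP ?_
    rw [map_smul, LinearMap.map_smul_of_tower, X_inr_smul]
    refine DFunLike.ext _ _ fun γ => ?_
    show hecke L ⊤ i.1 O ψ γ = a i.1 • ψ γ
    rw [Algebra.smul_def]
    exact DFunLike.congr_fun (hψ i.1 i.2.2) γ
  set b := Module.Free.chooseBasis O P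
  have hu : ∀ j, mapCoeff (M := L) (S := S) (b.coord j) ψ' ∈ eigVec S L a := fun j => by
    rw [mem_eigVec]
    intro i
    rw [← map_smul, heig, LinearMap.map_smul_of_tower]
  have hsum : ψ = ∑ j, (b j : ℂ) • toHomC (mapCoeff (M := L) (S := S) (b.coord j) ψ') := by
    refine AddMonoidHom.ext fun x => ?_
    rw [AddMonoidHom.finsetSum_apply]
    refine Eq.trans ?_ (Finset.sum_congr rfl fun j _ => show b.repr ⟨ψ x, hmem x⟩ j • (b j : ℂ) =
      ((b j : ℂ) • toHomC (mapCoeff (M := L) (S := S) (b.coord j) ψ')) x by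
        rw [AddMonoidHom.smul_apply, toHomC_apply, Algebra.smul_def, smul_eq_mul, mul_comm]; rfl)
    conv_lhs => rw [show ψ x = ((⟨ψ x, hmem x⟩ : P) : ℂ) from rfl, ← b.sum_repr ⟨ψ x, hmem x⟩]
    rw [Submodule.coe_sum]
    exact Finset.sum_congr rfl fun j _ => rfl
  rw [hsum]
  exact Submodule.sum_mem _ fun j _ =>
    Submodule.smul_mem _ _ (Submodule.subset_span ⟨_, hu j, rfl⟩)

/-- A class in the complex span of a set is, up to a nonzero scalar, in its span. -/
theorem exists_smul_mem_span (hinj : Function.Injective (algebraMap O ℂ))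
    (T : Set (Classes O S L)) {u : Classes O S L}
    (hu : toHomC u ∈ Submodule.span ℂ (toHomC '' T)) :
    ∃ c : O, c ≠ 0 ∧ c • u ∈ Submodule.span O T := by
  classical
  have : FaithfulSMul O ℂ := (faithfulSMul_iff_algebraMap_injective O ℂ).2 hinj
  set Y := Submodule.span O T
  by_contra! hne
  set b := Module.Free.chooseBasis O Y
  let v : Option (Module.Free.ChooseBasisIndex O Y) → Classes O S L :=
    fun o => o.elim u fun j => (b j : Classes O S L)
  have hli : LinearIndependent O v := by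
    rw [Fintype.linearIndependent_iff]
    intro c hc
    rw [Fintype.sum_option] at hc
    have hmem : c none • u ∈ Y := by
      rw [show c none • u = -(∑ j, c (some j) • (b j : Classes O S L)) from
        eq_neg_of_add_eq_zero_left hc]
      exact neg_mem (Submodule.sum_mem _ fun j _ => Y.smul_mem _ (b j).2)
    have h0 : c none = 0 := by
      by_contra h0
      exact hne _ h0 hmem
    change c none • u + _ = 0 at hc
    rw [h0, zero_smul, zero_add] at hc
    have hb : LinearIndependent O fun j => (b j : Classes O S L) :=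
      b.linearIndependent.map' Y.subtype (Submodule.ker_subtype Y)
    rintro (_ | j)
    · exact h0
    · exact Fintype.linearIndependent_iff.1 hb _ hc j
  obtain ⟨n, γ, hγ⟩ := exists_coords (K := (⊤ : Subgroup (ZMod L)ˣ))
  let ev : Classes O S L →ₗ[O] (Fin n → O) :=
    { toFun := fun φ i => φ (γ i)
      map_add' := fun _ _ => rfl
      map_smul' := fun _ _ => rfl }
  let evC : HomC (⊤ : Subgroup (ZMod L)ˣ) →ₗ[ℂ] (Fin n → ℂ) :=
    { toFun := fun φ i => φ (γ i)
      map_add' := fun _ _ => rfl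
      map_smul' := fun _ _ => rfl }
  have hli' : LinearIndependent ℂ fun o => toHomC (v o) := by
    have h := (linearIndependent_algebraMap_comp_iff (S := ℂ)).2
      (hli.map' ev (LinearMap.ker_eq_bot.2 fun φ φ' h => hγ O φ φ' (congrFun h)))
    refine LinearIndependent.of_comp evC ?_
    exact h
  refine hli'.notMem_span_image (s := Set.range some) (x := none) (by simp) ?_
  refine Submodule.span_le.2 ?_ hu
  rintro _ ⟨t, ht, rfl⟩
  have htY : t ∈ Y := Submodule.subset_span ht
  have hsum : t = ∑ j, b.repr ⟨t, htY⟩ j • (b j : Classes O S L) := by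
    have := congrArg Subtype.val (b.sum_repr ⟨t, htY⟩)
    rw [Submodule.coe_sum] at this
    exact this.symm
  rw [hsum, map_sum]
  refine Submodule.sum_mem _ fun j _ => ?_
  rw [map_smul, smul_eq_algebraMap_smul]
  exact Submodule.smul_mem _ _ (Submodule.subset_span ⟨some j, ⟨j, rfl⟩, rfl⟩)

end Complex

end Fermat.Agent.RT.Lifting.Step
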