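import Fermat.Agent.RT.Lifting.Step.Periods
import Fermat.Agent.RT.Lifting.Step.Descent

/-!
# The support property of eigen classes and eigen functionals

`eigenSupportProperty`: classes with the system of a newform of level `M` come from level `M`, and
an eigen functional not vanishing on a stable submodule gives an eigen class in it.
-/

set_option autoImplicit false
set_option linter.style.haveILetI false

noncomputable section

namespace Fermat.Agent.RT.Lifting.Step

open IsLocalRing MvPolynomial CongruenceSubgroup ModularFormClass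
open ModularCurve.Period
open Fermat.Agent.RT.GammaH

variable {O : Type} [CommRing O] [IsDomain O] [IsPrincipalIdealRing O] [Algebra O ℂ]
  {S : Finset ℕ} {L M : ℕ} [NeZero L] [NeZero M] {a : ℕ → O} {g : CuspForm (Gamma0 M) 2}

omit [IsDomain O] [IsPrincipalIdealRing O] [NeZero L] [NeZero M] in
theorem toHomC_degCls {d : ℕ} [NeZero d] (h : d * M ∣ L) (w : Classes O S M) :
    toHomC (degCls d O S h w) = degC h (toHomC w) := rfl

omit [IsDomain O] [IsPrincipalIdealRing O] [NeZero L] [NeZero M] in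
theorem toHomC_hecke_eigen (hS : ∀ q : ℕ, q.Prime → q ∣ L → q ∈ S) (hM : M ∣ L)
    (hga : ∀ ℓ : ℕ, ℓ.Prime → ¬ ℓ ∣ M → qCoeff g ℓ = algebraMap O ℂ (a ℓ)) {u : Classes O S L}
    (hu : u ∈ eigVec S L a) (ℓ : ℕ) [hℓ : Fact ℓ.Prime] (hℓS : ℓ ∉ S) :
    hecke L ⊤ ℓ ℂ (toHomC u) = qCoeff g ℓ • toHomC u := by
  rw [toHomC_eigVec hu hℓS, hga ℓ hℓ.out fun h => hℓS (hS ℓ hℓ.out (h.trans hM))]

omit [IsDomain O] [IsPrincipalIdealRing O] in
/-- At every prime not dividing the level an eigen class has the eigenvalue of the newform. -/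
theorem hecke_eq_of_mem_eigVec (hinj : Function.Injective (algebraMap O ℂ)) (hg : g.IsNewform)
    (hS : ∀ q : ℕ, q.Prime → q ∣ L → q ∈ S) (hM : M ∣ L)
    (hga : ∀ ℓ : ℕ, ℓ.Prime → ¬ ℓ ∣ M → qCoeff g ℓ = algebraMap O ℂ (a ℓ)) {u : Classes O S L}
    (hu : u ∈ eigVec S L a) {ℓ : ℕ} [hℓ : Fact ℓ.Prime] (hℓL : ¬ ℓ ∣ L) :
    hecke L ⊤ ℓ O (toHomMod.symm u) = a ℓ • toHomMod.symm u := by
  have h := hecke_eq_of_eigen hg hM hS (toHomC_hecke_eigen hS hM hga hu) hℓL
  rw [hga ℓ hℓ.out fun hd => hℓL (hd.trans hM), ← smul_eq_algebraMap_smul, ← map_smul] at h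
  refine toHomC_injective (O := O) (S := S) hinj (Eq.trans ?_ h)
  exact (opOf_comp_coeff (R := O) (S := O) admissible_hRep
    (Algebra.linearMap O ℂ).toAddMonoidHom (toHomMod.symm u)).symm

/-- Eigen classes come from the level of the newform. -/
theorem exists_smul_mem_degCls (hinj : Function.Injective (algebraMap O ℂ)) (hg : g.IsNewform)
    (hS : ∀ q : ℕ, q.Prime → q ∣ L → q ∈ S) (hM : M ∣ L)
    (hga : ∀ ℓ : ℕ, ℓ.Prime → ¬ ℓ ∣ M → qCoeff g ℓ = algebraMap O ℂ (a ℓ)) {u : Classes O S L}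
    (hu : u ∈ eigVec S L a) :
    ∃ c : O, c ≠ 0 ∧ c • u ∈ Submodule.span O
      {y | ∃ (d : ℕ) (_ : NeZero d) (h : d * M ∣ L), ∃ w ∈ eigVec S M a,
        degCls d O S h w = y} := by
  refine exists_smul_mem_span hinj _ ?_
  refine Submodule.span_le.2 ?_ (mem_span_degC hg hM hS (toHomC_hecke_eigen hS hM hga hu))
  rintro _ ⟨d, hd, h, ψ, hψ, rfl⟩
  have hψ' := mem_span_eigVec (O := O) (S := S) (a := a) hinj (ψ := ψ) fun ℓ hℓ hℓS => by
    rw [hψ ℓ hℓS, hga ℓ hℓ.out fun hdM => hℓS (hS ℓ hℓ.out (hdM.trans hM))]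
  have hmap := Submodule.mem_map_of_mem (f := degC h) hψ'
  rw [Submodule.map_span] at hmap
  refine Submodule.span_mono ?_ hmap
  rintro _ ⟨_, ⟨w, hw, rfl⟩, rfl⟩
  exact ⟨degCls d O S h w, ⟨d, hd, h, w, hw, rfl⟩, toHomC_degCls h w⟩

/-- An eigen functional not vanishing on a stable submodule gives an eigen class in it. -/
theorem exists_eigVec_of_isEigFun (hinj : Function.Injective (algebraMap O ℂ))
    (hg : g.IsNormalizedEigenform) (hS : ∀ q : ℕ, q.Prime → q ∣ L → q ∈ S) (hM : M ∣ L)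
    (hga : ∀ ℓ : ℕ, ℓ.Prime → ¬ ℓ ∣ M → qCoeff g ℓ = algebraMap O ℂ (a ℓ))
    {V : Submodule O (Classes O S L)}
    (hV : ∀ i, ∀ v ∈ V, (X (Sum.inr i) : OpRing O L S) • v ∈ V)
    {φ : Classes O S L →ₗ[O] O} (hφ : IsEigFun S L a φ) (hne : ∃ v ∈ V, φ v ≠ 0) :
    ∃ v ∈ V, v ≠ 0 ∧ v ∈ eigVec S L a := by
  classical
  have hVP : ∀ (P : OpRing O L S), ∀ v ∈ V, P • v ∈ V := by
    intro P
    induction P using MvPolynomial.induction_on with
    | C c => intro v hv; rw [← algebraMap_eq, algebraMap_smul]; exact V.smul_mem c hv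
    | add x y hx hy => intro v hv; rw [add_smul]; exact add_mem (hx v hv) (hy v hv)
    | mul_X x i hx =>
      intro v hv
      rw [mul_smul]
      rcases i with z | i
      · rw [inl_smul]; exact hx v hv
      · exact hx _ (hV i v hv)
  -- the Eisenstein prime
  obtain ⟨ℓ₀, hbig, hℓ₀, hmod⟩ := Nat.forall_exists_prime_gt_and_modEq
    (S.sup id) (NeZero.ne L) (Nat.coprime_one_left L)
  have hℓ₀S : ℓ₀ ∉ S := fun h => absurd (Finset.le_sup (f := id) h) (not_le.2 hbig)
  have := Fact.mk hℓ₀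
  have hℓ₀L : ¬ ℓ₀ ∣ L := fun h => hℓ₀S (hS _ hℓ₀ h)
  have hℓ₁ : (L : ℤ) ∣ (ℓ₀ : ℤ) - 1 := by simpa using Nat.modEq_iff_dvd.1 hmod.symm
  set i₀ : {ℓ : ℕ // ℓ.Prime ∧ ℓ ∉ S} := ⟨ℓ₀, hℓ₀, hℓ₀S⟩
  set t : OpRing O L S := X (Sum.inr i₀) - C ((1 : O) + ℓ₀) with ht
  have hpar : ∀ y : Classes O S L,
      toHomC (t • y) ∈ parabolicHoms ℂ (gammaH L ⊤) ℂ := fun y => by
    have : Fact i₀.1.Prime := ⟨hℓ₀⟩
    rw [ht, sub_smul, ← algebraMap_eq, algebraMap_smul, map_sub, hecke_toHomC, map_smul,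
      smul_eq_algebraMap_smul, map_add, map_one, map_natCast]
    exact hecke_sub_mem_parabolicHoms hℓ₀L hℓ₁ _
  -- the operators `T_ℓ - a_ℓ` and their semisimplicity
  let b : {ℓ : ℕ // ℓ.Prime ∧ ℓ ∉ S} → OpRing O L S := fun i => X (Sum.inr i) - C (a i.1)
  let H := Classes O S L
  have hsemi : ∀ i (y : H) (k : ℕ), b i ^ k • t • y = 0 → b i • t • y = 0 := by
    intro i y k h
    have : Fact i.1.Prime := ⟨i.2.1⟩
    have hb : opC O S (⊤ : Subgroup (ZMod L)ˣ) (b i) =
        (hecke L ⊤ i.1 ℂ - algebraMap O ℂ (a i.1) • 1 : Module.End ℂ (HomTop L)) := by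
      rw [map_sub, opC_inr, opC_C, Algebra.algebraMap_eq_smul_one]
    refine toHomC_injective hinj ?_
    rw [map_zero, toHomC_smul, hb, LinearMap.sub_apply, LinearMap.smul_apply, Module.End.one_apply,
      sub_eq_zero]
    refine hecke_eq_of_pow (fun hd => i.2.2 (hS _ i.2.1 hd)) _ k (hpar y) ?_
    rw [← hb, ← map_pow, ← toHomC_smul, h, map_zero]
  have hh : ∀ i, ∃ P : OpRing O L S, opEval L a P ≠ 0 ∧ ∀ y : H, b i • P • t • y = 0 := by
    intro i
    obtain ⟨μ, hμm, hμ⟩ := Algebra.IsIntegral.isIntegral (R := O)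
      (opAct O S (⊤ : Subgroup (ZMod L)ˣ) O (b i))
    obtain ⟨h', hμh, hh'⟩ := Polynomial.exists_eq_pow_rootMultiplicity_mul_and_not_dvd μ
      hμm.ne_zero 0
    rw [map_zero, sub_zero] at hμh hh'
    set k := Polynomial.rootMultiplicity 0 μ
    refine ⟨Polynomial.aeval (b i) h', ?_, fun y => ?_⟩
    · have hb0 : opEval L a (b i) = 0 := by
        simp only [b, map_sub, opEval_inr, ← algebraMap_eq, AlgHom.commutes]
        exact sub_self _
      rw [← Polynomial.aeval_algHom_apply, hb0, ← Polynomial.coeff_zero_eq_aeval_zero]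
      exact fun h0 => hh' (Polynomial.X_dvd_iff.2 h0)
    · rw [smul_comm (Polynomial.aeval (b i) h') t y]
      refine hsemi i (Polynomial.aeval (b i) h' • y) k ?_
      rw [smul_comm t (Polynomial.aeval (b i) h') y, smul_smul]
      have e : b i ^ k * Polynomial.aeval (b i) h' = Polynomial.aeval (b i) μ := by
        rw [hμh, map_mul, map_pow, Polynomial.aeval_X]
      rw [e, smul_eq_opAct, ← Polynomial.aeval_algHom_apply, Polynomial.aeval_def, hμ]
      rfl
  choose P hP0 hP using hh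
  -- finitely many of them suffice
  obtain ⟨s, hsr, hs⟩ := (Submodule.fg_span_iff_fg_span_finset_subset (R := O) (Set.range fun i =>
    opAct O S (⊤ : Subgroup (ZMod L)ˣ) O (b i))).1 (IsNoetherian.noetherian _)
  rw [← Set.image_univ] at hsr
  obtain ⟨T, -, rfl⟩ := Finset.subset_set_image_iff.1 hsr
  obtain ⟨v₀, hv₀, hφv₀⟩ := hne
  set w := (∏ i ∈ T, P i) • t • v₀
  have hwb : ∀ i, b i • w = 0 := by
    intro i
    have hi : opAct O S (⊤ : Subgroup (ZMod L)ˣ) O (b i) ∈ Submodule.span O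
        ((T.image fun i => opAct O S (⊤ : Subgroup (ZMod L)ˣ) O (b i) :
          Finset (Module.End O H)) : Set (Module.End O H)) := by
      rw [← hs]; exact Submodule.subset_span ⟨i, rfl⟩
    show opAct O S (⊤ : Subgroup (ZMod L)ˣ) O (b i) w = 0
    generalize opAct O S (⊤ : Subgroup (ZMod L)ˣ) O (b i) = Q at hi ⊢
    induction hi using Submodule.span_induction with
    | mem x hx =>
      obtain ⟨j, hj, rfl⟩ := Finset.mem_image.1 (Finset.mem_coe.1 hx)
      show b j • w = 0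
      simp only [w]
      rw [← Finset.mul_prod_erase T P hj, mul_smul, smul_comm (∏ x ∈ T.erase j, P x) t v₀]
      exact hP j _
    | zero => rfl
    | add x y _ _ hx hy => rw [LinearMap.add_apply, hx, hy, add_zero]
    | smul c x _ hx => rw [LinearMap.smul_apply, hx, smul_zero]
  refine ⟨w, hVP _ _ (hVP _ _ hv₀), ?_, mem_eigVec.2 fun i => ?_⟩
  · have hne₀ : opEval L a t ≠ 0 := by
      rw [ht, map_sub, opEval_inr, ← algebraMap_eq, AlgHom.commutes]
      refine sub_ne_zero.2 fun h => qCoeff_ne_mul_succ hℓ₀ (fun hd => hℓ₀L (hd.trans hM)) hg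
        (s := 1) (Or.inl rfl) ?_
      rw [hga ℓ₀ hℓ₀ fun hd => hℓ₀L (hd.trans hM), show a ℓ₀ = (1 : O) + ℓ₀ from h]
      simp [add_comm]
    intro h0
    have := congrArg φ h0
    rw [map_zero, eigFun_smul hφ, eigFun_smul hφ, map_prod] at this
    exact mul_ne_zero (Finset.prod_ne_zero_iff.2 fun i _ => hP0 i) (mul_ne_zero hne₀ hφv₀) this
  · have := hwb i
    simp only [b, sub_smul, ← algebraMap_eq, algebraMap_smul, sub_eq_zero] at this
    exact this

end Step

variable {O : Type} [CommRing O] [IsDomain O] [IsDiscreteValuationRing O]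

/-- **Eigen classes are supported at the level of their newform.** -/
theorem eigenSupportProperty (S : Finset ℕ) (abar : ℕ → IsLocalRing.ResidueField O) :
    EigenSupportProperty S abar := by
  intro ι hι M L _ _ a g hg hM hga hS _
  letI : Algebra O ℂ := ι.toAlgebra
  exact ⟨fun u hu => Step.exists_smul_mem_degCls hι hg hS hM hga hu,
    fun V hV φ hφ hne => Step.exists_eigVec_of_isEigFun hι hg.1 hS hM hga hV hφ hne⟩

end Fermat.Agent.RT.Lifting
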