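import Fermat.Agent.RT.Lift.Local
import Fermat.Agent.RT.Lift.Bound
import Fermat.Agent.RT.Lifting.Step.Degree
import Fermat.Agent.RT.Lifting.Step.Support

/-!
# The congruence step from level `R` to level `R p`

`degUp (f, g)` is the sum of the two degeneracy images and `degDown` its transpose. An eigen
functional at level `R p` of a system of level `R` kills the kernel of `degDown`, and by Ihara's
lemma the local classes at level `R` lie in the range of `degDown`; so the values of eigen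
functionals at `degUp (α u, -u)`, `α` a root of `X ^ 2 - a_p X + p`, are divisible by `D (α ^ 2 - 1)`
when those at `u` are divisible by `D`.
-/

set_option autoImplicit false
set_option linter.style.haveILetI false

noncomputable section

namespace Fermat.Agent.RT.Lifting.Step

open IsLocalRing MvPolynomial CongruenceSubgroup ModularFormClass
open Fermat.Agent.RT.GammaH Fermat.Agent.RT.Lift
open Fermat.Agent.LevelRaising (RaiseData AuxPrime levelM levelM_ne_zero)

theorem degCls_congr {O : Type} [CommRing O] {S : Finset ℕ} {M L d d' : ℕ} [NeZero d] [NeZero d']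
    (e : d = d') (h : d * M ∣ L) (h' : d' * M ∣ L) (w : Classes O S M) :
    degCls d O S h w = degCls d' O S h' w := by
  subst e
  rfl

section Degeneracy

variable {O : Type} [CommRing O] {R p : ℕ} {S : Finset ℕ} {a : ℕ → O} (h : RaiseData p R)

variable (O S) in
/-- The sum of the two degeneracy images. -/
def degUp : Classes O S R × Classes O S R →ₗ[O] Classes O S (R * p) := degH O S h ⊤ 0

variable (O S) in
/-- The transpose of `degUp`. -/
def degDown : Classes O S (R * p) →ₗ[O] Classes O S R × Classes O S R := degStarH O S h ⊤ 0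

theorem degUp_apply [NeZero p] (h1 : 1 * R ∣ R * p) (hp : p * R ∣ R * p)
    (φ : Classes O S R × Classes O S R) :
    degUp O S h φ = degCls 1 O S h1 φ.1 + degCls p O S hp φ.2 := by
  rw [degCls_eq_degOp, degCls_eq_degOp]
  refine (congrArg₂ (· + ·) ?_ (congrArg (conjDeg h O ⊤) (diamond_top O _ φ.2)) :
    resDeg O p ⊤ φ.1 + conjDeg h O ⊤ (diamond R ⊤ O (qUnit h ^ (0 + 1)) φ.2) = _)
  refine LinearMap.congr_fun (opOf_congr (admissible_rRep (q := p)) (admissible_deg h1)
    (Equiv.refl _) fun _ => ?_) φ.1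
  have : (ModularForm.heckeDiagMatrix 1 : GLR) = 1 := by
    refine Units.ext ?_
    rw [ModularForm.val_heckeDiagMatrix one_ne_zero, Units.val_one]
    ext i j
    fin_cases i <;> fin_cases j <;> simp
  simp [this]

theorem lowerOp_inr (i : {ℓ : ℕ // ℓ.Prime ∧ ℓ ∉ S}) :
    lowerOp O R p S (X (Sum.inr i)) = X (Sum.inr i) := by
  simp [lowerOp]

theorem degDown_smul (hpS : p ∈ S) (P : OpRing O (R * p) S) (x : Classes O S (R * p)) :
    degDown O S h (P • x) = lowerOp O R p S P • degDown O S h x :=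
  degStarH_smul (K := (⊤ : Subgroup (ZMod R)ˣ)) (A := O) h hpS 0 P x

theorem degUp_mem_eigVec (hpS : p ∈ S) {f : Classes O S R × Classes O S R}
    (h₁ : f.1 ∈ eigVec S R a) (h₂ : f.2 ∈ eigVec S R a) :
    degUp O S h f ∈ eigVec S (R * p) a := by
  refine mem_eigVec.2 fun i => ?_
  refine (degH_smul (K := (⊤ : Subgroup (ZMod R)ˣ)) (A := O) h hpS 0 (X (Sum.inr i)) f).symm.trans ?_
  rw [lowerOp_inr, show (X (Sum.inr i) : OpRing O R S) • f = a i.1 • f from
    Prod.ext (mem_eigVec.1 h₁ i) (mem_eigVec.1 h₂ i)]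
  exact map_smul (degUp O S h) _ _

/-- The composite is `(p + 1, T_p; T_p, p + 1)`. -/
theorem degDown_degUp [Fact p.Prime] (φ : Classes O S R × Classes O S R) :
    degDown O S h (degUp O S h φ) =
      (((p : O) + 1) • φ.1 + toHomMod (hecke R ⊤ p O (toHomMod.symm φ.2 :)),
        toHomMod (hecke R ⊤ p O (toHomMod.symm φ.1 :)) + ((p : O) + 1) • φ.2) := by
  refine (degStar_degMap h O (e := 0) (Subgroup.mem_top _) φ).trans ?_
  rw [← Nat.cast_succ, Nat.cast_smul_eq_nsmul, Nat.cast_smul_eq_nsmul]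
  simp only [symT, Module.End.mul_apply, diamond_top]
  rfl

end Degeneracy

section Localizer

variable {O : Type} [CommRing O] [IsLocalRing O] {S : Finset ℕ} {L : ℕ} {a : ℕ → O}
  {abar : ℕ → ResidueField O}

/-- An eigen class of a congruent system lies in the local part. -/
theorem eigVec_mem_localPart (ha : ∀ ℓ : ℕ, ℓ.Prime → ℓ ∉ S → residue O (a ℓ) = abar ℓ)
    {e : OpRing O L S} (he : IsLocalizer (resIdeal S abar L) (Classes O S L) e) {u : Classes O S L}
    (hu : u ∈ eigVec S L a) : e • u = u := by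
  have hE : IsUnit (opEval L a e) := by
    rw [← residue_ne_zero_iff_isUnit, residue_opEval ha]
    have h1 := (mem_resIdeal S abar).1 he.sub_one_mem
    rw [map_sub, map_one, sub_eq_zero] at h1
    rw [h1]
    exact one_ne_zero
  refine hE.smul_left_cancel.1 ?_
  rw [← eigVec_smul hu e, smul_comm, ← eigVec_smul hu e, he.idem]

end Localizer

section Step

variable {O : Type} [CommRing O] [IsDomain O] [IsDiscreteValuationRing O] {R p : ℕ} {S : Finset ℕ}
  {a : ℕ → O} (h : RaiseData p R)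

/-- An eigen functional at level `R p` of a system of level `R` kills the kernel of `degDown`. -/
theorem eigFun_eq_zero_of_degDown [Algebra O ℂ] (hinj : Function.Injective (algebraMap O ℂ))
    [NeZero R] {M : ℕ} [NeZero M] {g : CuspForm (Gamma0 M) 2} (hg : g.IsNewform) (hM : M ∣ R)
    (hga : ∀ ℓ : ℕ, ℓ.Prime → ¬ ℓ ∣ M → qCoeff g ℓ = algebraMap O ℂ (a ℓ))
    (hS : ∀ q : ℕ, q.Prime → q ∣ R → q ∈ S) (hpS : p ∈ S) {φ : Classes O S (R * p) →ₗ[O] O}
    (hφ : IsEigFun S (R * p) a φ) {x : Classes O S (R * p)} (hx : degDown O S h x = 0) :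
    φ x = 0 := by
  have : Fact p.Prime := ⟨h.prime⟩
  have : NeZero p := ⟨h.prime.ne_zero⟩
  have hpM : ¬ p ∣ M := fun hd => h.not_dvd (hd.trans hM)
  have hS' : ∀ q : ℕ, q.Prime → q ∣ R * p → q ∈ S := fun q hq hd =>
    (hq.dvd_mul.1 hd).elim (hS q hq) fun hd => (Nat.prime_dvd_prime_iff_eq hq h.prime).1 hd ▸ hpS
  by_contra hne
  obtain ⟨v, hv, hv0, hve⟩ := exists_eigVec_of_isEigFun hinj hg.1 hS' (hM.mul_right p) hga
    (V := LinearMap.ker (degDown O S h)) (fun i v hv => by
      rw [LinearMap.mem_ker] at hv ⊢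
      rw [degDown_smul h hpS, hv, smul_zero]) hφ ⟨x, hx, hne⟩
  obtain ⟨c, hc, hcv⟩ := exists_smul_mem_degCls hinj hg hS' (hM.mul_right p) hga hve
  have hle : Submodule.span O
      {y | ∃ (d : ℕ) (_ : NeZero d) (h : d * M ∣ R * p), ∃ w ∈ eigVec S M a,
        degCls d O S h w = y} ≤
      ((eigVec S R a).prod (eigVec S R a)).map (degUp O S h) := by
    have h1 : 1 * R ∣ R * p := ⟨p, by ring⟩
    have hpR : p * R ∣ R * p := ⟨1, by ring⟩
    rw [Submodule.span_le]
    rintro _ ⟨d, _, hd, w, hw, rfl⟩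
    by_cases hpd : p ∣ d
    · obtain ⟨d', rfl⟩ := hpd
      have : NeZero d' := ⟨(mul_ne_zero_iff.1 (NeZero.ne (p * d'))).2⟩
      have hd' : d' * M ∣ R := by
        refine Nat.dvd_of_mul_dvd_mul_left h.prime.pos ?_
        rwa [← mul_assoc, mul_comm p R]
      refine ⟨(0, degCls d' O S hd' w), ⟨zero_mem _, degCls_mem_eigVec hd' hS hw⟩, ?_⟩
      rw [degUp_apply h h1 hpR, map_zero, zero_add,
        degCls_degCls hpR hd' (mul_comm p d' ▸ hd)]
      exact degCls_congr (mul_comm d' p) _ _ w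
    · have hd' : d * M ∣ R := by
        refine Nat.Coprime.dvd_of_dvd_mul_right (Nat.Coprime.symm ?_) hd
        rw [Nat.Prime.coprime_iff_not_dvd h.prime, h.prime.dvd_mul]
        exact not_or.2 ⟨hpd, hpM⟩
      refine ⟨(degCls d O S hd' w, 0), ⟨degCls_mem_eigVec hd' hS hw, zero_mem _⟩, ?_⟩
      rw [degUp_apply h h1 hpR, map_zero, add_zero,
        degCls_degCls h1 hd' ((mul_one d).symm ▸ hd)]
      exact degCls_congr (mul_one d) _ _ w
  obtain ⟨⟨f₁, f₂⟩, ⟨hf₁, hf₂⟩, hf⟩ := hle hcv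
  have h0 := congrArg (degDown O S h) hf
  rw [degDown_degUp, map_smul, LinearMap.mem_ker.1 hv, smul_zero, Prod.mk_eq_zero,
    hecke_eq_of_mem_eigVec hinj hg hS hM hga hf₁ h.not_dvd,
    hecke_eq_of_mem_eigVec hinj hg hS hM hga hf₂ h.not_dvd, map_smul, map_smul,
    LinearEquiv.apply_symm_apply, LinearEquiv.apply_symm_apply] at h0
  obtain ⟨e1, e2⟩ := h0
  set A : O := ((p : O) + 1) ^ 2 - a p ^ 2
  have hA : A ≠ 0 := sub_ne_zero.2 fun e => qCoeff_sq_ne h.prime hpM hg.1 (by
    rw [hga p h.prime hpM, ← map_pow, ← e, map_pow, map_add, map_natCast, map_one])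
  have hf1 : A • f₁ = 0 := by
    linear_combination (norm := module) ((p : O) + 1) • e1 - a p • e2
  have hf2 : A • f₂ = 0 := by
    linear_combination (norm := module) ((p : O) + 1) • e2 - a p • e1
  rw [(smul_eq_zero.1 hf1).resolve_left hA, (smul_eq_zero.1 hf2).resolve_left hA,
    Prod.mk_zero_zero, map_zero] at hf
  exact hv0 ((smul_eq_zero.1 hf.symm).resolve_left hc)

variable [IsAdicComplete (maximalIdeal O) O] {abar : ℕ → ResidueField O}

omit [IsDomain O] [IsDiscreteValuationRing O] [IsAdicComplete (maximalIdeal O) O] in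
/-- The eigen functional at level `R` induced through `degDown` and `j`. -/
theorem exists_dvd_of_range [NeZero R] (hpS : p ∈ S) {e' : OpRing O R S}
    (hrange : ∀ w : Classes O S R × Classes O S R, e' • w = w →
      w ∈ LinearMap.range (degDown O S h))
    (hidem : ∀ z : Classes O S R, e' • e' • z = e' • z)
    {φ : Classes O S (R * p) →ₗ[O] O} (hφ : IsEigFun S (R * p) a φ)
    (hker : ∀ x, degDown O S h x = 0 → φ x = 0) {D : O} {u : Classes O S R} (hu : e' • u = u)
    (hD : ∀ ψ, IsEigFun S R a ψ → D ∣ ψ u)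
    (j : Classes O S R →ₗ[OpRing O R S] Classes O S R × Classes O S R) :
    ∃ x, degDown O S h x = j u ∧ D ∣ φ x := by
  set f := degDown O S h
  let k : Classes O S R →ₗ[O] Classes O S R × Classes O S R :=
    j.restrictScalars O ∘ₗ opAct O S (⊤ : Subgroup (ZMod R)ˣ) O e'
  have hk : ∀ z, k z = j (e' • z) := fun _ => rfl
  have hmem : ∀ z, k z ∈ LinearMap.range f := fun z => by
    rw [hk]
    exact hrange _ (by rw [← map_smul, hidem])
  have hle : LinearMap.ker f ≤ LinearMap.ker φ := fun x hx =>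
    LinearMap.mem_ker.2 (hker x (LinearMap.mem_ker.1 hx))
  set w : Classes O S R →ₗ[O] O :=
    (LinearMap.ker f).liftQ φ hle ∘ₗ f.quotKerEquivRange.symm.toLinearMap ∘ₗ
      k.codRestrict (LinearMap.range f) hmem
  have hw : ∀ z x, f x = k z → w z = φ x := fun z x hx => by
    have e : k.codRestrict (LinearMap.range f) hmem z = ⟨f x, x, rfl⟩ := Subtype.ext hx.symm
    have e' : f.quotKerEquivRange.symm ⟨f x, x, rfl⟩ = Submodule.Quotient.mk x := by
      rw [LinearEquiv.symm_apply_eq]; rfl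
    show (LinearMap.ker f).liftQ φ hle (f.quotKerEquivRange.symm _) = φ x
    rw [e, e', Submodule.liftQ_apply]
  obtain ⟨x, hx⟩ := hmem u
  refine ⟨x, hx.trans (by rw [hk, hu]), hw u x hx ▸ hD w fun i z => ?_⟩
  obtain ⟨y, hy⟩ := hmem z
  rw [hw z y hy, ← hφ i y]
  refine hw _ _ ?_
  rw [degDown_smul h hpS, lowerOp_inr, hy, hk, hk, ← map_smul, smul_comm]

/-- Ihara's lemma: the local classes at level `R` are in the range of `degDown`. -/
theorem mem_range_degDown [CharZero O] [CharP (ResidueField O) p] [NeZero R] (hp2 : p ≠ 2)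
    (hpS : p ∈ S) {ℓ : ℕ} (aux : AuxPrime p R ℓ) (hℓS : ℓ ∉ S)
    (hℓ : abar ℓ ≠ 1 + (ℓ : ResidueField O)) :
    ∃ e' : OpRing O R S, IsLocalizer (resIdeal S abar R) (Classes O S R) e' ∧
      ∀ w : Classes O S R × Classes O S R, e' • w = w →
        w ∈ LinearMap.range (degDown O S h) := by
  have : NeZero (R * p) := ⟨mul_ne_zero (NeZero.ne R) h.prime.ne_zero⟩
  obtain ⟨e, he, he'⟩ := exists_isLocalizer_pair (O := O) (q := p) S (K := (⊤ : Subgroup (ZMod R)ˣ)) abar
  refine ⟨lowerOp O R p S e, he', ?_⟩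
  set e' := lowerOp O R p S e
  obtain ⟨ϖ, hϖ⟩ := IsDiscreteValuationRing.exists_irreducible O
  set P := localPart O e' (Classes O S R × Classes O S R)
  suffices P ≤ LinearMap.range (degDown O S h) from fun w hw => this hw
  refine Submodule.le_of_le_smul_of_le_jacobson_bot (IsNoetherian.noetherian P)
    (maximalIdeal_le_jacobson ⊥) fun w hw => ?_
  obtain ⟨x, -, χ, hχ1, hχ2, hx⟩ := exists_degStarH_sub_eq_smul (q := p) h aux h.prime hp2 hℓS hℓ
    hϖ hpS he he' 0 (w := w) (congrArg Prod.fst hw) (congrArg Prod.snd hw)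
  have hχ : χ ∈ P := Prod.ext hχ1 hχ2
  have key : ∀ A B C : Classes O S R × Classes O S R, A - B = C → B = A + -C :=
    fun A B C e => by rw [← e]; abel
  rw [key (degDown O S h x) w _ hx]
  exact Submodule.add_mem_sup ⟨x, rfl⟩ (neg_mem (Submodule.smul_mem_smul
    (hϖ.maximalIdeal_eq ▸ Ideal.mem_span_singleton_self ϖ) hχ))

end Step

end Step

variable {O : Type} [CommRing O] [IsDomain O] [IsDiscreteValuationRing O]
  [IsAdicComplete (IsLocalRing.maximalIdeal O) O]

open IsLocalRing MvPolynomial Fermat.Agent.Arith Fermat.Agent.Deform Fermat.Agent.RT.GammaH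
  Fermat.Agent.RT.Lift Step in
open Fermat.Agent.LevelRaising (RaiseData AuxPrime levelM levelM_ne_zero) in
/-- **The congruence bound from level `R` to level `R p`.** -/
theorem pStepProperty {p : ℕ} {W : Rigid O} {ρbar : ResidualGaloisRep (ResidueField O)}
    {bb : Module.Basis (Fin 2) (ResidueField O) ρbar.V} {S : Finset ℕ}
    {abar : ℕ → ResidueField O} {N₀ : ℕ} (hdat : IsResidualDatum p W ρbar bb S abar N₀) :
    PStepProperty p S abar := by
  intro ι hι R _ a D α hpR hpS hS hαu hαeq hcl hres hcong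
  obtain ⟨M, _, g, hg, hM, hga⟩ := hcl
  obtain ⟨u, hu, ⟨γ, hγ⟩, hD⟩ := hcong
  letI : Algebra O ℂ := ι.toAlgebra
  have hp : p.Prime := hdat.prime_mem p hpS
  have : Fact p.Prime := ⟨hp⟩
  have : NeZero (R * p) := ⟨mul_ne_zero (NeZero.ne R) hp.ne_zero⟩
  have : CharZero O := (RingHom.charZero_iff hι).2 inferInstance
  have : CharP (ResidueField O) p := (CharP.charP_iff_prime_eq_zero hp).2 <| by
    rw [← map_natCast (residue O)]
    exact (residue_eq_zero_iff _).2 hdat.p_mem
  have h : RaiseData p R := ⟨hp, hpR⟩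
  obtain ⟨ℓ, hℓp, hℓS, hℓ1, hℓ2⟩ := hdat.aux (levelM p R * (R * p))
    (mul_ne_zero (levelM_ne_zero (NeZero.ne R)) (NeZero.ne _))
  have : Fact ℓ.Prime := ⟨hℓp⟩
  have hint : ∀ k : ℕ, k ∣ ℓ - 1 → (k : ℤ) ∣ (ℓ : ℤ) - 1 := fun k hk => by
    have := Int.natCast_dvd_natCast.2 hk
    rwa [Nat.cast_sub hℓp.one_le, Nat.cast_one] at this
  have aux : AuxPrime p R ℓ :=
    { prime := hℓp
      not_dvd := fun hd => (hℓp.dvd_mul.1 hd).elim (fun hd => hℓS (hS ℓ hℓp hd))
        fun hd => hℓS ((Nat.prime_dvd_prime_iff_eq hℓp hp).1 hd ▸ hpS)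
      dvd_sub := hint _ ((dvd_mul_right _ _).trans hℓ1)
      dvd_sub' := hint _ ((dvd_mul_left _ _).trans hℓ1) }
  have hℓk : (ℓ : ResidueField O) = 1 := by
    have h1 : ((ℓ - 1 : ℕ) : ResidueField O) = 0 :=
      (CharP.cast_eq_zero_iff _ p _).2 (((dvd_mul_left p R).trans (dvd_mul_left _ _)).trans hℓ1)
    rwa [Nat.cast_sub hℓp.one_le, Nat.cast_one, sub_eq_zero] at h1
  have hℓ : abar ℓ ≠ 1 + (ℓ : ResidueField O) := by
    rwa [hℓk, one_add_one_eq_two]
  -- the class and its image under `degDown`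
  set u' := degUp O S h (α • u, -u)
  obtain ⟨β, hβ⟩ := hαu.exists_left_inv
  have hdown : degDown O S h u' = (((α ^ 2 - 1) * (β * p)) • u, (α ^ 2 - 1) • u) := by
    rw [degDown_degUp]
    simp only [map_smul, map_neg, hecke_eq_of_mem_eigVec hι hg hS hM hga hu hpR,
      LinearEquiv.apply_symm_apply, smul_neg, smul_smul]
    refine Prod.ext ?_ ?_ <;> dsimp only
    · rw [← sub_eq_add_neg, ← sub_smul]
      congr 1
      linear_combination (-((p : O) + 1) * α + a p) * hβ + β * hαeq
    · rw [← sub_eq_add_neg, ← sub_smul]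
      congr 1
      linear_combination -hαeq
  refine ⟨u', degUp_mem_eigVec h hpS ((eigVec S R a).smul_mem α hu) (neg_mem hu), ?_, ?_⟩
  · -- primitivity
    by_contra hnu
    rw [not_exists] at hnu
    have hred : redVal (degMap h O ⊤ 0 (toHomMod.symm (α • u), toHomMod.symm (-u))) = 0 :=
      AddMonoidHom.ext fun x => (residue_eq_zero_iff _).2 (hnu x)
    obtain ⟨-, r2⟩ := injective_degMap_mod h aux hp hdat.p_ne_two 0 _ hred
    have r := DFunLike.congr_fun r2 γ
    change residue O ((toHomMod ((tTop R ℓ O (A := O) ^ 4) (toHomMod.symm (-u : Classes O S R)))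
      : Classes O S R) γ) = 0 at r
    rw [← tEl_pow_smul aux hℓS 4 (-u), smul_neg, eigVec_smul hu] at r
    change residue O (-(opEval R a (tEl O S R hℓp hℓS ^ 4) * u γ)) = 0 at r
    rw [map_neg, neg_eq_zero, map_mul, map_pow, map_pow, tEl, map_sub, opEval_inr,
      ← algebraMap_eq, AlgHom.commutes, Algebra.algebraMap_self, RingHom.id_apply, map_sub,
      map_add, map_one, map_natCast, hres ℓ hℓp hℓS, mul_eq_zero, pow_eq_zero_iff (by norm_num),
      sub_eq_zero] at r
    exact r.elim hℓ (residue_ne_zero_iff_isUnit (u γ) |>.2 hγ)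
  · intro φ hφ
    have hker : ∀ x, degDown O S h x = 0 → φ x = 0 := fun x hx =>
      eigFun_eq_zero_of_degDown h hι hg hM hga hS hpS hφ hx
    obtain ⟨e', he', hrange⟩ := mem_range_degDown h hdat.p_ne_two hpS aux hℓS hℓ
    have hu' : e' • u = u := eigVec_mem_localPart hres he' hu
    obtain ⟨x₁, hx₁, d₁⟩ := exists_dvd_of_range h hpS hrange he'.idem hφ hker hu' hD
      (LinearMap.inl (OpRing O R S) _ _)
    obtain ⟨x₂, hx₂, d₂⟩ := exists_dvd_of_range h hpS hrange he'.idem hφ hker hu' hD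
      (LinearMap.inr (OpRing O R S) _ _)
    have h0 := hker (u' - (((α ^ 2 - 1) * (β * p)) • x₁ + (α ^ 2 - 1) • x₂)) (by
      rw [map_sub, map_add, map_smul, map_smul, hx₁, hx₂, hdown]
      simp [LinearMap.inl_apply, LinearMap.inr_apply])
    rw [map_sub, map_add, map_smul, map_smul, sub_eq_zero] at h0
    rw [h0, smul_eq_mul, smul_eq_mul, mul_comm D]
    refine dvd_add ?_ (mul_dvd_mul_left _ d₂)
    rw [mul_assoc]
    exact mul_dvd_mul_left _ (d₁.mul_left _)

end Fermat.Agent.RT.Lifting
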