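import Fermat.Agent.Newforms.OldSpan
import Fermat.Agent.RT.GammaH.Complex
import Fermat.Agent.RT.Lift.Ihara
import Fermat.Agent.RT.Lifting.Defs
import Fermat.Agent.LevelRaising.Main
import Fermat.Agent.LevelRaising.Parabolic

/-!
# Complex eigen homomorphisms on `Γ₀(L)` and degeneracy maps

Periods as homomorphisms on `gammaH L ⊤`, their behaviour under raising the level, and the
consequences of strong multiplicity one for them.
-/

set_option autoImplicit false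
set_option linter.style.haveILetI false

noncomputable section

namespace Fermat.Agent.RT.Lifting.Step

open CongruenceSubgroup ModularFormClass Matrix.SpecialLinearGroup
open ModularCurve ModularCurve.Period
open Fermat.Agent.RT.GammaH Fermat.Agent.RT.Lift Fermat.Agent.Periods
open Fermat.Agent.Newforms (hOp raisedSpan levelRaise realMat)
open scoped MatrixGroups ModularForm

variable {L : ℕ} [NeZero L]

/-- Homomorphisms `Γ₀(L) → ℂ`. -/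
abbrev HomTop (L : ℕ) : Type := HomC (⊤ : Subgroup (ZMod L)ˣ)

/-- The two period maps, on `gammaH L ⊤`. -/
def perTop (L : ℕ) [NeZero L] :
    CuspForm (Gamma0 L) 2 × CuspForm (Gamma0 L) 2 →ₗ[ℂ] HomTop L :=
  (toTop ℂ L).toLinearMap ∘ₗ periodHomPair L

theorem perTop_injective : Function.Injective (perTop L) :=
  (toTop ℂ L).injective.comp (periodHomPair_injective L)

theorem hecke_perTop {ℓ : ℕ} [hℓ : Fact ℓ.Prime] (hℓL : ¬ ℓ ∣ L)
    (x : CuspForm (Gamma0 L) 2 × CuspForm (Gamma0 L) 2) :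
    hecke L ⊤ ℓ ℂ (perTop L x) = perTop L (hOp L hℓ.out x.1, hOp L hℓ.out x.2) := by
  show hecke L ⊤ ℓ ℂ (toTop ℂ L (periodHomPair L (x.1, x.2))) =
    toTop ℂ L (periodHomPair L (hOp L hℓ.out x.1, hOp L hℓ.out x.2))
  rw [hecke_toTop ℂ hℓ.out hℓL, LevelRaising.homT_periodHomPair,
    Newforms.hOp_eq_heckeTLin hℓ.out hℓL]

theorem exists_perTop {φ : HomTop L} (hφ : φ ∈ parabolicHoms ℂ (gammaH L ⊤) ℂ) :
    ∃ x, perTop L x = φ := by
  obtain ⟨g, g', h⟩ := LevelRaising.exists_periodHomPair (v := (toTop ℂ L).symm φ)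
    fun γ hγ => hφ ⟨γ.1, gammaH_top.ge γ.2⟩ hγ
  refine ⟨(g, g'), ?_⟩
  show toTop ℂ L (periodHomPair L (g, g')) = φ
  rw [h, LinearEquiv.apply_symm_apply]

theorem hecke_sub_mem_parabolicHoms {ℓ : ℕ} [hℓ : Fact ℓ.Prime] (hℓL : ¬ ℓ ∣ L)
    (hℓ1 : (L : ℤ) ∣ (ℓ : ℤ) - 1) (φ : HomTop L) :
    hecke L ⊤ ℓ ℂ φ - ((1 : ℂ) + ℓ) • φ ∈ parabolicHoms ℂ (gammaH L ⊤) ℂ := by
  obtain ⟨ψ, rfl⟩ := (toTop ℂ L).surjective φ
  intro γ hγ
  have : NeZero ℓ := ⟨hℓ.out.ne_zero⟩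
  rw [hecke_toTop ℂ hℓ.out hℓL]
  have h := LevelRaising.homT_apply_parabolic hℓ.out hℓL hℓ1
    (fun n a hn h0 => by simpa [hn] using h0) ψ ⟨γ.1, gammaH_top.le γ.2⟩ hγ
  show homT hℓ.out hℓL ℂ ψ (Additive.ofMul ⟨γ.1, gammaH_top.le γ.2⟩) -
    ((1 : ℂ) + ℓ) • ψ (Additive.ofMul ⟨γ.1, gammaH_top.le γ.2⟩) = 0
  rw [show homT hℓ.out hℓL ℂ ψ = homT hℓ.out hℓL ℤ ψ from rfl, h, sub_eq_zero]
  simp

/-- Generalised eigen homomorphisms are eigen homomorphisms, on the parabolic part. -/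
theorem hecke_eq_of_pow {ℓ : ℕ} [hℓ : Fact ℓ.Prime] (hℓL : ¬ ℓ ∣ L) (c : ℂ) (k : ℕ)
    {φ : HomTop L} (hφ : φ ∈ parabolicHoms ℂ (gammaH L ⊤) ℂ)
    (h : ((hecke L ⊤ ℓ ℂ - c • 1 : Module.End ℂ (HomTop L)) ^ k) φ = 0) :
    hecke L ⊤ ℓ ℂ φ = c • φ := by
  obtain ⟨x, rfl⟩ := exists_perTop hφ
  set T : Module.End ℂ (CuspForm (Gamma0 L) 2) := hOp L hℓ.out - c • 1 with hT
  have hpow : ∀ (j : ℕ) y, ((hecke L ⊤ ℓ ℂ - c • 1 : Module.End ℂ (HomTop L)) ^ j) (perTop L y) =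
      perTop L ((T ^ j) y.1, (T ^ j) y.2) := by
    intro j
    induction j with
    | zero => intro y; simp
    | succ j ih =>
      intro y
      rw [pow_succ', Module.End.mul_apply, ih, LinearMap.sub_apply, LinearMap.smul_apply,
        Module.End.one_apply, hecke_perTop hℓL, ← map_smul, ← map_sub, pow_succ',
        Module.End.mul_apply, Module.End.mul_apply, hT]
      rfl
  rw [hpow, ← map_zero (perTop L)] at h
  obtain ⟨h1, h2⟩ := Prod.mk.injEq .. ▸ perTop_injective h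
  have hs := Newforms.isPetersson_hOp hℓ.out hℓL
  rw [hecke_perTop hℓL, ← map_smul, hs.eigen_of_genEigen h1, hs.eigen_of_genEigen h2]
  rfl

section Degeneracy

variable {M : ℕ} [NeZero M] {d : ℕ} [NeZero d] (h : d * M ∣ L)

/-- The degeneracy map on complex homomorphisms. -/
def degC : HomTop M →ₗ[ℂ] HomTop L where
  toFun ψ := ψ.comp (degHom d h).toAdditive
  map_add' _ _ := rfl
  map_smul' _ _ := rfl

omit [NeZero L] [NeZero M] in
theorem degC_apply (ψ : HomTop M) (γ : gammaH L (⊤ : Subgroup (ZMod L)ˣ)) :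
    degC h ψ (Additive.ofMul γ) = ψ (Additive.ofMul (degHom d h γ)) := rfl

omit [NeZero L] [NeZero M] in
theorem coe_degHom (γ : gammaH L (⊤ : Subgroup (ZMod L)ˣ)) :
    (((degHom d h γ : gammaH M (⊤ : Subgroup (ZMod M)ˣ)) : SL(2, ℤ)) : Matrix (Fin 2) (Fin 2) ℤ) =
      degMat d ((γ : SL(2, ℤ)) : Matrix (Fin 2) (Fin 2) ℤ) := rfl

omit [NeZero L] [NeZero M] in
theorem degHom_spec (γ : gammaH L (⊤ : Subgroup (ZMod L)ˣ)) :
    mapGL ℝ ((degHom d h γ : gammaH M (⊤ : Subgroup (ZMod M)ˣ)) : SL(2, ℤ)) *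
        ModularForm.heckeDiagMatrix d = ModularForm.heckeDiagMatrix d * mapGL ℝ (γ : SL(2, ℤ)) := by
  obtain ⟨k, hk⟩ := dvd_lowerLeft d h γ
  have hd : (d : ℤ) ≠ 0 := Int.natCast_ne_zero.2 (NeZero.ne d)
  have hc : (γ : SL(2, ℤ)) 1 0 / d = (M : ℤ) * k := by
    rw [hk]; push_cast; rw [mul_assoc, Int.mul_ediv_cancel_left _ hd]
  refine Units.ext ?_
  rw [Units.val_mul, Units.val_mul, Newforms.mapGL_eq_realMat, Newforms.mapGL_eq_realMat,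
    ModularForm.val_heckeDiagMatrix (NeZero.ne d), coe_degHom]
  have hcR : (((γ : SL(2, ℤ)) 1 0 : ℤ) : ℝ) = (d : ℝ) * M * k := by
    rw [hk]; push_cast; ring
  ext i j
  fin_cases i <;> fin_cases j <;>
    simp [degMat, realMat, Matrix.mul_apply, Fin.sum_univ_two, hc, hcR] <;> ring

/-- The periods of a raised form. -/
theorem periodMap_levelRaise (f : CuspForm (Gamma0 M) 2) (γ : Gamma0 L) :
    periodMap L (levelRaise d h f) (Additive.ofMul γ) = (d : ℂ)⁻¹ * periodMap M f (Additive.ofMul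
      ⟨_, gammaH_top.le (degHom d h ⟨γ.1, gammaH_top.ge γ.2⟩).2⟩) := by
  obtain ⟨F, hF, -⟩ := exists_primitive f
  have hdet : (0 : ℝ) < (ModularForm.heckeDiagMatrix d).det.val := by
    rw [Matrix.GeneralLinearGroup.val_det_apply,
      ModularForm.val_heckeDiagMatrix (NeZero.ne d), Matrix.det_fin_two_of]
    simpa using Nat.pos_of_ne_zero (NeZero.ne d)
  have hG : IsPrimitive ⇑(levelRaise d h f)
      (fun τ => (d : ℂ)⁻¹ * F (ModularForm.heckeDiagMatrix d • τ)) := fun τ => by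
    have := (hF.comp_smul hdet τ).const_mul (d : ℂ)⁻¹
    refine this.congr_deriv ?_
    show _ = ((((d : ℕ) : ℂ) ^ ((2 : ℤ) - 1))⁻¹ •
      (⇑f ∣[(2 : ℤ)] ModularForm.heckeDiagMatrix d)) τ
    rw [show (2 : ℤ) - 1 = 1 by norm_num, zpow_one]
    rfl
  rw [periodMap_eq hG γ UpperHalfPlane.I,
    periodMap_eq hF _ (ModularForm.heckeDiagMatrix d • UpperHalfPlane.I), mul_sub]
  congr 3
  show ModularForm.heckeDiagMatrix d • (mapGL ℝ (γ : SL(2, ℤ)) • UpperHalfPlane.I) =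
    mapGL ℝ ((degHom d h ⟨γ.1, gammaH_top.ge γ.2⟩).1 : SL(2, ℤ)) •
      (ModularForm.heckeDiagMatrix d • UpperHalfPlane.I)
  rw [← mul_smul, ← mul_smul]
  exact congrArg (· • UpperHalfPlane.I) (degHom_spec h ⟨γ.1, gammaH_top.ge γ.2⟩).symm

omit [NeZero L] [NeZero M] in
theorem degHom_jConj (γ : Gamma0 L) :
    ((degHom d h ⟨(jConjGamma0 L γ).1, gammaH_top.ge (jConjGamma0 L γ).2⟩ :
        gammaH M (⊤ : Subgroup (ZMod M)ˣ)) : SL(2, ℤ)) =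
      jConjSL ((degHom d h ⟨γ.1, gammaH_top.ge γ.2⟩ : gammaH M (⊤ : Subgroup (ZMod M)ˣ)) :
        SL(2, ℤ)) := by
  obtain ⟨k, hk⟩ := dvd_lowerLeft d h ⟨γ.1, gammaH_top.ge γ.2⟩
  have hdvd : (d : ℤ) ∣ (γ : SL(2, ℤ)) 1 0 :=
    ⟨(M : ℤ) * k, by rw [← mul_assoc]; push_cast at hk; exact hk⟩
  refine Subtype.ext ?_
  show degMat d (jConjMat ((γ : SL(2, ℤ)) : Matrix (Fin 2) (Fin 2) ℤ)) =
    jConjMat (degMat d ((γ : SL(2, ℤ)) : Matrix (Fin 2) (Fin 2) ℤ))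
  ext i j
  fin_cases i <;> fin_cases j <;> simp [degMat, jConjMat, Int.neg_ediv_of_dvd hdvd]

theorem perTop_levelRaise (x : CuspForm (Gamma0 M) 2 × CuspForm (Gamma0 M) 2) :
    perTop L (levelRaise d h x.1, levelRaise d h x.2) = (d : ℂ)⁻¹ • degC h (perTop M x) := by
  refine AddMonoidHom.ext fun y => ?_
  rw [← ofMul_toMul y]
  generalize y.toMul = γ
  show periodHomPair L (levelRaise d h x.1, levelRaise d h x.2)
      (Additive.ofMul ⟨γ.1, gammaH_top.le γ.2⟩) =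
    (d : ℂ)⁻¹ * periodHomPair M (x.1, x.2) (Additive.ofMul ⟨_, gammaH_top.le (degHom d h γ).2⟩)
  have hJ : (⟨_, gammaH_top.le (degHom d h ⟨(jConjGamma0 L ⟨γ.1, gammaH_top.le γ.2⟩).1,
      gammaH_top.ge (jConjGamma0 L ⟨γ.1, gammaH_top.le γ.2⟩).2⟩).2⟩ : Gamma0 M) =
      jConjGamma0 M ⟨_, gammaH_top.le (degHom d h γ).2⟩ :=
    Subtype.ext ((degHom_jConj h ⟨γ.1, gammaH_top.le γ.2⟩).trans rfl)
  rw [periodHomPair_eq, periodHomPair_eq]
  simp only [LinearMap.coprod_apply, LinearMap.comp_apply, LinearMap.add_apply, LinearMap.sub_apply,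
    LinearMap.id_apply, AddMonoidHom.add_apply, AddMonoidHom.sub_apply, charInvolution_apply,
    toMul_ofMul, periodMapLin_apply, periodMap_levelRaise h, hJ]
  ring

end Degeneracy

section Multiplicity

variable {M : ℕ} [NeZero M] {g : CuspForm (Gamma0 M) 2} {S : Finset ℕ}

/-- A complex eigen homomorphism with the system of a newform is made of its raisings. -/
theorem exists_raised (hg : g.IsNewform) (hM : M ∣ L)
    (hS : ∀ q : ℕ, q.Prime → q ∣ L → q ∈ S) {φ : HomTop L}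
    (hT : ∀ (ℓ : ℕ) [Fact ℓ.Prime], ℓ ∉ S → hecke L ⊤ ℓ ℂ φ = qCoeff g ℓ • φ) :
    ∃ x, x.1 ∈ raisedSpan g L ∧ x.2 ∈ raisedSpan g L ∧ perTop L x = φ := by
  -- an Eisenstein prime
  obtain ⟨ℓ₀, hbig, hℓ₀, hmod⟩ := Nat.forall_exists_prime_gt_and_modEq
    (S.sup id) (NeZero.ne L) (Nat.coprime_one_left L)
  have := Fact.mk hℓ₀
  have hℓ₀S : ℓ₀ ∉ S := fun h => absurd (Finset.le_sup (f := id) h) (not_le.2 hbig)
  have hℓ₀L : ¬ ℓ₀ ∣ L := fun h => hℓ₀S (hS _ hℓ₀ h)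
  have hℓ₁ : (L : ℤ) ∣ (ℓ₀ : ℤ) - 1 := by
    have := Nat.modEq_iff_dvd.1 hmod.symm
    simpa using this
  have hpar := hecke_sub_mem_parabolicHoms hℓ₀L hℓ₁ φ
  have hne : qCoeff g ℓ₀ ≠ (1 : ℂ) + ℓ₀ := fun h =>
    qCoeff_ne_mul_succ hℓ₀ (fun hd => hℓ₀L (hd.trans hM)) hg.1 (s := 1) (Or.inl rfl)
      (by rw [h, one_mul, add_comm])
  rw [hT ℓ₀ hℓ₀S, ← sub_smul] at hpar
  obtain ⟨x, hx⟩ := exists_perTop ((Submodule.smul_mem_iff _ (sub_ne_zero.2 hne)).1 hpar)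
  have heig : ∀ ℓ (hℓ : ℓ.Prime), ℓ ∉ S →
      hOp L hℓ x.1 = qCoeff g ℓ • x.1 ∧ hOp L hℓ x.2 = qCoeff g ℓ • x.2 := by
    intro ℓ hℓ hℓS
    have := Fact.mk hℓ
    have h := hT ℓ hℓS
    rw [← hx, hecke_perTop (fun hd => hℓS (hS ℓ hℓ hd)), ← map_smul] at h
    exact ⟨congrArg Prod.fst (perTop_injective h), congrArg Prod.snd (perTop_injective h)⟩
  exact ⟨x, Newforms.mem_raisedSpan_of_eigen hg hS fun ℓ hℓ hℓS => (heig ℓ hℓ hℓS).1,
    Newforms.mem_raisedSpan_of_eigen hg hS fun ℓ hℓ hℓS => (heig ℓ hℓ hℓS).2, hx⟩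

theorem hOp_eq_of_mem_raisedSpan (hg : g.IsNormalizedEigenform) {ℓ : ℕ} (hℓ : ℓ.Prime)
    (hℓL : ¬ ℓ ∣ L) {f : CuspForm (Gamma0 L) 2} (hf : f ∈ raisedSpan g L) :
    hOp L hℓ f = qCoeff g ℓ • f := by
  induction hf using Submodule.span_induction with
  | mem x hx => obtain ⟨d, h, rfl⟩ := hx; exact Newforms.hOp_raised hg hℓ hℓL h
  | zero => rw [map_zero, smul_zero]
  | add x y _ _ hx hy => rw [map_add, hx, hy, smul_add]
  | smul c x _ hx => rw [map_smul, hx, smul_comm]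

/-- It is an eigen homomorphism at every prime not dividing the level. -/
theorem hecke_eq_of_eigen (hg : g.IsNewform) (hM : M ∣ L)
    (hS : ∀ q : ℕ, q.Prime → q ∣ L → q ∈ S) {φ : HomTop L}
    (hT : ∀ (ℓ : ℕ) [Fact ℓ.Prime], ℓ ∉ S → hecke L ⊤ ℓ ℂ φ = qCoeff g ℓ • φ)
    {ℓ : ℕ} [hℓ : Fact ℓ.Prime] (hℓL : ¬ ℓ ∣ L) :
    hecke L ⊤ ℓ ℂ φ = qCoeff g ℓ • φ := by
  obtain ⟨x, h1, h2, rfl⟩ := exists_raised hg hM hS hT
  rw [hecke_perTop hℓL, hOp_eq_of_mem_raisedSpan hg.1 hℓ.out hℓL h1,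
    hOp_eq_of_mem_raisedSpan hg.1 hℓ.out hℓL h2, ← map_smul]
  rfl

/-- It is a combination of degeneracy images of eigen homomorphisms of level `M`. -/
theorem mem_span_degC (hg : g.IsNewform) (hM : M ∣ L)
    (hS : ∀ q : ℕ, q.Prime → q ∣ L → q ∈ S) {φ : HomTop L}
    (hT : ∀ (ℓ : ℕ) [Fact ℓ.Prime], ℓ ∉ S → hecke L ⊤ ℓ ℂ φ = qCoeff g ℓ • φ) :
    φ ∈ Submodule.span ℂ {y | ∃ (d : ℕ) (_ : NeZero d) (h : d * M ∣ L) (ψ : HomTop M),
      (∀ (ℓ : ℕ) [Fact ℓ.Prime], ℓ ∉ S → hecke M ⊤ ℓ ℂ ψ = qCoeff g ℓ • ψ) ∧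
        degC h ψ = y} := by
  obtain ⟨⟨f, f'⟩, h1, h2, rfl⟩ := exists_raised hg hM hS hT
  have key : ∀ (σ : CuspForm (Gamma0 L) 2 →ₗ[ℂ] CuspForm (Gamma0 L) 2 × CuspForm (Gamma0 L) 2)
      (z : CuspForm (Gamma0 M) 2 × CuspForm (Gamma0 M) 2),
      (∀ ℓ (hℓ : ℓ.Prime), ¬ ℓ ∣ M → hOp M hℓ z.1 = qCoeff g ℓ • z.1 ∧
        hOp M hℓ z.2 = qCoeff g ℓ • z.2) →
      (∀ d (h : d * M ∣ L), σ (levelRaise d h g) = (levelRaise d h z.1, levelRaise d h z.2)) →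
      ∀ f ∈ raisedSpan g L, perTop L (σ f) ∈ Submodule.span ℂ
        {y | ∃ (d : ℕ) (_ : NeZero d) (h : d * M ∣ L) (ψ : HomTop M),
          (∀ (ℓ : ℕ) [Fact ℓ.Prime], ℓ ∉ S → hecke M ⊤ ℓ ℂ ψ = qCoeff g ℓ • ψ) ∧
            degC h ψ = y} := by
    intro σ z hz hσ f hf
    induction hf using Submodule.span_induction with
    | mem x hx =>
      obtain ⟨d, h, rfl⟩ := hx
      have : NeZero d := ⟨fun h0 => NeZero.ne L (by simpa [h0] using h)⟩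
      rw [hσ, perTop_levelRaise h z]
      refine Submodule.smul_mem _ _ (Submodule.subset_span ⟨d, this, h, _, fun ℓ hℓ hℓS => ?_, rfl⟩)
      have hℓM : ¬ ℓ ∣ M := fun hd => hℓS (hS ℓ hℓ.out (hd.trans hM))
      rw [hecke_perTop hℓM, (hz ℓ hℓ.out hℓM).1, (hz ℓ hℓ.out hℓM).2, ← map_smul]
      rfl
    | zero => rw [map_zero, map_zero]; exact zero_mem _
    | add x y _ _ hx hy => rw [map_add, map_add]; exact add_mem hx hy
    | smul c x _ hx => rw [map_smul, map_smul]; exact Submodule.smul_mem _ c hx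
  have hgeig : ∀ ℓ (hℓ : ℓ.Prime), hOp M hℓ g = qCoeff g ℓ • g := fun ℓ hℓ =>
    Newforms.hOp_of_isNormalizedEigenform hg.1 hℓ
  have e : ((f, f') : CuspForm (Gamma0 L) 2 × CuspForm (Gamma0 L) 2) =
      LinearMap.inl ℂ _ _ f + LinearMap.inr ℂ _ _ f' := by simp
  rw [e, map_add]
  exact add_mem
    (key _ (g, 0) (fun ℓ hℓ _ => ⟨hgeig ℓ hℓ, by simp⟩) (fun d h => by simp) f h1)
    (key _ (0, g) (fun ℓ hℓ _ => ⟨by simp, hgeig ℓ hℓ⟩) (fun d h => by simp) f' h2)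

end Multiplicity

end Fermat.Agent.RT.Lifting.Step
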