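import Fermat.Agent.RT.Lifting.Step.SquareMod
import Fermat.Agent.RT.Lifting.Step.Support
import Fermat.Agent.RT.Lift.Local
import Fermat.Agent.RT.Lift.Bound
import Mathlib.LinearAlgebra.Matrix.Charpoly.LinearMap

/-!
# The congruence step from level `R` to level `R v ^ 2`

`up` is the sum of the degeneracy images of degrees `1`, `v`, `v ^ 2` and `down` its transpose, with
`down (up (v u, -a_v u, u)) = (e u, 0, 0)`, `e = (v - 1) ((v + 1) ^ 2 - a_v ^ 2)`. An eigen
functional of a system of level `R` kills the kernel of `down`, and Ihara's lemma makes an element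
of the Hecke algebra that is a unit at the system map every triple into the image of `down`; so the
values of eigen functionals at `up (v u, -a_v u, u)` are divisible by `D e` when those at `u` are
divisible by `D`.
-/

set_option autoImplicit false
set_option linter.style.haveILetI false

noncomputable section

namespace Fermat.Agent.RT.Lifting.Square

open IsLocalRing MvPolynomial CongruenceSubgroup ModularFormClass
open Fermat.Agent.RT.GammaH Fermat.Agent.RT.Lifting.Step
open Fermat.Agent.RT.Lift (tTop tEl tEl_pow_smul qCoeff_sq_ne three_torsionFree_of_charZero)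
open Fermat.Agent.LevelRaising (RaiseData AuxPrime levelM levelM_ne_zero)

theorem degCls_comp {O : Type} [CommRing O] {S : Finset ℕ} {N M L d e f : ℕ} [NeZero d] [NeZero e]
    [NeZero f] (hd : d * M ∣ L) (he : e * N ∣ M) (hf : e * d = f) (h : f * N ∣ L)
    (φ : Classes O S N) :
    degCls d O S hd (degCls e O S he φ) = degCls f O S h φ := by
  subst hf
  exact degCls_degCls hd he h φ

section Maps

variable {O : Type} [CommRing O] {R v : ℕ} [hv : Fact v.Prime] [NeZero R] {S : Finset ℕ}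
  {a : ℕ → O} (h : RaiseData v R)

variable (O S R v) in
/-- The sum of the three degeneracy images. -/
def up : Classes O S R × Classes O S R × Classes O S R →ₗ[O] Classes O S (R * v * v) :=
  delta (M := R) (q := v) O

variable (O S) in
/-- The transpose of `up`. -/
def down : Classes O S (R * v * v) →ₗ[O] Classes O S R × Classes O S R × Classes O S R :=
  deltaStar h O

theorem up_apply (f : Classes O S R × Classes O S R × Classes O S R) :
    up O R v S f = degCls 1 O S (one_dvd_top (M := R) (q := v)) f.1 +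
      degCls v O S (q_dvd_top (M := R) (q := v)) f.2.1 +
      degCls (v * v) O S (qq_dvd_step (M := R) (q := v)) f.2.2 := by
  rw [degCls_eq_degOp, degCls_eq_degOp, degCls_eq_degOp]
  rfl

omit [NeZero R] in
theorem mem_S_of_dvd (hS : ∀ q : ℕ, q.Prime → q ∣ R → q ∈ S) (hvS : v ∈ S) (q : ℕ) (hq : q.Prime)
    (hd : q ∣ R * v * v) : q ∈ S := by
  rcases hq.dvd_mul.1 hd with hd | hd
  · rcases hq.dvd_mul.1 hd with hd | hd
    · exact hS q hq hd
    · exact (Nat.prime_dvd_prime_iff_eq hq hv.out).1 hd ▸ hvS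
  · exact (Nat.prime_dvd_prime_iff_eq hq hv.out).1 hd ▸ hvS

theorem up_mem_eigVec (hS : ∀ q : ℕ, q.Prime → q ∣ R * v * v → q ∈ S)
    {f : Classes O S R × Classes O S R × Classes O S R} (h1 : f.1 ∈ eigVec S R a)
    (h2 : f.2.1 ∈ eigVec S R a) (h3 : f.2.2 ∈ eigVec S R a) :
    up O R v S f ∈ eigVec S (R * v * v) a := by
  rw [up_apply]
  exact add_mem (add_mem (degCls_mem_eigVec _ hS h1) (degCls_mem_eigVec _ hS h2))
    (degCls_mem_eigVec _ hS h3)

/-- The transpose commutes with the operators away from the level. -/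
theorem down_X_smul (h2 : IsUnit (2 : O)) (h3 : ∀ r : O, 3 * r = 0 → r = 0)
    (hS : ∀ q : ℕ, q.Prime → q ∣ R * v * v → q ∈ S) (i : {ℓ : ℕ // ℓ.Prime ∧ ℓ ∉ S})
    (x : Classes O S (R * v * v)) :
    down O S h ((X (Sum.inr i) : OpRing O (R * v * v) S) • x) =
      (X (Sum.inr i) : OpRing O R S) • down O S h x := by
  have : Fact i.1.Prime := ⟨i.2.1⟩
  rw [X_inr_smul]
  refine (deltaStar_hecke h h2 h3 (fun hd => i.2.2 (hS i.1 i.2.1 hd)) x).trans ?_
  exact (Prod.ext (X_inr_smul i _) (Prod.ext (X_inr_smul i _) (X_inr_smul i _))).symm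

theorem down_tEl_smul (h2 : IsUnit (2 : O)) (h3 : ∀ r : O, 3 * r = 0 → r = 0)
    (hS : ∀ q : ℕ, q.Prime → q ∣ R * v * v → q ∈ S) {ℓ : ℕ} (hℓp : ℓ.Prime) (hℓS : ℓ ∉ S)
    (k : ℕ) (x : Classes O S (R * v * v)) :
    down O S h (tEl O S (R * v * v) hℓp hℓS ^ k • x) =
      tEl O S R hℓp hℓS ^ k • down O S h x := by
  induction k generalizing x with
  | zero => rw [pow_zero, pow_zero, one_smul, one_smul]
  | succ k ih =>
    rw [pow_succ, pow_succ, mul_smul, mul_smul, ih]
    congr 1
    rw [tEl, tEl, sub_smul, sub_smul, map_sub, down_X_smul h h2 h3 hS, ← algebraMap_eq,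
      ← algebraMap_eq, algebraMap_smul, algebraMap_smul, map_smul]

/-- The composite on a triple of eigen classes of `T_v`. -/
theorem down_up {c : O} (f : Classes O S R × Classes O S R × Classes O S R)
    (h1 : hecke R ⊤ v O ((toHomMod (O := O)).symm f.1) = c • (toHomMod (O := O)).symm f.1)
    (h2 : hecke R ⊤ v O ((toHomMod (O := O)).symm f.2.1) = c • (toHomMod (O := O)).symm f.2.1)
    (h3 : hecke R ⊤ v O ((toHomMod (O := O)).symm f.2.2) = c • (toHomMod (O := O)).symm f.2.2) :
    down O S h (up O R v S f) =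
      ((v * (v + 1) : O) • f.1 + (v * c : O) • f.2.1 + (c ^ 2 - (v + 1) : O) • f.2.2,
        (v * c : O) • f.1 + (v * (v + 1) : O) • f.2.1 + (v * c : O) • f.2.2,
        (c ^ 2 - (v + 1) : O) • f.1 + (v * c : O) • f.2.1 + (v * (v + 1) : O) • f.2.2) :=
  deltaStar_delta h (A := O) (R := O) f h1 h2 h3

end Maps

section Kernel

variable {O : Type} [CommRing O] [IsDomain O] [IsDiscreteValuationRing O] [CharZero O]
  {R v : ℕ} [hv : Fact v.Prime] [NeZero R] {S : Finset ℕ} {a : ℕ → O} (h : RaiseData v R)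

/-- An eigen functional at level `R v ^ 2` of a system of level `R` kills the kernel of `down`. -/
theorem eigFun_eq_zero_of_down [Algebra O ℂ] (hinj : Function.Injective (algebraMap O ℂ))
    {M : ℕ} [NeZero M] {g : CuspForm (Gamma0 M) 2} (hg : g.IsNewform) (hM : M ∣ R)
    (hga : ∀ ℓ : ℕ, ℓ.Prime → ¬ ℓ ∣ M → qCoeff g ℓ = algebraMap O ℂ (a ℓ))
    (hS : ∀ q : ℕ, q.Prime → q ∣ R → q ∈ S) (hvS : v ∈ S) (h2 : IsUnit (2 : O))
    {φ : Classes O S (R * v * v) →ₗ[O] O}
    (hφ : IsEigFun S (R * v * v) a φ) {x : Classes O S (R * v * v)} (hx : down O S h x = 0) :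
    φ x = 0 := by
  have : NeZero v := ⟨h.prime.ne_zero⟩
  have : NeZero (R * v * v) :=
    ⟨mul_ne_zero (mul_ne_zero (NeZero.ne R) h.prime.ne_zero) h.prime.ne_zero⟩
  have hvM : ¬ v ∣ M := fun hd => h.not_dvd (hd.trans hM)
  have hS' := mem_S_of_dvd (v := v) hS hvS
  have hML : M ∣ R * v * v := (hM.mul_right v).mul_right v
  by_contra hne
  obtain ⟨z, hz, hz0, hze⟩ := exists_eigVec_of_isEigFun hinj hg.1 hS' hML hga
    (V := LinearMap.ker (down O S h)) (fun i w hw => by
      rw [LinearMap.mem_ker] at hw ⊢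
      rw [down_X_smul h h2 three_torsionFree_of_charZero hS', hw, smul_zero]) hφ ⟨x, hx, hne⟩
  obtain ⟨c, hc, hcz⟩ := exists_smul_mem_degCls hinj hg hS' hML hga hze
  have hle : Submodule.span O
      {y | ∃ (d : ℕ) (_ : NeZero d) (hd : d * M ∣ R * v * v), ∃ w ∈ eigVec S M a,
        degCls d O S hd w = y} ≤
      ((eigVec S R a).prod ((eigVec S R a).prod (eigVec S R a))).map (up O R v S) := by
    rw [Submodule.span_le]
    rintro _ ⟨d, _, hd, w, hw, rfl⟩
    by_cases hvd : v ∣ d
    · obtain ⟨d₁, rfl⟩ := hvd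
      have : NeZero d₁ := ⟨(mul_ne_zero_iff.1 (NeZero.ne (v * d₁))).2⟩
      have hd₁ : d₁ * M ∣ R * v := by
        refine Nat.dvd_of_mul_dvd_mul_left h.prime.pos ?_
        rwa [← mul_assoc, mul_comm v (R * v)]
      by_cases hvd₁ : v ∣ d₁
      · obtain ⟨d₂, rfl⟩ := hvd₁
        have : NeZero d₂ := ⟨(mul_ne_zero_iff.1 (NeZero.ne (v * d₂))).2⟩
        have hd₂ : d₂ * M ∣ R := by
          refine Nat.dvd_of_mul_dvd_mul_left h.prime.pos ?_
          rwa [← mul_assoc, mul_comm v R]
        refine ⟨(0, 0, degCls d₂ O S hd₂ w),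
          ⟨zero_mem _, zero_mem _, degCls_mem_eigVec hd₂ hS hw⟩, ?_⟩
        rw [up_apply, map_zero, map_zero, zero_add, zero_add]
        exact degCls_comp _ _ (by ring) hd w
      · have hd₁' : d₁ * M ∣ R := by
          refine Nat.Coprime.dvd_of_dvd_mul_right (Nat.Coprime.symm ?_) hd₁
          rw [Nat.Prime.coprime_iff_not_dvd h.prime, h.prime.dvd_mul]
          exact not_or.2 ⟨hvd₁, hvM⟩
        refine ⟨(0, degCls d₁ O S hd₁' w, 0),
          ⟨zero_mem _, degCls_mem_eigVec hd₁' hS hw, zero_mem _⟩, ?_⟩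
        rw [up_apply, map_zero, map_zero, zero_add, add_zero]
        exact degCls_comp _ _ (mul_comm d₁ v) hd w
    · have hd' : d * M ∣ R := by
        have hcop : Nat.Coprime (d * M) v := by
          refine Nat.Coprime.symm ?_
          rw [Nat.Prime.coprime_iff_not_dvd h.prime, h.prime.dvd_mul]
          exact not_or.2 ⟨hvd, hvM⟩
        exact hcop.dvd_of_dvd_mul_right (hcop.dvd_of_dvd_mul_right hd)
      refine ⟨(degCls d O S hd' w, 0, 0),
        ⟨degCls_mem_eigVec hd' hS hw, zero_mem _, zero_mem _⟩, ?_⟩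
      rw [up_apply, map_zero, map_zero, add_zero, add_zero]
      exact degCls_comp _ _ (mul_one d) hd w
  obtain ⟨⟨f₁, f₂, f₃⟩, ⟨hf₁, hf₂, hf₃⟩, hf⟩ := hle hcz
  have h0 := congrArg (down O S h) hf
  rw [down_up h _ (hecke_eq_of_mem_eigVec hinj hg hS hM hga hf₁ h.not_dvd)
      (hecke_eq_of_mem_eigVec hinj hg hS hM hga hf₂ h.not_dvd)
      (hecke_eq_of_mem_eigVec hinj hg hS hM hga hf₃ h.not_dvd),
    map_smul, LinearMap.mem_ker.1 hz, smul_zero, Prod.mk_eq_zero, Prod.mk_eq_zero] at h0
  obtain ⟨e1, e2, e3⟩ := h0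
  set E : O := ((v : O) - 1) * (((v : O) + 1) ^ 2 - a v ^ 2) with hE
  have hE0 : E ≠ 0 := mul_ne_zero
    (sub_ne_zero.2 fun e => h.prime.ne_one (by exact_mod_cast e))
    (sub_ne_zero.2 fun e => qCoeff_sq_ne h.prime hvM hg.1 (by
      rw [hga v h.prime hvM, ← map_pow, ← e, map_pow, map_add, map_natCast, map_one]))
  have z1 : f₁ = 0 := by
    refine (smul_eq_zero.1 (?_ : E • f₁ = 0)).resolve_left hE0
    linear_combination (norm := module) (v : O) • e1 - a v • e2 + e3
  have z3 : f₃ = 0 := by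
    refine (smul_eq_zero.1 (?_ : E • f₃ = 0)).resolve_left hE0
    linear_combination (norm := module) e1 - a v • e2 + (v : O) • e3
  have z2 : f₂ = 0 := by
    simp only [z1, z3, smul_zero, zero_add, add_zero] at e2
    exact (smul_eq_zero.1 e2).resolve_left (mul_ne_zero (Nat.cast_ne_zero.2 h.prime.ne_zero)
      (Nat.cast_add_one_ne_zero v))
  rw [z1, z2, z3, Prod.mk_zero_zero, Prod.mk_zero_zero, map_zero] at hf
  exact hz0 ((smul_eq_zero.1 hf.symm).resolve_left hc)

end Kernel

section Range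

variable {O : Type} [CommRing O] [IsDomain O] [IsDiscreteValuationRing O] [CharZero O] {p : ℕ}
  [CharP (ResidueField O) p] {R v : ℕ} [hv : Fact v.Prime] [NeZero R] {S : Finset ℕ} {ℓ : ℕ}
  [hℓ : Fact ℓ.Prime] (h : RaiseData v R)

/-- Some operator that is a unit at every congruent system maps every triple into the image of
`down`. -/
theorem exists_polynomial_range (aux : AuxPrime v R ℓ) (hp : p.Prime) (hp2 : p ≠ 2)
    (h2 : IsUnit (2 : O)) (hS : ∀ q : ℕ, q.Prime → q ∣ R * v * v → q ∈ S) (hℓS : ℓ ∉ S) :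
    ∃ P : Polynomial O, (∀ c : O, IsUnit c → IsUnit (P.eval c)) ∧
      ∀ z : Classes O S R × Classes O S R × Classes O S R,
        Polynomial.aeval (tEl O S R hℓ.out hℓS ^ 4) P • z ∈ LinearMap.range (down O S h) := by
  have : NeZero (R * v) := neZero_mul_q
  set t : OpRing O R S := tEl O S R hℓ.out hℓS ^ 4
  set Rg := LinearMap.range (down O S h)
  let f : Module.End O (Classes O S R × Classes O S R × Classes O S R) :=
    Algebra.lsmul O O _ t
  have hf : ∀ z, f z = t • z := fun _ => rfl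
  have hinv : Rg ≤ Rg.comap f := by
    rintro _ ⟨x, rfl⟩
    exact ⟨tEl O S (R * v * v) hℓ.out hℓS ^ 4 • x,
      down_tEl_smul h h2 three_torsionFree_of_charZero hS hℓ.out hℓS 4 x⟩
  let g := Rg.mapQ Rg f hinv
  obtain ⟨ϖ, hϖ⟩ := IsDiscreteValuationRing.exists_irreducible O
  have hrange : LinearMap.range g ≤ maximalIdeal O • (⊤ : Submodule O _) := by
    rintro _ ⟨y, rfl⟩
    obtain ⟨z, rfl⟩ := Submodule.Quotient.mk_surjective Rg y
    obtain ⟨x, hx⟩ := exists_redThree_deltaStar h aux hp hp2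
      ((toHomMod.symm z.1, toHomMod.symm z.2.1, toHomMod.symm z.2.2) :
        (Additive (gTop R) →+ O) × (Additive (gTop R) →+ O) × (Additive (gTop R) →+ O))
    have e : ∀ w : Classes O S R, t • w = toHomMod ((tTop R ℓ O ^ 4) (toHomMod.symm w)) :=
      fun w => tEl_pow_smul aux hℓS 4 w
    set y : Classes O S (R * v * v) := toHomMod x
    set d := down O S h y - t • z with hd
    have hred : redThree R ((toHomMod.symm d.1, toHomMod.symm d.2.1, toHomMod.symm d.2.2) :
        (Additive (gTop R) →+ O) × (Additive (gTop R) →+ O) × (Additive (gTop R) →+ O)) = 0 := by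
      rw [← sub_eq_zero.2 hx, ← map_sub]
      refine congrArg (redThree R) (Prod.ext ?_ (Prod.ext ?_ ?_))
      · simp only [hd, Prod.fst_sub, Prod.smul_fst, e, map_sub, LinearEquiv.symm_apply_apply]
        rfl
      · simp only [hd, Prod.snd_sub, Prod.smul_snd, Prod.fst_sub, Prod.smul_fst, e, map_sub,
          LinearEquiv.symm_apply_apply]
        rfl
      · simp only [hd, Prod.snd_sub, Prod.smul_snd, e, map_sub, LinearEquiv.symm_apply_apply]
        rfl
    have hdvd : ∀ w : Classes O S R,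
        redLin (gTop R) (toHomMod.symm w) = 0 → ∃ χ : Classes O S R, w = ϖ • χ := fun w hw =>
      exists_eq_smul S hϖ fun γ => by
        rw [← Ideal.mem_span_singleton, ← hϖ.maximalIdeal_eq, ← residue_eq_zero_iff]
        exact DFunLike.congr_fun hw γ
    obtain ⟨χ1, hχ1⟩ := hdvd d.1 (congrArg Prod.fst hred)
    obtain ⟨χ2, hχ2⟩ := hdvd d.2.1 (congrArg (fun q => q.2.1) hred)
    obtain ⟨χ3, hχ3⟩ := hdvd d.2.2 (congrArg (fun q => q.2.2) hred)
    have hdχ : d = ϖ • (χ1, χ2, χ3) := Prod.ext hχ1 (Prod.ext hχ2 hχ3)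
    have hgz : g (Submodule.Quotient.mk z) = ϖ • Submodule.Quotient.mk (-(χ1, χ2, χ3)) := by
      rw [Submodule.mapQ_apply, hf, ← Submodule.Quotient.mk_smul, Submodule.Quotient.eq,
        smul_neg, sub_neg_eq_add, ← hdχ, hd, add_sub_cancel]
      exact ⟨y, rfl⟩
    rw [hgz]
    exact Submodule.smul_mem_smul (hϖ.maximalIdeal_eq ▸ Ideal.mem_span_singleton_self ϖ)
      Submodule.mem_top
  obtain ⟨P, hP, -, hcoeff, hP0⟩ :=
    LinearMap.exists_monic_and_natDegree_eq_and_coeff_mem_pow_and_aeval_eq_zero O g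
      (maximalIdeal O) hrange
  refine ⟨P, fun c hc => ?_, fun z => ?_⟩
  · rw [← residue_ne_zero_iff_isUnit, ← Polynomial.eval₂_at_apply,
      Polynomial.eval₂_eq_sum_range, Finset.sum_range_succ, Finset.sum_eq_zero fun k hk => ?_]
    · rw [zero_add, hP.coeff_natDegree, map_one, one_mul]
      exact pow_ne_zero _ ((residue_ne_zero_iff_isUnit c).2 hc)
    · rw [(residue_eq_zero_iff _).2 (Ideal.pow_le_self
        (Nat.sub_ne_zero_of_lt (Finset.mem_range.1 hk)) (hcoeff k)), zero_mul]
  · have e := Fermat.Agent.LevelRaising.aeval_intertwine Rg.mkQ f g (fun w => rfl) P z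
    rw [hP0, LinearMap.zero_apply, Submodule.mkQ_apply, Submodule.Quotient.mk_eq_zero,
      show Polynomial.aeval f P = Algebra.lsmul O O _ (Polynomial.aeval t P) from
        Polynomial.aeval_algHom_apply _ t P] at e
    exact e

end Range

section Functional

variable {O : Type} [CommRing O] {R v : ℕ} [hv : Fact v.Prime] [NeZero R] {S : Finset ℕ}
  {a : ℕ → O} (h : RaiseData v R)

/-- The eigen functional at level `R` induced through `down` on the first component. -/
theorem exists_dvd_of_range (hX : ∀ (i : {ℓ : ℕ // ℓ.Prime ∧ ℓ ∉ S}) (x : Classes O S (R * v * v)),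
      down O S h ((X (Sum.inr i) : OpRing O (R * v * v) S) • x) =
        (X (Sum.inr i) : OpRing O R S) • down O S h x)
    (π : OpRing O R S)
    (hπ : ∀ z : Classes O S R × Classes O S R × Classes O S R,
      π • z ∈ LinearMap.range (down O S h))
    {φ : Classes O S (R * v * v) →ₗ[O] O} (hφ : IsEigFun S (R * v * v) a φ)
    (hker : ∀ x, down O S h x = 0 → φ x = 0) {D : O} {u : Classes O S R}
    (hD : ∀ ψ, IsEigFun S R a ψ → D ∣ ψ u) :
    ∃ x, down O S h x = (π • u, 0, 0) ∧ D ∣ φ x := by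
  set f := down O S h
  let k : Classes O S R →ₗ[O] Classes O S R × Classes O S R × Classes O S R :=
    LinearMap.inl O _ _ ∘ₗ Algebra.lsmul O O _ π
  have hk : ∀ z, k z = π • (z, 0, 0) := fun z =>
    Prod.ext rfl (Prod.ext (smul_zero π).symm (smul_zero π).symm)
  have hmem : ∀ z, k z ∈ LinearMap.range f := fun z => hk z ▸ hπ _
  have hle : LinearMap.ker f ≤ LinearMap.ker φ := fun x hx =>
    LinearMap.mem_ker.2 (hker x (LinearMap.mem_ker.1 hx))
  set w : Classes O S R →ₗ[O] O :=
    (LinearMap.ker f).liftQ φ hle ∘ₗ f.quotKerEquivRange.symm.toLinearMap ∘ₗ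
      k.codRestrict (LinearMap.range f) hmem
  have hw : ∀ z x, f x = k z → w z = φ x := fun z x hx => by
    have e : k.codRestrict (LinearMap.range f) hmem z = ⟨f x, x, rfl⟩ := Subtype.ext hx.symm
    have e' : f.quotKerEquivRange.symm ⟨f x, x, rfl⟩ = Submodule.Quotient.mk x := by
      rw [LinearEquiv.symm_apply_eq]; rfl
    show (LinearMap.ker f).liftQ φ hle (f.quotKerEquivRange.symm _) = φ x
    rw [e, e', Submodule.liftQ_apply]
  obtain ⟨x, hx⟩ := hmem u
  refine ⟨x, hx, hw u x hx ▸ hD w fun i z => ?_⟩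
  obtain ⟨y, hy⟩ := hmem z
  rw [hw z y hy, ← hφ i y]
  refine hw _ _ ?_
  rw [hX, hy, hk, hk, smul_comm]
  exact congrArg (π • ·) (Prod.ext rfl (Prod.ext (smul_zero _) (smul_zero _)))

end Functional

end Square

variable {O : Type} [CommRing O] [IsDomain O] [IsDiscreteValuationRing O]
  [IsAdicComplete (IsLocalRing.maximalIdeal O) O]

open IsLocalRing MvPolynomial Fermat.Agent.Arith Fermat.Agent.Deform Fermat.Agent.RT.GammaH
  Step Square in
open Fermat.Agent.RT.Lift (tTop tEl three_torsionFree_of_charZero) in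
open Fermat.Agent.LevelRaising (RaiseData AuxPrime levelM levelM_ne_zero) in
/-- **The congruence bound from level `R` to level `R v ^ 2`.** -/
theorem squareStepProperty {p : ℕ} {W : Rigid O} {ρbar : ResidualGaloisRep (ResidueField O)}
    {bb : Module.Basis (Fin 2) (ResidueField O) ρbar.V} {S : Finset ℕ}
    {abar : ℕ → ResidueField O} {N₀ : ℕ} (hdat : IsResidualDatum p W ρbar bb S abar N₀) :
    SquareStepProperty p S abar := by
  intro ι hι R v _ a D hvp hvR hvne hvS hS hcl hres hcong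
  obtain ⟨M, _, g, hg, hM, hga⟩ := hcl
  obtain ⟨u, hu, ⟨γ, hγ⟩, hD⟩ := hcong
  rw [show R * v ^ 2 = R * v * v by ring]
  letI : Algebra O ℂ := ι.toAlgebra
  have hp : p.Prime := hdat.prime_mem p hdat.mem_S_p
  have : Fact p.Prime := ⟨hp⟩
  have : Fact v.Prime := ⟨hvp⟩
  have : NeZero v := ⟨hvp.ne_zero⟩
  have : NeZero (R * v) := neZero_mul_q
  have : CharZero O := (RingHom.charZero_iff hι).2 inferInstance
  have : CharP (ResidueField O) p := (CharP.charP_iff_prime_eq_zero hp).2 <| by
    rw [← map_natCast (residue O)]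
    exact (residue_eq_zero_iff _).2 hdat.p_mem
  have h2 : IsUnit (2 : O) := isUnit_two hdat.p_ne_two
  have h : RaiseData v R := ⟨hvp, hvR⟩
  have hS' := mem_S_of_dvd (v := v) hS hvS
  obtain ⟨ℓ, hℓp, hℓS, hℓ1, hℓ2⟩ := hdat.aux (levelM v R * (R * v * v) * p)
    (mul_ne_zero (mul_ne_zero (levelM_ne_zero (NeZero.ne R))
      (mul_ne_zero (NeZero.ne _) hvp.ne_zero)) hp.ne_zero)
  have : Fact ℓ.Prime := ⟨hℓp⟩
  have hint : ∀ k : ℕ, k ∣ ℓ - 1 → (k : ℤ) ∣ (ℓ : ℤ) - 1 := fun k hk => by
    have := Int.natCast_dvd_natCast.2 hk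
    rwa [Nat.cast_sub hℓp.one_le, Nat.cast_one] at this
  have hL : ((R * v * v : ℕ) : ℤ) ∣ (ℓ : ℤ) - 1 :=
    hint _ (((dvd_mul_left _ _).mul_right p).trans hℓ1)
  have aux : AuxPrime v R ℓ :=
    { prime := hℓp
      not_dvd := fun hd => hℓS (hS' ℓ hℓp (hd.mul_right v))
      dvd_sub := hint _ (((dvd_mul_right _ _).mul_right p).trans hℓ1)
      dvd_sub' := (Int.natCast_dvd_natCast.2 (dvd_mul_right _ v)).trans hL }
  have hℓk : (ℓ : ResidueField O) = 1 := by
    have h1 : ((ℓ - 1 : ℕ) : ResidueField O) = 0 :=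
      (CharP.cast_eq_zero_iff _ p _).2 ((dvd_mul_left p _).trans hℓ1)
    rwa [Nat.cast_sub hℓp.one_le, Nat.cast_one, sub_eq_zero] at h1
  -- the eigenvalue of `T_ℓ - 1 - ℓ`
  set c : O := opEval R a (tEl O S R hℓp hℓS) with hc
  have hcu : IsUnit c := by
    rw [← residue_ne_zero_iff_isUnit, hc, tEl, map_sub, opEval_inr, ← algebraMap_eq,
      AlgHom.commutes, Algebra.algebraMap_self, RingHom.id_apply, map_sub, map_add, map_one,
      map_natCast, hres ℓ hℓp hℓS, hℓk, sub_ne_zero, one_add_one_eq_two]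
    exact hℓ2
  have hT : hecke R ⊤ v O ((toHomMod (O := O)).symm u) = a v • (toHomMod (O := O)).symm u :=
    hecke_eq_of_mem_eigVec hι hg hS hM hga hu hvR
  set f : Classes O S R × Classes O S R × Classes O S R := ((v : O) • u, -(a v) • u, u)
  set u' := up O R v S f with hu'
  set E : O := ((v : O) - 1) * (((v : O) + 1) ^ 2 - a v ^ 2) with hE
  have hdown : down O S h u' = (E • u, 0, 0) := by
    rw [hu', down_up h (c := a v) f
      (by simp only [f, map_smul, hT, smul_comm (a v)])
      (by simp only [f, map_smul, map_neg, neg_smul, hT, smul_neg]) hT]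
    simp only [f, smul_smul, ← add_smul]
    refine Prod.ext ?_ (Prod.ext ?_ ?_) <;> dsimp only
    · congr 1
      rw [hE]
      ring
    · rw [show (v * a v * v + v * (v + 1) * -a v + v * a v : O) = 0 by ring, zero_smul]
    · rw [show ((a v ^ 2 - (v + 1)) * v + v * a v * -a v + v * (v + 1) : O) = 0 by ring, zero_smul]
  refine ⟨u', up_mem_eigVec hS' ((eigVec S R a).smul_mem _ hu) ((eigVec S R a).smul_mem _ hu) hu,
    ?_, ?_⟩
  · -- primitivity
    by_contra hnu
    rw [not_exists] at hnu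
    let f' : (Additive (gTop R) →+ O) × (Additive (gTop R) →+ O) × (Additive (gTop R) →+ O) :=
      (toHomMod.symm f.1, toHomMod.symm f.2.1, toHomMod.symm f.2.2)
    have hred : redLin (gTop (R * v * v)) (delta O f') = 0 :=
      AddMonoidHom.ext fun x => (residue_eq_zero_iff _).2 (hnu x)
    have r := DFunLike.congr_fun (congrArg (fun q => q.2.2)
      (redThree_eq_zero_of_delta h aux hp hdat.p_ne_two hL f' hred)) γ
    change residue O ((toHomMod ((tTop R ℓ O (A := O) ^ 6) (toHomMod.symm u))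
      : Classes O S R) γ) = 0 at r
    rw [← Lift.tEl_pow_smul aux hℓS 6 u, eigVec_smul hu, map_pow] at r
    change residue O (c ^ 6 * u γ) = 0 at r
    exact (residue_ne_zero_iff_isUnit _).2 ((hcu.pow 6).mul hγ) r
  · intro φ hφ
    have hker : ∀ x, down O S h x = 0 → φ x = 0 := fun x hx =>
      eigFun_eq_zero_of_down h hι hg hM hga hS hvS h2 hφ hx
    obtain ⟨P, hPu, hP⟩ := exists_polynomial_range h aux hp hdat.p_ne_two h2 hS' hℓS
    set π := Polynomial.aeval (tEl O S R hℓp hℓS ^ 4) P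
    obtain ⟨x, hx, hDx⟩ := exists_dvd_of_range h
      (down_X_smul h h2 three_torsionFree_of_charZero hS') π hP hφ hker hD
    have hπ : opEval R a π = P.eval (c ^ 4) := by
      rw [← Polynomial.aeval_algHom_apply, map_pow, hc, Polynomial.coe_aeval_eq_eval]
    rw [eigVec_smul hu π, hπ] at hx
    have h0 := hker (P.eval (c ^ 4) • u' - E • x) (by
      rw [map_sub, map_smul, map_smul, hdown, hx]
      simp [smul_comm E])
    rw [map_sub, map_smul, map_smul, sub_eq_zero, smul_eq_mul, smul_eq_mul] at h0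
    refine ((hPu _ (hcu.pow 4)).dvd_mul_left).1 ?_
    rw [h0, mul_comm D]
    exact mul_dvd_mul_left E hDx

end Fermat.Agent.RT.Lifting
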