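import Fermat.Agent.RT.Lifting.Step.SquareOps

/-!
# The lemma of Ihara for three degeneracy maps over a field of odd characteristic

A relation `ψ₁ x + ψ₂ (α x) + ψ₃ (α ^ 2 x) = const` between functions on cusps with periods at a
level prime to `q`, `α = diag(q, 1)`, makes the fourth `T_ℓ - 1 - ℓ` image of each constant.
Consequently the three degeneracy maps are injective and their transposes surjective, up to powers
of `T_ℓ - 1 - ℓ`.
-/

set_option autoImplicit false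

noncomputable section

namespace Fermat.Agent.RT.Lifting.Square

open CongruenceSubgroup Matrix.SpecialLinearGroup
open Fermat.Agent.RT.GammaH
open Fermat.Agent.LevelRaising
open Fermat.Agent.Periods (homT)
open ModularCurve.Period (IsParabolicHom)
open scoped MatrixGroups Matrix

section Functions

variable {q N p ℓ : ℕ} [NeZero N] [NeZero ℓ] (h : RaiseData q N) (a : AuxPrime q N ℓ)
  {A : Type*} [AddCommGroup A]

include h a in
/-- A relation `ψ x + G (α x) = const`: both functions are killed up to constants by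
`(T_ℓ - 1 - ℓ) ^ 2`. -/
theorem two_term (hp : p.Prime) (hp2 : p ≠ 2) (hA : ∀ x : A, p • x = 0)
    {ψ G : (Fin 2 → ℚ) → A} {χ : Additive (Gamma0 N) →+ A} (hψ : IsCuspFun ψ)
    (hper : HasPeriods N ψ χ) {L : ℕ} [NeZero L] (hℓL : ¬ ℓ ∣ L)
    {χG : Additive (Gamma0 L) →+ A} (hG : HasPeriods L G χG) (b : A)
    (hrel : ∀ x, x ≠ 0 → ψ x + G (actM (alphaMat q) x) = b) :
    (∀ x, x ≠ 0 → tFun ℓ (tFun ℓ ψ) x = 0) ∧
      ∃ c, ∀ y, y ≠ 0 → tFun ℓ (tFun ℓ G) y = c := by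
  have hfe : ∀ x, x ≠ 0 → ψ x = (-1 : ℤ) • G (!![(q : ℚ), 0; 0, 1] *ᵥ x) + b := fun x hx => by
    rw [← hrel x hx, ← actM_alphaMat, neg_smul, one_smul]
    abel
  have hU := upr_inv_mem_quasiGroup h.prime.ne_zero ψ G (-1) b hfe (HasPeriods.intSL_upr ⟨_, hG⟩)
  have z1 : ∀ x, x ≠ 0 → tFun ℓ (tFun ℓ ψ) x = 0 := fun x hx =>
    tFun_tFun_eq_zero h.prime h.not_dvd hp hp2 hA a.prime a.not_dvd_left a.dvd_sub hψ hper hU hx
  refine ⟨z1, ?_⟩
  obtain ⟨c1, hc1⟩ := exists_tFun_alpha hG a.prime a.not_dvd_right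
  obtain ⟨c2, hc2⟩ := exists_tFun_alpha (hG.tFun a.prime hℓL) a.prime a.not_dvd_right
  have z2 : ∀ x, x ≠ 0 → tFun ℓ (tFun ℓ G) (actM (alphaMat q) x) = -c2 := by
    intro x hx
    have e1 : ∀ y, y ≠ 0 → tFun ℓ ψ y =
        (-1 : ℤ) • tFun ℓ G (actM (alphaMat q) y) + (-1 : ℤ) • c1 := fun y hy => by
      rw [tFun_congr ℓ (φ := fun z => (-1 : ℤ) • G (actM (alphaMat q) z) + b)
        (fun z hz => by rw [hfe z hz, actM_alphaMat]) hy, tFun_add, tFun_const, tFun_zsmul,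
        hc1 y hy, add_zero, smul_add]
    have e2 := z1 x hx
    rw [tFun_congr ℓ e1 hx, tFun_add, tFun_const, tFun_zsmul, hc2 x hx, add_zero] at e2
    rw [neg_smul, one_smul, neg_eq_zero] at e2
    exact eq_neg_of_add_eq_zero_left e2
  refine ⟨-c2, fun y hy => ?_⟩
  have hq : (q : ℚ) ≠ 0 := Nat.cast_ne_zero.mpr h.prime.ne_zero
  have e : actM (alphaMat q) ![y 0 / q, y 1] = y := by
    rw [actM_alphaMat]; ext i
    fin_cases i <;> simp [Matrix.mulVec, dotProduct, Fin.sum_univ_two, mul_div_cancel₀ _ hq]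
  rw [← e]
  refine z2 _ fun h0 => hy ?_
  rw [← e, h0]; simp [actM]

/-- The fourth iterate of `T_ℓ - 1 - ℓ` on functions on cusps. -/
def tFour (ℓ : ℕ) [NeZero ℓ] (ψ : (Fin 2 → ℚ) → A) : (Fin 2 → ℚ) → A :=
  tFun ℓ (tFun ℓ (tFun ℓ (tFun ℓ ψ)))

include h a in
/-- Three functions with a relation along `α` and `α ^ 2`. -/
theorem three_term [NeZero (N * q)] (hp : p.Prime) (hp2 : p ≠ 2) (hA : ∀ x : A, p • x = 0)
    {ψ₁ ψ₂ ψ₃ : (Fin 2 → ℚ) → A} {χ₁ χ₂ χ₃ : Additive (Gamma0 N) →+ A}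
    (hψ₁ : IsCuspFun ψ₁) (hψ₂ : IsCuspFun ψ₂) (hp₁ : HasPeriods N ψ₁ χ₁)
    (hp₂ : HasPeriods N ψ₂ χ₂) (hp₃ : HasPeriods N ψ₃ χ₃) (b : A)
    (hrel : ∀ x, x ≠ 0 →
      ψ₁ x + ψ₂ (actM (alphaMat q) x) + ψ₃ (actM (alphaMat (q * q)) x) = b) :
    (∃ c, ∀ x, x ≠ 0 → tFour ℓ ψ₁ x = c) ∧ (∃ c, ∀ x, x ≠ 0 → tFour ℓ ψ₂ x = c) ∧
      ∃ c, ∀ x, x ≠ 0 → tFour ℓ ψ₃ x = c := by
  have hαdet : (alphaMat q).det ≠ 0 := by simp [h.det_alphaMat, h.prime.ne_zero]
  set G : (Fin 2 → ℚ) → A := fun y => ψ₂ y + ψ₃ (actM (alphaMat q) y) with hGdef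
  have hG : HasPeriods (N * q) G
      ((RaiseData.resSys q N).apply χ₂ + h.conjSys.apply χ₃) := by
    intro γ x hx
    obtain ⟨g, hg⟩ := exists_res_lift γ
    obtain ⟨g', hg'⟩ := h.exists_conj_lift γ
    have e1 : actM (alphaMat q) (act (γ : SL(2, ℤ)) x) =
        act (g' : SL(2, ℤ)) (actM (alphaMat q) x) := by
      rw [← actM_eq_act, ← actM_mul, hg', actM_mul, actM_eq_act]
    simp only [hGdef, e1, hp₃ g' _ (actM_ne_zero hαdet hx), AddMonoidHom.add_apply,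
      LevelRaising.res_apply χ₂ γ hg, h.conj_apply χ₃ γ hg']
    rw [← hg, hp₂ g x hx]
    abel
  obtain ⟨z1, c, hc⟩ := two_term h a hp hp2 hA hψ₁ hp₁ a.not_dvd hG b fun x hx => by
    rw [← hrel x hx, hGdef]
    simp only [actM_alpha_alpha, add_assoc]
  obtain ⟨c1, hc1⟩ := exists_tFun_alpha hp₃ a.prime a.not_dvd_right
  obtain ⟨c2, hc2⟩ := exists_tFun_alpha (hp₃.tFun a.prime a.not_dvd_left) a.prime a.not_dvd_right
  have hG' : ∀ y, y ≠ 0 → tFun ℓ (tFun ℓ G) y =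
      tFun ℓ (tFun ℓ ψ₂) y + (tFun ℓ (tFun ℓ ψ₃) (actM (alphaMat q) y) + c2) := by
    intro y hy
    have e1 : ∀ z, z ≠ 0 → tFun ℓ G z =
        tFun ℓ ψ₂ z + (tFun ℓ ψ₃ (actM (alphaMat q) z) + c1) := fun z hz => by
      rw [hGdef, tFun_add, hc1 z hz]
    rw [tFun_congr ℓ e1 hy, tFun_add, tFun_add, tFun_const, add_zero, hc2 y hy]
  obtain ⟨w2, d, hd⟩ := two_term h a hp hp2 hA ((hψ₂.tFun ℓ).tFun ℓ)
    ((hp₂.tFun a.prime a.not_dvd_left).tFun a.prime a.not_dvd_left) a.not_dvd_left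
    ((hp₃.tFun a.prime a.not_dvd_left).tFun a.prime a.not_dvd_left) (c - c2) fun y hy => by
    rw [← hc y hy, hG' y hy]
    abel
  refine ⟨⟨0, fun x hx => ?_⟩, ⟨0, w2⟩, ⟨d, hd⟩⟩
  have e : ∀ y, y ≠ 0 → tFun ℓ (tFun ℓ (tFun ℓ ψ₁)) y = 0 := fun y hy => by
    rw [tFun_congr ℓ (φ := fun _ => (0 : A)) z1 hy, tFun_const]
  rw [tFour, tFun_congr ℓ (φ := fun _ => (0 : A)) e hx, tFun_const]

end Functions

section Homs

variable {q N p ℓ : ℕ} [NeZero N] (h : RaiseData q N) (a : AuxPrime q N ℓ) {F : Type*} [Field F]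
  [CharP F p]

/-- `T_ℓ - 1 - ℓ` on `Hom(Γ₀(N), F)`. -/
abbrev tZero : (Additive (Gamma0 N) →+ F) →ₗ[F] (Additive (Gamma0 N) →+ F) :=
  tOp a.prime a.not_dvd_left F

theorem HasPeriods.tFour_apply [NeZero ℓ] {ψ : (Fin 2 → ℚ) → F}
    {χ : Additive (Gamma0 N) →+ F} (hper : HasPeriods N ψ χ) :
    HasPeriods N (tFour ℓ ψ) (tZero a (tZero a (tZero a (tZero a χ)))) := by
  have := (((hper.tFun a.prime a.not_dvd_left).tFun a.prime a.not_dvd_left).tFun a.prime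
    a.not_dvd_left).tFun a.prime a.not_dvd_left
  simpa only [tFour, tZero, tOp_apply] using this

variable [hq : Fact q.Prime] [NeZero (N * q)]

omit [NeZero (N * q)] in
theorem mem_gamma0_of_gTop {L : ℕ} (g : gTop L) : (g : SL(2, ℤ)) ∈ Gamma0 L := gammaH_le_Gamma0 g.2

theorem actM_degHom {M L d : ℕ} [NeZero d] (hd : d * M ∣ L) (γ : gTop L) (x : Fin 2 → ℚ) :
    actM (alphaMat d) (act (γ : SL(2, ℤ)) x) =
      act (degHom d hd γ : SL(2, ℤ)) (actM (alphaMat d) x) := by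
  have e := ((isIntMat_mapGL _).mul (isIntMat_degDiag d)).unique
    (show IsIntMat (mapGL ℝ (degHom d hd γ : SL(2, ℤ)) * ModularForm.heckeDiagMatrix d)
      (!![(d : ℤ), 0; 0, 1] * ((γ : SL(2, ℤ)) : Matrix (Fin 2) (Fin 2) ℤ)) by
      rw [mapGL_degHom, inv_mul_cancel_right]
      exact (isIntMat_degDiag d).mul (isIntMat_mapGL _))
  rw [← actM_eq_act, ← actM_eq_act, ← actM_mul, ← actM_mul]
  exact congrArg (actM · x) e.symm

include h in
/-- **Ihara's lemma for three maps**: parabolic classes with `delta = 0` are killed by the fifth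
power of `T_ℓ - 1 - ℓ`. -/
theorem tZero_five_eq_zero (hp : p.Prime) (hp2 : p ≠ 2)
    (hL : ((N * q * q : ℕ) : ℤ) ∣ (ℓ : ℤ) - 1) {w₁ w₂ w₃ : Additive (Gamma0 N) →+ F}
    (hw₁ : IsParabolicHom (Gamma0 N) w₁) (hw₂ : IsParabolicHom (Gamma0 N) w₂)
    (hw₃ : IsParabolicHom (Gamma0 N) w₃)
    (h0 : delta (M := N) (q := q) F
      (Lift.toTop F N w₁, Lift.toTop F N w₂, Lift.toTop F N w₃) = 0) :
    tZero a (tZero a (tZero a (tZero a (tZero a w₁)))) = 0 ∧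
      tZero a (tZero a (tZero a (tZero a (tZero a w₂)))) = 0 ∧
      tZero a (tZero a (tZero a (tZero a (tZero a w₃)))) = 0 := by
  have : NeZero ℓ := ⟨a.prime.ne_zero⟩
  have hA : ∀ x : F, p • x = 0 := fun x => by rw [nsmul_eq_mul, CharP.cast_eq_zero, zero_mul]
  obtain ⟨ψ₁, hψ₁, hper₁⟩ := exists_cuspFun (Gamma0 N) w₁ hw₁
  obtain ⟨ψ₂, hψ₂, hper₂⟩ := exists_cuspFun (Gamma0 N) w₂ hw₂
  obtain ⟨ψ₃, hψ₃, hper₃⟩ := exists_cuspFun (Gamma0 N) w₃ hw₃
  have hαdet : ∀ d : ℕ, d ≠ 0 → (alphaMat d).det ≠ 0 := fun d hd => by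
    simp [alphaMat, Matrix.det_fin_two_of, hd]
  have hq0 := h.prime.ne_zero
  set φ : (Fin 2 → ℚ) → F :=
    fun x => ψ₁ x + ψ₂ (actM (alphaMat q) x) + ψ₃ (actM (alphaMat (q * q)) x) with hφ
  have hφc : IsCuspFun φ := fun d x hd hx => by
    simp only [hφ, actM_smul, hψ₁ d x hd hx, hψ₂ d _ hd (actM_ne_zero (hαdet q hq0) hx),
      hψ₃ d _ hd (actM_ne_zero (hαdet _ (mul_ne_zero hq0 hq0)) hx)]
  have hφp : HasPeriods (N * q * q) φ 0 := by
    intro γ x hx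
    set γ' : gTop (N * q * q) := ⟨(γ : SL(2, ℤ)), gammaH_top.ge γ.2⟩
    have e0 := congrArg (fun X : Additive (gTop (N * q * q)) →+ F => X (Additive.ofMul γ')) h0
    simp only [delta, LinearMap.add_apply, LinearMap.comp_apply, LinearMap.fst_apply,
      LinearMap.snd_apply, AddMonoidHom.add_apply, AddMonoidHom.zero_apply, degOp_apply] at e0
    have e0' : w₁ (Additive.ofMul ⟨_, mem_gamma0_of_gTop
          (degHom 1 (one_dvd_top (M := N) (q := q)) γ')⟩) +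
        w₂ (Additive.ofMul ⟨_, mem_gamma0_of_gTop
          (degHom q (q_dvd_top (M := N) (q := q)) γ')⟩) +
        w₃ (Additive.ofMul ⟨_, mem_gamma0_of_gTop
          (degHom (q * q) (qq_dvd_step (M := N) (q := q)) γ')⟩) = 0 := e0
    have e1 : act (γ : SL(2, ℤ)) x =
        act (degHom 1 (one_dvd_top (M := N) (q := q)) γ' : SL(2, ℤ)) x := by
      have h1 := actM_degHom (one_dvd_top (M := N) (q := q)) γ' x
      have e : alphaMat 1 = 1 := by ext i j; fin_cases i <;> fin_cases j <;> simp [alphaMat]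
      rwa [e, actM_one, actM_one] at h1
    have e2 := actM_degHom (q_dvd_top (M := N) (q := q)) γ' x
    have e3 := actM_degHom (qq_dvd_step (M := N) (q := q)) γ' x
    simp only [hφ, AddMonoidHom.zero_apply, add_zero]
    rw [e2, e3, e1, hper₁ ⟨_, mem_gamma0_of_gTop _⟩ x hx,
      hper₂ ⟨_, mem_gamma0_of_gTop _⟩ _ (actM_ne_zero (hαdet q hq0) hx),
      hper₃ ⟨_, mem_gamma0_of_gTop _⟩ _ (actM_ne_zero (hαdet _ (mul_ne_zero hq0 hq0)) hx)]
    linear_combination e0'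
  obtain ⟨c1, hc1⟩ := exists_tFun_alpha (L := N) hper₂ a.prime a.not_dvd_right
  obtain ⟨c2, hc2⟩ := exists_tFun_alpha (L := N) (q := q * q) hper₃ a.prime
    (fun hd => a.not_dvd_right ((a.prime.dvd_mul.1 hd).elim id id))
  have hrel : ∀ x, x ≠ 0 → tFun ℓ ψ₁ x + tFun ℓ ψ₂ (actM (alphaMat q) x) +
      tFun ℓ ψ₃ (actM (alphaMat (q * q)) x) = -(c1 + c2) := fun x hx => by
    have z := tFun_eq_zero_of_invariant a.prime hL hφc hφp hx
    rw [hφ, tFun_add, tFun_add, hc1 x hx, hc2 x hx] at z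
    linear_combination z
  have P₁ : HasPeriods N (tFun ℓ ψ₁) (tZero a w₁) := HasPeriods.tFun hper₁ a.prime a.not_dvd_left
  have P₂ : HasPeriods N (tFun ℓ ψ₂) (tZero a w₂) := HasPeriods.tFun hper₂ a.prime a.not_dvd_left
  have P₃ : HasPeriods N (tFun ℓ ψ₃) (tZero a w₃) := HasPeriods.tFun hper₃ a.prime a.not_dvd_left
  obtain ⟨⟨d₁, z₁⟩, ⟨d₂, z₂⟩, ⟨d₃, z₃⟩⟩ :=
    three_term h a hp hp2 hA (hψ₁.tFun ℓ) (hψ₂.tFun ℓ) P₁ P₂ P₃ _ hrel
  exact ⟨LevelRaising.HasPeriods.eq_zero (HasPeriods.tFour_apply a P₁) d₁ z₁,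
    LevelRaising.HasPeriods.eq_zero (HasPeriods.tFour_apply a P₂) d₂ z₂,
    LevelRaising.HasPeriods.eq_zero (HasPeriods.tFour_apply a P₃) d₃ z₃⟩

/-- The reduced image of the three transposes. -/
def degImageThree (q N : ℕ) (F : Type*) [Field F] :
    Submodule F ((Additive (gTop N) →+ F) × (Additive (gTop N) →+ F) × (Additive (gTop N) →+ F)) :=
  Submodule.span F {z | ∃ u v : Fin 2 → ℚ, u ≠ 0 ∧ v ≠ 0 ∧
    z = (crossHomR F (gTop N) u v,
      crossHomR F (gTop N) (actM (alphaMat q) u) (actM (alphaMat q) v),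
      crossHomR F (gTop N) (actM (alphaMat (q * q)) u) (actM (alphaMat (q * q)) v))}

include h in
/-- The reduced image contains `(T_ℓ - 1 - ℓ) ^ 4` of every crossing homomorphism in each
component. -/
theorem tZero_four_mem_degImageThree (hp : p.Prime) (hp2 : p ≠ 2)
    {u v : Fin 2 → ℚ} (hu : u ≠ 0) (hv : v ≠ 0) :
    let w := Lift.toTop F N (tZero a (tZero a (tZero a (tZero a (crossHomR F (Gamma0 N) u v)))))
    (w, 0, 0) ∈ degImageThree q N F ∧ (0, w, 0) ∈ degImageThree q N F ∧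
      (0, 0, w) ∈ degImageThree q N F := by
  intro w
  haveI : NeZero ℓ := ⟨a.prime.ne_zero⟩
  have hA : ∀ x : F, p • x = 0 := fun x => by rw [nsmul_eq_mul, CharP.cast_eq_zero, zero_mul]
  have hαdet : ∀ d : ℕ, d ≠ 0 → (alphaMat d).det ≠ 0 := fun d hd => by
    simp [alphaMat, Matrix.det_fin_two_of, hd]
  have hq0 := h.prime.ne_zero
  suffices H : ∀ f : ((Additive (gTop N) →+ F) × (Additive (gTop N) →+ F) ×
      (Additive (gTop N) →+ F)) →ₗ[F] F,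
      degImageThree q N F ≤ LinearMap.ker f →
      f (w, 0, 0) = 0 ∧ f (0, w, 0) = 0 ∧ f (0, 0, w) = 0 by
    refine ⟨?_, ?_, ?_⟩ <;> by_contra hn <;>
      obtain ⟨f, hf, hle⟩ := Submodule.exists_le_ker_of_notMem hn
    · exact hf (H f hle).1
    · exact hf (H f hle).2.1
    · exact hf (H f hle).2.2
  intro f hf
  let J := (Lift.toTop (A := F) F N).toLinearMap
  let f1 := f ∘ₗ LinearMap.inl F _ _ ∘ₗ J
  let f2 := f ∘ₗ LinearMap.inr F (Additive (gTop N) →+ F) _ ∘ₗ LinearMap.inl F _ _ ∘ₗ J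
  let f3 := f ∘ₗ LinearMap.inr F (Additive (gTop N) →+ F) _ ∘ₗ
    LinearMap.inr F (Additive (gTop N) →+ F) _ ∘ₗ J
  set ψ : ((Additive (Gamma0 N) →+ F) →ₗ[F] F) → (Fin 2 → ℚ) → F :=
    fun g x => g (crossHomR F (Gamma0 N) ![1, 0] x) with hψdef
  have hcusp : ∀ g, IsCuspFun (ψ g) := fun g c x hc _ =>
    congrArg g (crossHomR_congr (crossHom_smul_right hc _ _))
  have hper : ∀ g, ∃ χ, HasPeriods N (ψ g) χ := fun g =>
    exists_hasPeriods _ fun γ =>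
      ⟨g (crossHomR F (Gamma0 N) ![1, 0] (act (γ : SL(2, ℤ)) ![1, 0])), fun x hx => by
        simp only [hψdef]
        rw [← crossHomR_add (K := F) basisVec_ne_zero
          (act_ne_zero (γ : SL(2, ℤ)) basisVec_ne_zero) (act_ne_zero _ hx), map_add,
          crossHomR_congr (crossHom_act γ ![1, 0] x), add_comm]⟩
  obtain ⟨χ1, hχ1⟩ := hper f1
  obtain ⟨χ2, hχ2⟩ := hper f2
  obtain ⟨χ3, hχ3⟩ := hper f3
  have hJ : ∀ x y, J (crossHomR F (Gamma0 N) x y) = crossHomR F (gTop N) x y := fun x y =>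
    crossHomR_homEquiv gammaH_top x y
  have hsplit : ∀ y z t, f (y, z, t) = f (y, 0, 0) + f (0, z, 0) + f (0, 0, t) := fun y z t => by
    rw [← map_add, ← map_add]; simp
  have hrel : ∀ x, x ≠ 0 → ψ f1 x + ψ f2 (actM (alphaMat q) x) +
      ψ f3 (actM (alphaMat (q * q)) x) = ψ f1 ![1, 0] + ψ f2 (actM (alphaMat q) ![1, 0]) +
        ψ f3 (actM (alphaMat (q * q)) ![1, 0]) := by
    intro x hx
    have z := LinearMap.mem_ker.mp (hf (Submodule.subset_span ⟨_, _, basisVec_ne_zero, hx, rfl⟩))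
    rw [hsplit, ← hJ, ← hJ, ← hJ] at z
    have r1 : f1 (crossHomR F (Gamma0 N) ![1, 0] x) = ψ f1 x - ψ f1 ![1, 0] :=
      represents_base f1 _ _ basisVec_ne_zero hx
    have r2 : f2 (crossHomR F (Gamma0 N) (actM (alphaMat q) ![1, 0]) (actM (alphaMat q) x)) =
        ψ f2 (actM (alphaMat q) x) - ψ f2 (actM (alphaMat q) ![1, 0]) :=
      represents_base f2 _ _ (actM_ne_zero (hαdet q hq0) basisVec_ne_zero)
        (actM_ne_zero (hαdet q hq0) hx)
    have r3 : f3 (crossHomR F (Gamma0 N) (actM (alphaMat (q * q)) ![1, 0])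
        (actM (alphaMat (q * q)) x)) =
        ψ f3 (actM (alphaMat (q * q)) x) - ψ f3 (actM (alphaMat (q * q)) ![1, 0]) :=
      represents_base f3 _ _ (actM_ne_zero (hαdet _ (mul_ne_zero hq0 hq0)) basisVec_ne_zero)
        (actM_ne_zero (hαdet _ (mul_ne_zero hq0 hq0)) hx)
    simp only [f1, f2, f3, LinearMap.comp_apply, LinearMap.inl_apply, LinearMap.inr_apply] at r1 r2 r3
    linear_combination z - r1 - r2 - r3
  obtain ⟨⟨d₁, z₁⟩, ⟨d₂, z₂⟩, ⟨d₃, z₃⟩⟩ :=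
    three_term h a hp hp2 hA (hcusp f1) (hcusp f2) hχ1 hχ2 hχ3 _ hrel
  have key : ∀ (g : (Additive (Gamma0 N) →+ F) →ₗ[F] F) (d : F),
      (∀ x, x ≠ 0 → tFour ℓ (ψ g) x = d) →
      g (tZero a (tZero a (tZero a (tZero a (crossHomR F (Gamma0 N) u v))))) = 0 := by
    intro g d hd
    have r := ((((represents_base (L := N) g).tFun a.prime a.not_dvd_left).tFun a.prime
      a.not_dvd_left).tFun a.prime a.not_dvd_left).tFun a.prime a.not_dvd_left u v hu hv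
    change g (tZero a (tZero a (tZero a (tZero a (crossHomR F (Gamma0 N) u v))))) =
      tFour ℓ (ψ g) v - tFour ℓ (ψ g) u at r
    rw [r, hd v hv, hd u hu, sub_self]
  exact ⟨key f1 d₁ z₁, key f2 d₂ z₂, key f3 d₃ z₃⟩

end Homs

end Fermat.Agent.RT.Lifting.Square
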