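import Fermat.Agent.RT.Lifting.Step.SquareIhara

/-!
# The three degeneracy maps modulo the maximal ideal

For coefficients in a local domain of characteristic zero with residue field of odd characteristic:
a triple whose `delta` reduces to zero is killed modulo the maximal ideal by the sixth power of
`T_ℓ - 1 - ℓ`, and the image of `deltaStar` contains the fourth power of every triple modulo the
maximal ideal.
-/

set_option autoImplicit false

noncomputable section

namespace Fermat.Agent.RT.Lifting.Square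

open CongruenceSubgroup Matrix.SpecialLinearGroup
open IsLocalRing (residue ResidueField)
open Fermat.Agent.RT.GammaH
open Fermat.Agent.LevelRaising
open Fermat.Agent.RT.Lift (tTop toTop tTop_toTop)
open ModularCurve.Period (IsParabolicHom)
open scoped MatrixGroups Matrix

section Reduction

variable {O : Type*} [CommRing O] [IsLocalRing O]

/-- Reduction of the values, linearly. -/
def redLin (G : Subgroup SL(2, ℤ)) :
    (Additive G →+ O) →ₗ[O] (Additive G →+ ResidueField O) where
  toFun φ := (residue O).toAddMonoidHom.comp φ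
  map_add' φ ψ := AddMonoidHom.ext fun x => map_add (residue O) _ _
  map_smul' c φ := AddMonoidHom.ext fun x => by
    show residue O (c * φ x) = c • residue O (φ x)
    rw [Algebra.smul_def, map_mul]
    rfl

theorem redLin_eq_redVal {G : Subgroup SL(2, ℤ)} (φ : Additive G →+ O) :
    redLin G φ = Lift.redVal φ := rfl

theorem redLin_opOf {G' G : Subgroup SL(2, ℤ)} {ι : Type*} [Fintype ι] {rep : ι → GLR}
    (hadm : Admissible G' G rep) (φ : Additive G' →+ O) :
    redLin G (opOf hadm O φ) = opOf hadm (ResidueField O) (redLin G' φ) :=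
  (opOf_comp_coeff (R := O) (S := ResidueField O) hadm (residue O).toAddMonoidHom φ).symm

theorem redLin_degOp {M L d : ℕ} [NeZero d] (hd : d * M ∣ L) (φ : Additive (gTop M) →+ O) :
    redLin (gTop L) (degOp hd O φ) = degOp hd (ResidueField O) (redLin (gTop M) φ) :=
  redLin_opOf _ φ

theorem redLin_crossHomR (G : Subgroup SL(2, ℤ)) (u v : Fin 2 → ℚ) :
    redLin G (crossHomR O G u v) = crossHomR (ResidueField O) G u v :=
  AddMonoidHom.ext fun x => by
    show residue O (crossHomR O G u v x) = _
    rw [crossHomR_apply, crossHomR_apply, map_intCast]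

theorem redLin_tTop {L ℓ : ℕ} [Fact ℓ.Prime] (φ : Additive (gTop L) →+ O) :
    redLin (gTop L) (tTop L ℓ O φ) = tTop L ℓ (ResidueField O) (redLin (gTop L) φ) := by
  simp only [tTop, LinearMap.sub_apply, LinearMap.smul_apply, Module.End.one_apply, map_sub,
    map_nsmul]
  exact congrArg (· - _) (redLin_opOf _ φ)

theorem redLin_tTop_pow {L ℓ : ℕ} [Fact ℓ.Prime] (k : ℕ) (φ : Additive (gTop L) →+ O) :
    redLin (gTop L) ((tTop L ℓ O ^ k) φ) =
      (tTop L ℓ (ResidueField O) ^ k) (redLin (gTop L) φ) := by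
  induction k with
  | zero => simp
  | succ k ih => rw [pow_succ', pow_succ', Module.End.mul_apply, Module.End.mul_apply, redLin_tTop, ih]

theorem tTop_pow_toTop {q N ℓ : ℕ} [NeZero N] [Fact ℓ.Prime] (a : AuxPrime q N ℓ) {A : Type*}
    [AddCommGroup A] (R : Type*) [Semiring R] [Module R A] (k : ℕ)
    (φ : Additive (Gamma0 N) →+ A) :
    (tTop N ℓ R ^ k) (toTop R N φ) = toTop R N ((tOp a.prime a.not_dvd_left R ^ k) φ) := by
  induction k with
  | zero => simp
  | succ k ih => rw [pow_succ', pow_succ', Module.End.mul_apply, Module.End.mul_apply, ih,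
      tTop_toTop R a]

theorem tTop_degOp {M L d ℓ : ℕ} [NeZero d] [Fact ℓ.Prime] (hd : d * M ∣ L) (hℓL : ¬ ℓ ∣ L)
    {A : Type*} [AddCommGroup A] (R : Type*) [Semiring R] [Module R A]
    (φ : Additive (gTop M) →+ A) :
    tTop L ℓ R (degOp hd R φ) = degOp hd R (tTop M ℓ R φ) := by
  simp only [tTop, LinearMap.sub_apply, LinearMap.smul_apply, Module.End.one_apply, map_sub,
    map_nsmul, hecke_degOp hd R hℓL]

end Reduction

section Mod

variable {O : Type*} [CommRing O] [IsDomain O] [IsLocalRing O] [CharZero O] {p : ℕ}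
  [CharP (ResidueField O) p] {q N ℓ : ℕ} [NeZero N] [NeZero (N * q)] [hq : Fact q.Prime]
  [hℓ : Fact ℓ.Prime] (h : RaiseData q N) (a : AuxPrime q N ℓ) (hp : p.Prime) (hp2 : p ≠ 2)

/-- Reduction of a triple. -/
def redThree (N : ℕ) : (Additive (gTop N) →+ O) × (Additive (gTop N) →+ O) ×
    (Additive (gTop N) →+ O) →ₗ[O] (Additive (gTop N) →+ ResidueField O) ×
      (Additive (gTop N) →+ ResidueField O) × (Additive (gTop N) →+ ResidueField O) :=
  (redLin (gTop N)).prodMap ((redLin (gTop N)).prodMap (redLin (gTop N)))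

/-- `(T_ℓ - 1 - ℓ) ^ k` on triples. -/
def tThree (N ℓ : ℕ) [Fact ℓ.Prime] (R : Type*) [Semiring R] {A : Type*} [AddCommGroup A]
    [Module R A] (k : ℕ) : Module.End R ((Additive (gTop N) →+ A) × (Additive (gTop N) →+ A) ×
      (Additive (gTop N) →+ A)) :=
  (tTop N ℓ R ^ k).prodMap ((tTop N ℓ R ^ k).prodMap (tTop N ℓ R ^ k))

omit [IsDomain O] [CharZero O] in
theorem redThree_delta (f : (Additive (gTop N) →+ O) × (Additive (gTop N) →+ O) ×
    (Additive (gTop N) →+ O)) :
    redLin (gTop (N * q * q)) (delta O f) =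
      delta (M := N) (q := q) (ResidueField O) (redThree N f) := by
  simp only [delta, LinearMap.add_apply, LinearMap.comp_apply, LinearMap.fst_apply,
    LinearMap.snd_apply, map_add, redLin_degOp, redThree, LinearMap.prodMap_apply]

omit [IsDomain O] [CharZero O] [NeZero N] [NeZero (N * q)] in
theorem redLin_corOne (φ : Additive (gTop (N * q)) →+ O) :
    redLin (gTop N) (corOne h O φ) =
      corOne h (ResidueField O) (redLin (gTop (N * q)) φ) :=
  redLin_opOf (Lift.admissible_cRep h (K := (⊤ : Subgroup (ZMod N)ˣ))) φ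

omit [IsDomain O] [CharZero O] [NeZero N] [NeZero (N * q)] in
theorem redLin_starOne (φ : Additive (gTop (N * q)) →+ O) :
    redLin (gTop N) (starOne h O φ) =
      starOne h (ResidueField O) (redLin (gTop (N * q)) φ) :=
  redLin_opOf (Lift.admissible_sRep h (K := (⊤ : Subgroup (ZMod N)ˣ))) φ

omit [IsDomain O] [CharZero O] [NeZero (N * q)] in
theorem redThree_deltaStar (x : Additive (gTop (N * q * q)) →+ O) :
    redThree N (deltaStar h O x) =
      deltaStar h (ResidueField O) (redLin (gTop (N * q * q)) x) := by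
  have : NeZero (N * q) := neZero_mul_q
  simp only [redThree, deltaStar, LinearMap.prod_apply, Function.prod_apply,
    LinearMap.prodMap_apply, dualA, dualB, dualC, LinearMap.comp_apply, corSq, starSq]
  refine Prod.ext ?_ (Prod.ext ?_ ?_)
  · exact (redLin_corOne h _).trans (congrArg _ (redLin_opOf _ _))
  · exact (redLin_starOne h _).trans (congrArg _ (redLin_opOf _ _))
  · exact (redLin_starOne h _).trans (congrArg _ (redLin_opOf _ _))

include h a hp hp2

/-- **Ihara's lemma**: a triple whose `delta` reduces to zero is killed by the sixth power of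
`T_ℓ - 1 - ℓ` modulo the maximal ideal. -/
theorem redThree_eq_zero_of_delta (hL : ((N * q * q : ℕ) : ℤ) ∣ (ℓ : ℤ) - 1)
    (f : (Additive (gTop N) →+ O) × (Additive (gTop N) →+ O) × (Additive (gTop N) →+ O))
    (h0 : redLin (gTop (N * q * q)) (delta O f) = 0) :
    redThree N (tThree N ℓ O 6 f) = 0 := by
  obtain ⟨φ₁, hφ₁⟩ := (toTop O N).surjective f.1
  obtain ⟨φ₂, hφ₂⟩ := (toTop O N).surjective f.2.1
  obtain ⟨φ₃, hφ₃⟩ := (toTop O N).surjective f.2.2
  set F := ResidueField O
  have : NeZero ℓ := ⟨a.prime.ne_zero⟩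
  set T := tOp (L := N) (A := F) a.prime a.not_dvd_left F with hT
  have hpar : ∀ φ : Additive (Gamma0 N) →+ O,
      IsParabolicHom (Gamma0 N) (T (Lift.redVal φ)) := by
    intro φ γ hγ
    rw [hT, ← Lift.redVal_tOp a φ]
    show residue O (tOp a.prime a.not_dvd_left O φ (Additive.ofMul γ)) = 0
    rw [tOp_apply, AddMonoidHom.sub_apply, AddMonoidHom.smul_apply,
      homT_apply_parabolic a.prime a.not_dvd_left
        ((Int.natCast_dvd_natCast.2 (dvd_mul_right N q)).trans a.dvd_sub') (fun n x hn hx => by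
          rw [nsmul_eq_mul] at hx
          exact (mul_eq_zero.1 hx).resolve_left (Nat.cast_ne_zero.2 hn)) φ γ hγ,
      sub_self, map_zero]
  have hred : ∀ φ : Additive (Gamma0 N) →+ O,
      toTop F N (T (Lift.redVal φ)) = tTop N ℓ F (redLin (gTop N) (toTop O N φ)) :=
    fun φ => (tTop_toTop F a (Lift.redVal φ)).symm
  have hℓL : ¬ ℓ ∣ N * q * q := fun hd =>
    (a.prime.dvd_mul.1 hd).elim a.not_dvd (fun hd => a.not_dvd_right hd)
  have hker : delta (M := N) (q := q) F (toTop F N (T (Lift.redVal φ₁)),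
      toTop F N (T (Lift.redVal φ₂)), toTop F N (T (Lift.redVal φ₃))) = 0 := by
    rw [redThree_delta] at h0
    have h1 := congrArg (tTop (N * q * q) ℓ F) h0
    rw [map_zero] at h1
    simp only [delta, LinearMap.add_apply, LinearMap.comp_apply, LinearMap.fst_apply,
      LinearMap.snd_apply, map_add, redThree, LinearMap.prodMap_apply] at h1
    rw [tTop_degOp (one_dvd_top (M := N) (q := q)) hℓL,
      tTop_degOp (q_dvd_top (M := N) (q := q)) hℓL,
      tTop_degOp (qq_dvd_step (M := N) (q := q)) hℓL] at h1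
    simp only [delta, LinearMap.add_apply, LinearMap.comp_apply, LinearMap.fst_apply,
      LinearMap.snd_apply, hred, hφ₁, hφ₂, hφ₃]
    exact h1
  obtain ⟨z1, z2, z3⟩ :=
    tZero_five_eq_zero h a hp hp2 hL (hpar φ₁) (hpar φ₂) (hpar φ₃) hker
  have key : ∀ φ : Additive (Gamma0 N) →+ O, T (T (T (T (T (T (Lift.redVal φ)))))) = 0 →
      redLin (gTop N) ((tTop N ℓ O ^ 6) (toTop O N φ)) = 0 := by
    intro φ hφ
    rw [redLin_tTop_pow, show redLin (gTop N) (toTop O N φ) = toTop F N (Lift.redVal φ) from rfl,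
      tTop_pow_toTop a, LinearEquiv.map_eq_zero_iff]
    simpa only [pow_succ', pow_zero, mul_one, Module.End.mul_apply] using hφ
  refine Prod.ext ?_ (Prod.ext ?_ ?_) <;>
    simp only [tThree, redThree, LinearMap.prodMap_apply, Prod.fst_zero, Prod.snd_zero]
  · exact hφ₁ ▸ key φ₁ z1
  · exact hφ₂ ▸ key φ₂ z2
  · exact hφ₃ ▸ key φ₃ z3

/-- The image of `deltaStar` contains `(T_ℓ - 1 - ℓ) ^ 4` of every triple modulo the maximal
ideal. -/
theorem exists_redThree_deltaStar
    (z : (Additive (gTop N) →+ O) × (Additive (gTop N) →+ O) × (Additive (gTop N) →+ O)) :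
    ∃ x, redThree N (deltaStar h O x) = redThree N (tThree N ℓ O 4 z) := by
  have : NeZero ℓ := ⟨a.prime.ne_zero⟩
  have h2 : IsUnit (2 : O) := by
    rw [← IsLocalRing.residue_ne_zero_iff_isUnit]
    intro h2
    have hd : p ∣ 2 := (CharP.cast_eq_zero_iff (ResidueField O) p 2).1 (by
      rw [← map_natCast (residue O)]; exact_mod_cast h2)
    exact hp2 ((Nat.prime_dvd_prime_iff_eq hp Nat.prime_two).1 hd)
  set F := ResidueField O
  set Rg := LinearMap.range (redThree N ∘ₗ deltaStar (A := O) h O)
  have lift : ∀ w ∈ degImageThree q N F, w ∈ Rg := by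
    intro w hw
    induction hw using Submodule.span_induction with
    | mem w hw =>
      obtain ⟨u, v, -, -, rfl⟩ := hw
      refine ⟨crossHomR O (gTop (N * q * q)) u v, ?_⟩
      rw [LinearMap.comp_apply, redThree_deltaStar, redLin_crossHomR, deltaStar_crossHomR]
    | zero => exact Rg.zero_mem
    | add w w' _ _ hw hw' => exact Rg.add_mem hw hw'
    | smul c w _ hw =>
      obtain ⟨c', rfl⟩ := IsLocalRing.residue_surjective c
      have e : (residue O c') • w = c' • w := algebraMap_smul F c' w
      exact e ▸ Rg.smul_mem c' hw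
  suffices H : ⊤ ≤ Rg.comap (redThree N ∘ₗ tThree N ℓ O 4) from H (Submodule.mem_top (x := z))
  have hneg : -1 ∈ gTop N := neg_one_mem_gammaH (Subgroup.mem_top _)
  haveI : Fintype (SL(2, ℤ) ⧸ gTop N) := Subgroup.fintypeQuotientOfFiniteIndex
  have hspan := span_crossHomR_eq_top O hneg h2 Lift.three_torsionFree_of_charZero
  set W := Rg.comap (redThree N ∘ₗ tThree N ℓ O 4)
  have gen : ∀ u v : Fin 2 → ℚ, u ≠ 0 → v ≠ 0 → (crossHomR O (gTop N) u v, 0, 0) ∈ W ∧
      (0, crossHomR O (gTop N) u v, 0) ∈ W ∧ (0, 0, crossHomR O (gTop N) u v) ∈ W := by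
    intro u v hu hv
    obtain ⟨m1, m2, m3⟩ := tZero_four_mem_degImageThree (F := F) h a hp hp2 hu hv
    have e : redLin (gTop N) ((tTop N ℓ O ^ 4) (crossHomR O (gTop N) u v)) =
        toTop F N (tZero a (tZero a (tZero a (tZero a (crossHomR F (Gamma0 N) u v))))) := by
      rw [redLin_tTop_pow, redLin_crossHomR,
        ← crossHomR_homEquiv (K := F) (gammaH_top (M := N)) u v]
      exact tTop_pow_toTop a F 4 _
    refine ⟨?_, ?_, ?_⟩ <;>
      simp only [W, Submodule.mem_comap, LinearMap.comp_apply, tThree, LinearMap.prodMap_apply,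
        redThree, map_zero, e]
    · exact lift _ m1
    · exact lift _ m2
    · exact lift _ m3
  have hW : ∀ ψ : Additive (gTop N) →+ O, (ψ, 0, 0) ∈ W ∧ (0, ψ, 0) ∈ W ∧ (0, 0, ψ) ∈ W := by
    intro ψ
    have hψ := hspan.ge (Submodule.mem_top (x := ψ))
    induction hψ using Submodule.span_induction with
    | mem y hy =>
      obtain ⟨x, rfl⟩ := hy
      exact gen _ _ (act_ne_zero _ basisVec_ne_zero)
        (act_ne_zero _ fun h0 => by simpa [cuspZero] using congrFun h0 1)
    | zero => exact ⟨W.zero_mem, W.zero_mem, W.zero_mem⟩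
    | add y y' _ _ hy hy' =>
      exact ⟨by simpa using add_mem hy.1 hy'.1, by simpa using add_mem hy.2.1 hy'.2.1,
        by simpa using add_mem hy.2.2 hy'.2.2⟩
    | smul c y _ hy =>
      exact ⟨by simpa using W.smul_mem c hy.1, by simpa using W.smul_mem c hy.2.1,
        by simpa using W.smul_mem c hy.2.2⟩
  rintro ⟨z1, z2, z3⟩ -
  simpa using add_mem (add_mem (hW z1).1 (hW z2).2.1) (hW z3).2.2

end Mod

end Fermat.Agent.RT.Lifting.Square
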