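import Fermat.Agent.RT.Lifting.Step.SquareReps

/-!
# The three degeneracy maps from level `M` to level `M q ^ 2` and their transposes

For `q ∤ M` prime: `delta` is the sum of the degeneracy maps of degrees `1`, `q`, `q ^ 2`,
`deltaStar` its transpose. Their composite is computed on eigenclasses of `T_q`, and `deltaStar`
commutes with `T_ℓ` away from the level.
-/

set_option autoImplicit false

noncomputable section

namespace Fermat.Agent.RT.Lifting.Square

open CongruenceSubgroup Matrix.SpecialLinearGroup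
open Fermat.Agent.RT.GammaH
open Fermat.Agent.LevelRaising (RaiseData actM actM_mul actM_eq_act alphaMat crossHomR crossHom
  crossHomR_congr crossHom_act tMat exists_alpha_tMat upr upr_mem_Gamma0 span_crossHomR_eq_top
  homT_crossHomR act cuspInf cuspZero)
open scoped MatrixGroups Matrix

section First

variable {M q : ℕ} (h : RaiseData q M) [hq : Fact q.Prime] {A : Type*} [AddCommGroup A]
  (R : Type*) [Semiring R] [Module R A]

/-- Corestriction from level `M q` to level `M`. -/
def corOne : (Additive (gTop (M * q)) →+ A) →ₗ[R] (Additive (gTop M) →+ A) :=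
  Lift.corDeg h R ⊤

/-- The transpose of conjugation by `diag(q, 1)`, from level `M q` to level `M`. -/
def starOne : (Additive (gTop (M * q)) →+ A) →ₗ[R] (Additive (gTop M) →+ A) :=
  Lift.starDeg h R ⊤

omit hq in
theorem resDeg_top (φ : Additive (gTop M) →+ A) :
    (Lift.resDeg R q ⊤ φ : Additive (gTop (M * q)) →+ A) =
      degOp (one_dvd_step (q := q)) R φ :=
  LinearMap.congr_fun (opOf_congr Lift.admissible_rRep (admissible_deg (one_dvd_step (q := q)))
    (Equiv.refl Unit) fun _ => by simp [heckeDiagMatrix_one]) φ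

theorem conjDeg_top (φ : Additive (gTop M) →+ A) :
    (Lift.conjDeg h R ⊤ φ : Additive (gTop (M * q)) →+ A) =
      degOp (q_dvd_step (P := M) (q := q)) R φ :=
  LinearMap.congr_fun (opOf_congr (Lift.admissible_aRep h)
    (admissible_deg (q_dvd_step (P := M) (q := q)))
    (Equiv.refl Unit) fun _ => by simp [Lift.aRep]) φ

theorem corOne_res (φ : Additive (gTop M) →+ A) :
    corOne h R (degOp (one_dvd_step (q := q)) R φ) = (q + 1) • φ := by
  rw [← resDeg_top R]
  exact Lift.corDeg_resDeg h R φ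

theorem starOne_res (φ : Additive (gTop M) →+ A) :
    starOne h R (degOp (one_dvd_step (q := q)) R φ) = hecke M ⊤ q R φ := by
  rw [← resDeg_top R]
  exact Lift.starDeg_resDeg h R φ

theorem corOne_conj (φ : Additive (gTop M) →+ A) :
    corOne h R (degOp (q_dvd_step (P := M) (q := q)) R φ) = hecke M ⊤ q R φ := by
  rw [← conjDeg_top h R]
  exact (Lift.corDeg_conjDeg h R φ).trans (congrArg _ (diamond_top R _ φ))

theorem starOne_conj (φ : Additive (gTop M) →+ A) :
    starOne h R (degOp (q_dvd_step (P := M) (q := q)) R φ) = (q + 1) • φ := by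
  rw [← conjDeg_top h R]
  exact Lift.starDeg_conjDeg h R φ

end First

section Triple

theorem degOp_comp {N M L d e f : ℕ} [NeZero d] [NeZero e] [NeZero f] {A : Type*}
    [AddCommGroup A] (R : Type*) [Semiring R] [Module R A] (hd : d * M ∣ L) (he : e * N ∣ M)
    (hf : e * d = f) (h : f * N ∣ L) (φ : Additive (gTop N) →+ A) :
    degOp hd R (degOp he R φ) = degOp h R φ := by
  subst hf
  exact degOp_degOp hd R he h φ

variable {M q : ℕ} (h : RaiseData q M) [hq : Fact q.Prime] [NeZero M] {A : Type*} [AddCommGroup A]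
  (R : Type*) [Semiring R] [Module R A]

omit hq [NeZero M] in
theorem one_dvd_top : 1 * M ∣ M * q * q := by simp [mul_assoc]

omit hq [NeZero M] in
theorem q_dvd_top : q * M ∣ M * q * q := by
  rw [mul_comm q M]
  exact dvd_mul_right _ q

theorem neZero_mul_q : NeZero (M * q) := ⟨mul_ne_zero (NeZero.ne M) hq.out.ne_zero⟩

theorem deg_one_eq (φ : Additive (gTop M) →+ A) :
    degOp (one_dvd_top (M := M) (q := q)) R φ =
      degOp (one_dvd_step (q := q)) R (degOp (one_dvd_step (q := q)) R φ) :=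
  (degOp_comp R _ _ (one_mul 1) _ φ).symm

theorem deg_q_eq (φ : Additive (gTop M) →+ A) :
    degOp (q_dvd_top (M := M) (q := q)) R φ =
        degOp (one_dvd_step (q := q)) R (degOp (q_dvd_step (P := M) (q := q)) R φ) ∧
      degOp (q_dvd_top (M := M) (q := q)) R φ =
        degOp (q_dvd_step (P := M * q) (q := q)) R (degOp (one_dvd_step (q := q)) R φ) :=
  ⟨(degOp_comp R _ _ (mul_one q) _ φ).symm, (degOp_comp R _ _ (one_mul q) _ φ).symm⟩

theorem deg_qq_eq (φ : Additive (gTop M) →+ A) :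
    degOp (qq_dvd_step (M := M) (q := q)) R φ =
      degOp (q_dvd_step (P := M * q) (q := q)) R (degOp (q_dvd_step (P := M) (q := q)) R φ) :=
  (degOp_comp R _ _ rfl _ φ).symm

/-- The transpose of the degeneracy map of degree `1`. -/
def dualA : (Additive (gTop (M * q * q)) →+ A) →ₗ[R] (Additive (gTop M) →+ A) :=
  haveI := neZero_mul_q (M := M) (q := q)
  corOne h R ∘ₗ corSq (q_dvd_level (M := M) (q := q)) R

/-- The transpose of the degeneracy map of degree `q`. -/
def dualB : (Additive (gTop (M * q * q)) →+ A) →ₗ[R] (Additive (gTop M) →+ A) :=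
  haveI := neZero_mul_q (M := M) (q := q)
  starOne h R ∘ₗ corSq (q_dvd_level (M := M) (q := q)) R

/-- The transpose of the degeneracy map of degree `q ^ 2`. -/
def dualC : (Additive (gTop (M * q * q)) →+ A) →ₗ[R] (Additive (gTop M) →+ A) :=
  starOne h R ∘ₗ starSq (q_dvd_level (M := M) (q := q)) R

/-- The sum of the three degeneracy maps. -/
def delta : (Additive (gTop M) →+ A) × (Additive (gTop M) →+ A) × (Additive (gTop M) →+ A) →ₗ[R]
    (Additive (gTop (M * q * q)) →+ A) :=
  degOp (one_dvd_top (M := M) (q := q)) R ∘ₗ LinearMap.fst R _ _ +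
    degOp (q_dvd_top (M := M) (q := q)) R ∘ₗ LinearMap.fst R _ _ ∘ₗ LinearMap.snd R _ _ +
    degOp (qq_dvd_step (M := M) (q := q)) R ∘ₗ LinearMap.snd R _ _ ∘ₗ LinearMap.snd R _ _

/-- The transpose of `delta`. -/
def deltaStar : (Additive (gTop (M * q * q)) →+ A) →ₗ[R]
    (Additive (gTop M) →+ A) × (Additive (gTop M) →+ A) × (Additive (gTop M) →+ A) :=
  (dualA h R).prod ((dualB h R).prod (dualC h R))

theorem dualA_deg (φ : Additive (gTop M) →+ A) :
    dualA h R (degOp (one_dvd_top (M := M) (q := q)) R φ) = q • (q + 1) • φ ∧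
    dualA h R (degOp (q_dvd_top (M := M) (q := q)) R φ) = q • hecke M ⊤ q R φ ∧
    dualA h R (degOp (qq_dvd_step (M := M) (q := q)) R φ) =
      hecke M ⊤ q R (hecke M ⊤ q R φ) - (q + 1) • φ := by
  have := neZero_mul_q (M := M) (q := q)
  refine ⟨?_, ?_, ?_⟩
  · rw [dualA, LinearMap.comp_apply, deg_one_eq, corSq_res, map_nsmul, corOne_res]
  · rw [dualA, LinearMap.comp_apply, (deg_q_eq R φ).1, corSq_res, map_nsmul, corOne_conj]
  · rw [dualA, LinearMap.comp_apply,
      eq_sub_of_add_eq (corSq_conj_add_res h.not_dvd R φ), map_sub, corOne_conj, corOne_res]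

theorem dualB_deg (φ : Additive (gTop M) →+ A) :
    dualB h R (degOp (one_dvd_top (M := M) (q := q)) R φ) = q • hecke M ⊤ q R φ ∧
    dualB h R (degOp (q_dvd_top (M := M) (q := q)) R φ) = q • (q + 1) • φ ∧
    dualB h R (degOp (qq_dvd_step (M := M) (q := q)) R φ) = q • hecke M ⊤ q R φ := by
  have := neZero_mul_q (M := M) (q := q)
  refine ⟨?_, ?_, ?_⟩
  · rw [dualB, LinearMap.comp_apply, deg_one_eq, corSq_res, map_nsmul, starOne_res]
  · rw [dualB, LinearMap.comp_apply, (deg_q_eq R φ).1, corSq_res, map_nsmul, starOne_conj]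
  · rw [dualB, LinearMap.comp_apply,
      eq_sub_of_add_eq (corSq_conj_add_res h.not_dvd R φ), map_sub, starOne_conj, starOne_res,
      add_smul, one_smul, add_sub_cancel_right]

theorem dualC_deg (φ : Additive (gTop M) →+ A) :
    dualC h R (degOp (one_dvd_top (M := M) (q := q)) R φ) =
      hecke M ⊤ q R (hecke M ⊤ q R φ) - (q + 1) • φ ∧
    dualC h R (degOp (q_dvd_top (M := M) (q := q)) R φ) = q • hecke M ⊤ q R φ ∧
    dualC h R (degOp (qq_dvd_step (M := M) (q := q)) R φ) = q • (q + 1) • φ := by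
  refine ⟨?_, ?_, ?_⟩
  · rw [dualC, LinearMap.comp_apply, deg_one_eq, starSq_res,
      eq_sub_of_add_eq (hecke_res_add_conj h.not_dvd R φ), map_sub, starOne_res, starOne_conj]
  · rw [dualC, LinearMap.comp_apply, (deg_q_eq R φ).2, starSq_conj, map_nsmul, starOne_res]
  · rw [dualC, LinearMap.comp_apply, deg_qq_eq, starSq_conj, map_nsmul, starOne_conj]

end Triple

section Eigen

variable {M q : ℕ} (h : RaiseData q M) [hq : Fact q.Prime] [NeZero M] {R : Type*} [CommRing R]
  {A : Type*} [AddCommGroup A] [Module R A]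

/-- The composite on eigenclasses of `T_q` of eigenvalue `c`. -/
theorem deltaStar_delta {c : R}
    (f : (Additive (gTop M) →+ A) × (Additive (gTop M) →+ A) × (Additive (gTop M) →+ A))
    (h1 : hecke M ⊤ q R f.1 = c • f.1) (h2 : hecke M ⊤ q R f.2.1 = c • f.2.1)
    (h3 : hecke M ⊤ q R f.2.2 = c • f.2.2) :
    deltaStar h R (delta (M := M) (q := q) R f) =
      ((q * (q + 1) : R) • f.1 + (q * c : R) • f.2.1 + (c ^ 2 - (q + 1) : R) • f.2.2,
        (q * c : R) • f.1 + (q * (q + 1) : R) • f.2.1 + (q * c : R) • f.2.2,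
        (c ^ 2 - (q + 1) : R) • f.1 + (q * c : R) • f.2.1 + (q * (q + 1) : R) • f.2.2) := by
  simp only [delta, LinearMap.add_apply, LinearMap.comp_apply, LinearMap.fst_apply,
    LinearMap.snd_apply, map_add, deltaStar, LinearMap.prod_apply, Function.prod_apply,
    (dualA_deg h R _).1, (dualA_deg h R _).2.1, (dualA_deg h R _).2.2, (dualB_deg h R _).1,
    (dualB_deg h R _).2.1, (dualB_deg h R _).2.2, (dualC_deg h R _).1, (dualC_deg h R _).2.1,
    (dualC_deg h R _).2.2, h1, h2, h3, map_smul, Prod.mk_add_mk]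
  refine Prod.ext ?_ (Prod.ext ?_ ?_) <;>
    simp only [← Nat.cast_smul_eq_nsmul R, smul_smul] <;> push_cast <;> module

end Eigen

section CrossHom

variable {K : Type*} [CommRing K]

theorem hecke_crossHomR {L ℓ : ℕ} [NeZero L] [hℓ : Fact ℓ.Prime] (hℓL : ¬ ℓ ∣ L)
    (u v : Fin 2 → ℚ) :
    hecke L ⊤ ℓ K (crossHomR K (gTop L) u v) =
      ∑ j, crossHomR K (gTop L) (actM (tMat ℓ j) u) (actM (tMat ℓ j) v) := by
  have e : ∀ u v, Lift.toTop K L (crossHomR K (Gamma0 L) u v) = crossHomR K (gTop L) u v :=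
    fun u v => crossHomR_homEquiv gammaH_top u v
  rw [← e, Lift.hecke_toTop K hℓ.out hℓL, homT_crossHomR hℓ.out hℓL, map_sum]
  exact Finset.sum_congr rfl fun j _ => e _ _

theorem ext_crossHomR_top {L : ℕ} [NeZero L] (h2 : IsUnit (2 : K))
    (h3 : ∀ r : K, 3 * r = 0 → r = 0) {X : Type*} [AddCommGroup X] [Module K X]
    {F G : (Additive (gTop L) →+ K) →ₗ[K] X}
    (e : ∀ u v, F (crossHomR K (gTop L) u v) = G (crossHomR K (gTop L) u v)) : F = G := by
  haveI : Fintype (SL(2, ℤ) ⧸ gTop L) := Subgroup.fintypeQuotientOfFiniteIndex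
  exact LinearMap.ext_on (span_crossHomR_eq_top K
    (neg_one_mem_gammaH (Subgroup.mem_top _)) h2 h3) (by rintro _ ⟨x, rfl⟩; exact e _ _)

theorem sum_crossHomR_alpha {L ℓ d : ℕ} [NeZero ℓ] (hℓ : ℓ.Prime) (hd : ¬ ℓ ∣ d)
    (u v : Fin 2 → ℚ) :
    ∑ j, crossHomR K (gTop L) (actM (alphaMat d) (actM (tMat ℓ j) u))
        (actM (alphaMat d) (actM (tMat ℓ j) v)) =
      ∑ j, crossHomR K (gTop L) (actM (tMat ℓ j) (actM (alphaMat d) u))
        (actM (tMat ℓ j) (actM (alphaMat d) v)) := by
  obtain ⟨σ, n, hσ, key⟩ := exists_alpha_tMat (q := d) hℓ hd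
  conv_rhs => rw [← hσ.sum_comp]
  refine Finset.sum_congr rfl fun j _ => crossHomR_congr ?_
  have ekey : ∀ x, actM (alphaMat d) (actM (tMat ℓ j) x) =
      act (upr (n j) : SL(2, ℤ)) (actM (tMat ℓ (σ j)) (actM (alphaMat d) x)) := fun x => by
    rw [← actM_mul, key, actM_mul, actM_mul, actM_eq_act]
  rw [ekey, ekey]
  exact crossHom_act (⟨upr (n j), gammaH_top.ge (upr_mem_Gamma0 L _)⟩ : gTop L) _ _

theorem actM_alpha_alpha (q : ℕ) (x : Fin 2 → ℚ) :
    actM (alphaMat q) (actM (alphaMat q) x) = actM (alphaMat (q * q)) x := by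
  rw [← actM_mul]
  congr 1
  ext a b
  fin_cases a <;> fin_cases b <;> simp [alphaMat, Matrix.mul_apply, Fin.sum_univ_two]

variable {M q : ℕ} (h : RaiseData q M) [hq : Fact q.Prime] [NeZero M]

omit [NeZero M] in
theorem corOne_crossHomR (u v : Fin 2 → ℚ) :
    corOne h K (crossHomR K (gTop (M * q)) u v) = crossHomR K (gTop M) u v := by
  rw [show crossHomR K (gTop (M * q)) u v = Lift.toLift K q M (crossHomR K (Gamma0 (M * q)) u v)
    from (crossHomR_homEquiv Lift.gammaH_lift_top u v).symm]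
  refine (Lift.corDeg_toTop K h _).trans ?_
  rw [h.cor_crossHomR]
  exact crossHomR_homEquiv gammaH_top u v

omit [NeZero M] in
theorem starOne_crossHomR (u v : Fin 2 → ℚ) :
    starOne h K (crossHomR K (gTop (M * q)) u v) =
      crossHomR K (gTop M) (actM (alphaMat q) u) (actM (alphaMat q) v) := by
  rw [show crossHomR K (gTop (M * q)) u v = Lift.toLift K q M (crossHomR K (Gamma0 (M * q)) u v)
    from (crossHomR_homEquiv Lift.gammaH_lift_top u v).symm]
  refine (Lift.starDeg_toTop K h _).trans ?_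
  rw [h.star_crossHomR]
  exact crossHomR_homEquiv gammaH_top _ _

/-- The transposes on crossing homomorphisms. -/
theorem deltaStar_crossHomR (u v : Fin 2 → ℚ) :
    deltaStar h K (crossHomR K (gTop (M * q * q)) u v) =
      (crossHomR K (gTop M) u v, crossHomR K (gTop M) (actM (alphaMat q) u) (actM (alphaMat q) v),
        crossHomR K (gTop M) (actM (alphaMat (q * q)) u) (actM (alphaMat (q * q)) v)) := by
  have := neZero_mul_q (M := M) (q := q)
  simp only [deltaStar, LinearMap.prod_apply, Function.prod_apply, dualA, dualB, dualC, LinearMap.comp_apply,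
    corSq_crossHomR, starSq_crossHomR, corOne_crossHomR, starOne_crossHomR, actM_alpha_alpha]

/-- The transpose commutes with `T_ℓ` away from the level. -/
theorem deltaStar_hecke (h2 : IsUnit (2 : K)) (h3 : ∀ r : K, 3 * r = 0 → r = 0) {ℓ : ℕ}
    [hℓ : Fact ℓ.Prime] (hℓL : ¬ ℓ ∣ M * q * q) (x : Additive (gTop (M * q * q)) →+ K) :
    deltaStar h K (hecke (M * q * q) ⊤ ℓ K x) =
      (hecke M ⊤ ℓ K (deltaStar h K x).1, hecke M ⊤ ℓ K (deltaStar h K x).2.1,
        hecke M ⊤ ℓ K (deltaStar h K x).2.2) := by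
  have := neZero_mul_q (M := M) (q := q)
  have : NeZero (M * q * q) := ⟨mul_ne_zero (NeZero.ne _) hq.out.ne_zero⟩
  have : NeZero ℓ := ⟨hℓ.out.ne_zero⟩
  have hℓM : ¬ ℓ ∣ M := fun hd => hℓL ((hd.mul_right q).mul_right q)
  have hℓq : ¬ ℓ ∣ q := fun hd => hℓL (hd.mul_left _)
  have hℓqq : ¬ ℓ ∣ q * q := fun hd => hℓq ((hℓ.out.dvd_mul.1 hd).elim id id)
  let T := hecke (A := K) M ⊤ ℓ K
  suffices e : deltaStar h K ∘ₗ hecke (M * q * q) ⊤ ℓ K =
      (T.prodMap (T.prodMap T)) ∘ₗ deltaStar h K from LinearMap.congr_fun e x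
  refine ext_crossHomR_top h2 h3 fun u v => ?_
  simp only [LinearMap.comp_apply, hecke_crossHomR hℓL, map_sum, deltaStar_crossHomR,
    LinearMap.prodMap_apply, T, hecke_crossHomR hℓM]
  refine Prod.ext ?_ (Prod.ext ?_ ?_)
  · simp only [Prod.fst_sum]
  · simp only [Prod.snd_sum, Prod.fst_sum]
    exact sum_crossHomR_alpha hℓ.out hℓq u v
  · simp only [Prod.snd_sum]
    exact sum_crossHomR_alpha hℓ.out hℓqq u v

end CrossHom

end Fermat.Agent.RT.Lifting.Square
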