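import Fermat.Agent.RT.Lifting.Step.Degree
import Fermat.Agent.RT.Lift.Ihara

/-!
# The two corestrictions from level `P q` to level `P`, for a prime `q` dividing `P`

`corSq` is the corestriction and `starSq` the transpose of conjugation by `diag(q, 1)`; both send
crossing homomorphisms to crossing homomorphisms. The composites with the degeneracy maps are
computed, and so are the relations between `U_q` and `T_q` on classes of level prime to `q`.
-/

set_option autoImplicit false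

noncomputable section

namespace Fermat.Agent.RT.Lifting.Square

open CongruenceSubgroup Matrix.SpecialLinearGroup
open Fermat.Agent.RT.GammaH
open Fermat.Agent.LevelRaising (RaiseData actM alphaMat crossHomR crossHom mkSystem intGL
  apply_crossHom apply_crossHomR)
open scoped MatrixGroups Matrix

/-- `Γ₀(L)`, as the group of the classes. -/
abbrev gTop (L : ℕ) : Subgroup SL(2, ℤ) := gammaH L (⊤ : Subgroup (ZMod L)ˣ)

theorem mem_gTop {L : ℕ} {g : SL(2, ℤ)} : g ∈ gTop L ↔ (L : ℤ) ∣ g 1 0 := by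
  rw [gTop, gammaH_top, Gamma0_mem, ZMod.intCast_zmod_eq_zero_iff_dvd]

theorem heckeDiagMatrix_one : (ModularForm.heckeDiagMatrix 1 : GLR) = 1 :=
  (isIntMat_degDiag 1).ext (show IsIntMat (1 : GLR) _ by
    unfold IsIntMat
    ext a b
    fin_cases a <;> fin_cases b <;> simp)

theorem heckeDiagMatrix_mul (d e : ℕ) [NeZero d] [NeZero e] :
    (ModularForm.heckeDiagMatrix d : GLR) * ModularForm.heckeDiagMatrix e =
      ModularForm.heckeDiagMatrix (d * e) := by
  refine ((isIntMat_degDiag d).mul (isIntMat_degDiag e)).ext ?_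
  convert isIntMat_degDiag (d * e) using 1
  ext a b
  fin_cases a <;> fin_cases b <;> simp [Matrix.mul_apply, Fin.sum_univ_two]

section Reps

variable {P q : ℕ} [hq : Fact q.Prime] (hqP : q ∣ P)

theorem sl_det_eq (k : SL(2, ℤ)) : k 0 0 * k 1 1 - k 0 1 * k 1 0 = 1 := by
  rw [← Matrix.det_fin_two]; exact k.det_coe

include hqP in
theorem units_mod (k : gTop P) :
    (((k : SL(2, ℤ)) 0 0 : ℤ) : ZMod q) ≠ 0 ∧ (((k : SL(2, ℤ)) 1 1 : ℤ) : ZMod q) ≠ 0 := by
  have hc : (((k : SL(2, ℤ)) 1 0 : ℤ) : ZMod q) = 0 :=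
    (ZMod.intCast_zmod_eq_zero_iff_dvd _ _).2
      ((Int.natCast_dvd_natCast.2 hqP).trans (mem_gTop.1 k.2))
  have hd := congrArg (Int.cast : ℤ → ZMod q) (sl_det_eq (k : SL(2, ℤ)))
  push_cast at hd
  rw [hc, mul_zero, sub_zero] at hd
  exact ⟨left_ne_zero_of_mul_eq_one hd, right_ne_zero_of_mul_eq_one hd⟩

/-- The representatives `(1, 0; P x, 1)` of `Γ₀(P q) \ Γ₀(P)`. -/
def cSq (P : ℕ) (x : Fin q) : SL(2, ℤ) :=
  ⟨!![1, 0; (P : ℤ) * (x : ℕ), 1], by simp [Matrix.det_fin_two_of]⟩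

/-- The same, in `GL(2, ℝ)`. -/
def cRepSq (P : ℕ) (x : Fin q) : GLR := mapGL ℝ (cSq P x)

/-- The representatives `(1, x; 0, q)` of the transposed correspondence. -/
def sRepSq (q : ℕ) (x : Fin q) : GLR := ModularForm.heckeMatrix q x

/-- The double coset of `diag(1, q)`. -/
def starSqSet (P q : ℕ) : Set GLR :=
  {g | ∃ k : gTop P, g = ModularForm.heckeMatrix q 0 * mapGL ℝ (k : SL(2, ℤ))}

include hqP in
theorem isReps_cRepSq [NeZero P] :
    IsReps (gTop (P * q)) (img (gTop P) : Set GLR) (cRepSq (q := q) P) where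
  mem x := mapGL_mem_img.2 (mem_gTop.2 (by simp [cSq]))
  inj x y hxy := by
    simp only [cRepSq, ← map_inv, ← map_mul, mapGL_mem_img, mem_gTop,
      Lift.lowerLeft_mul_inv] at hxy
    simp [cSq] at hxy
    have h1 : (P : ℤ) * q ∣ (P : ℤ) * (((x : ℕ) : ℤ) - (y : ℕ)) := by
      rwa [mul_sub]
    have h2 := (mul_dvd_mul_iff_left (Int.natCast_ne_zero.2 (NeZero.ne P))).1 h1
    have := Int.eq_zero_of_dvd_of_natAbs_lt_natAbs h2 (by omega)
    ext
    omega
  surj g hg := by
    obtain ⟨k, rfl⟩ := exists_of_mem_img hg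
    obtain ⟨c, hc⟩ := mem_gTop.1 k.2
    set e : ZMod q := (((k : SL(2, ℤ)) 1 1 : ℤ) : ZMod q) with he
    set x : ZMod q := (c : ZMod q) / e
    refine ⟨⟨x.val, ZMod.val_lt x⟩, ?_⟩
    simp only [cRepSq, ← map_inv, ← map_mul, mapGL_mem_img, mem_gTop, Lift.lowerLeft_mul_inv]
    simp [cSq, hc, -ZMod.natCast_val]
    rw [← mul_assoc, mul_comm _ (P : ℤ), mul_assoc, ← mul_sub]
    refine mul_dvd_mul_left _ ((ZMod.intCast_zmod_eq_zero_iff_dvd _ _).1 ?_)
    push_cast
    rw [ZMod.natCast_zmod_val, ← he]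
    simp only [x]
    rw [mul_div_cancel₀ _ (units_mod hqP k).2, sub_self]

include hqP in
theorem isReps_sRepSq :
    IsReps (gTop (P * q)) (starSqSet P q) (sRepSq q) where
  mem x := ⟨⟨⟨!![1, ((x : ℕ) : ℤ); 0, 1], by simp [Matrix.det_fin_two_of]⟩,
      mem_gTop.2 (by simp)⟩, by
    refine (isIntMat_heckeMatrix _).ext ?_
    convert (isIntMat_heckeMatrix (n := q) 0).mul (isIntMat_mapGL _) using 1
    ext a b
    fin_cases a <;> fin_cases b <;> simp [Matrix.mul_apply, Fin.sum_univ_two]⟩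
  inj x y hxy := by
    obtain ⟨γ, -, e⟩ :=
      (mul_inv_mem_img_iff (isIntMat_heckeMatrix _) (isIntMat_heckeMatrix _)).1 hxy
    have e0 := congrFun (congrFun e 0) 0
    have e1 := congrFun (congrFun e 0) 1
    simp [Matrix.mul_apply, Fin.sum_univ_two] at e0 e1
    rw [← e0, one_mul] at e1
    have := Int.eq_zero_of_dvd_of_natAbs_lt_natAbs
      (n := ((x : ℕ) : ℤ) - (y : ℕ)) (d := (q : ℤ)) ⟨(γ : SL(2, ℤ)) 0 1, by linear_combination e1⟩
      (by omega)
    ext
    omega
  surj g hg := by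
    obtain ⟨k, rfl⟩ := hg
    obtain ⟨c, hc⟩ := mem_gTop.1 k.2
    set a : ZMod q := (((k : SL(2, ℤ)) 0 0 : ℤ) : ZMod q) with ha
    set x : ZMod q := (((k : SL(2, ℤ)) 0 1 : ℤ) : ZMod q) / a
    obtain ⟨w, hw⟩ : (q : ℤ) ∣ (k : SL(2, ℤ)) 0 1 - (k : SL(2, ℤ)) 0 0 * (x.val : ℤ) := by
      rw [← ZMod.intCast_zmod_eq_zero_iff_dvd]
      push_cast
      rw [ZMod.natCast_zmod_val, ← ha]
      simp only [x]
      rw [mul_div_cancel₀ _ (units_mod hqP k).1, sub_self]
    refine ⟨⟨x.val, ZMod.val_lt x⟩, (mul_inv_mem_img_iff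
      ((isIntMat_heckeMatrix (n := q) 0).mul (isIntMat_mapGL _)) (isIntMat_heckeMatrix _)).2 ?_⟩
    refine ⟨⟨!![(k : SL(2, ℤ)) 0 0, w; (q : ℤ) * P * c,
      (k : SL(2, ℤ)) 1 1 - P * c * (x.val : ℤ)], ?_⟩, mem_gTop.2 ?_, ?_⟩
    · have hd := sl_det_eq (k : SL(2, ℤ))
      rw [hc] at hd
      rw [Matrix.det_fin_two_of]
      linear_combination hd + (P : ℤ) * c * hw
    · exact ⟨c, by simp; left; ring⟩
    · ext i j
      fin_cases i <;> fin_cases j <;>
        simp [Matrix.mul_apply, Fin.sum_univ_two, hc, -ZMod.natCast_val]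
      all_goals first
        | linear_combination hw
        | ring
        | (left; ring)

include hqP in
theorem admissible_cRepSq [NeZero P] :
    Admissible (gTop (P * q)) (gTop P) (cRepSq (q := q) P) :=
  (isReps_cRepSq hqP).admissible fun _ hg γ => mul_mem hg (mapGL_mem_img.2 γ.2)

include hqP in
theorem admissible_sRepSq : Admissible (gTop (P * q)) (gTop P) (sRepSq q) :=
  (isReps_sRepSq hqP).admissible fun _ ⟨k, hk⟩ γ => ⟨k * γ, by
    rw [hk, Subgroup.coe_mul, map_mul, mul_assoc]⟩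

variable {A : Type*} [AddCommGroup A] (R : Type*) [Semiring R] [Module R A]

/-- Corestriction from level `P q` to level `P`. -/
def corSq [NeZero P] : (Additive (gTop (P * q)) →+ A) →ₗ[R] (Additive (gTop P) →+ A) :=
  opOf (admissible_cRepSq hqP) R

/-- The transpose of conjugation by `diag(q, 1)`, from level `P q` to level `P`. -/
def starSq : (Additive (gTop (P * q)) →+ A) →ₗ[R] (Additive (gTop P) →+ A) :=
  opOf (admissible_sRepSq hqP) R

omit hq in
theorem one_dvd_step : 1 * P ∣ P * q := by simp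

omit hq in
theorem q_dvd_step : q * P ∣ P * q := (mul_comm q P).dvd

theorem corSq_res [NeZero P] (φ : Additive (gTop P) →+ A) :
    corSq hqP R (degOp (one_dvd_step (q := q)) R φ) = q • φ := by
  unfold corSq degOp
  rw [opOf_comp]
  refine (LinearMap.congr_fun (opOf_congr _ (admissible_id.copies (κ := Fin q))
    (Equiv.prodComm Unit (Fin q)) fun p => ?_) φ).trans ?_
  swap
  · refine (LinearMap.congr_fun (opOf_copies admissible_id) φ).trans ?_
    rw [LinearMap.smul_apply, opOf_id, Fintype.card_fin]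
  simpa [heckeDiagMatrix_one, cRepSq] using
    mapGL_mem_img.2 ((mem_gTop (L := P) (g := cSq P p.2)).2 (by simp [cSq]))

theorem starSq_conj (φ : Additive (gTop P) →+ A) :
    starSq hqP R (degOp (q_dvd_step (P := P) (q := q)) R φ) = q • φ := by
  unfold starSq degOp
  have : NeZero q := ⟨hq.out.ne_zero⟩
  set z : GLR := ModularForm.heckeDiagMatrix q * ModularForm.heckeMatrix q 0
  have hzm : IsIntMat z !![(q : ℤ), 0; 0, (q : ℤ)] := by
    convert (isIntMat_degDiag q).mul (isIntMat_heckeMatrix (n := q) 0) using 1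
    ext a b
    fin_cases a <;> fin_cases b <;> simp [Matrix.mul_apply, Fin.sum_univ_two]
  have hz : ∀ g, Commute z g := fun g => by
    refine Units.ext ?_
    have hzm' : (z : Matrix (Fin 2) (Fin 2) ℝ) = _ := hzm
    rw [Units.val_mul, Units.val_mul g, hzm']
    ext a b
    fin_cases a <;> fin_cases b <;> simp [Matrix.mul_apply, Fin.sum_univ_two, mul_comm]
  rw [opOf_comp]
  refine (LinearMap.congr_fun (opOf_congr _
    ((admissible_id.copies (κ := Fin q)).mul_central hz)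
    (Equiv.prodComm Unit (Fin q)) fun p => ?_) φ).trans ?_
  swap
  · refine (LinearMap.congr_fun ((opOf_mul_central hz _).trans
      (opOf_copies admissible_id)) φ).trans ?_
    rw [LinearMap.smul_apply, opOf_id, Fintype.card_fin]
  obtain ⟨⟨⟩, x⟩ := p
  simp only [one_mul]
  refine (mul_inv_mem_img_iff ((isIntMat_degDiag q).mul (isIntMat_heckeMatrix _)) hzm).2
    ⟨⟨!![1, ((x : ℕ) : ℤ); 0, 1], by simp [Matrix.det_fin_two_of]⟩, mem_gTop.2 (by simp), ?_⟩
  ext a b
  fin_cases a <;> fin_cases b <;> simp [Matrix.mul_apply, Fin.sum_univ_two, mul_comm]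

/-- The index set of `U_q`. -/
def uIdx : Fin q ≃ HIdx P q where
  toFun x := ⟨some x, fun hx => by simp at hx⟩
  invFun i := match i with
    | ⟨some x, _⟩ => x
    | ⟨none, hx⟩ => absurd hqP (hx rfl)
  left_inv _ := rfl
  right_inv i := by
    rcases i with ⟨_ | x, hx⟩
    · exact absurd hqP (hx rfl)
    · rfl

theorem starSq_res (φ : Additive (gTop P) →+ A) :
    starSq hqP R (degOp (one_dvd_step (q := q)) R φ) = hecke P ⊤ q R φ := by
  unfold starSq degOp hecke
  rw [opOf_comp]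
  exact LinearMap.congr_fun (opOf_congr _ _ ((Equiv.punitProd _).trans (uIdx hqP))
    fun p => by simp [heckeDiagMatrix_one, uIdx, sRepSq, hRep]) φ

end Reps

section Cross

variable {Γ' Γ : Subgroup SL(2, ℤ)} {ι : Type} [Fintype ι] {rep : ι → GLR} {K : Type*}
  [CommRing K]

/-- An operator whose coset set is a single right coset `δ Γ`, on crossing homomorphisms. -/
theorem opOf_crossHomR (hadm : Admissible Γ' Γ rep) (hpos : ∀ i, 0 < (rep i).det.val)
    (δ : GLR) (hδ : 0 < δ.det.val) (B : Matrix (Fin 2) (Fin 2) ℚ)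
    (hB : ∃ c : ℝ, c ≠ 0 ∧
      (δ : Matrix (Fin 2) (Fin 2) ℝ) * B.map (fun x => (x : ℝ)) = c • 1)
    (hr : IsReps Γ' {g | ∃ k : Γ, g = δ * mapGL ℝ (k : SL(2, ℤ))} rep)
    (hl : ∀ g : Γ', ∃ k : Γ, mapGL ℝ (g : SL(2, ℤ)) * δ = δ * mapGL ℝ (k : SL(2, ℤ)))
    (u v : Fin 2 → ℚ) :
    opOf hadm K (crossHomR K Γ' u v) = crossHomR K Γ (B *ᵥ u) (B *ᵥ v) := by
  have cover : ∀ (γ : Γ) i, ∃ (c : Γ') (j : ι),
      rep i * mapGL ℝ (γ : SL(2, ℤ)) = mapGL ℝ (c : SL(2, ℤ)) * rep j := fun γ i => by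
    obtain ⟨σ, hσ⟩ := hadm γ
    obtain ⟨c, hc⟩ := exists_of_mem_img (hσ.2 i)
    exact ⟨c, σ i, by rw [hc, inv_mul_cancel_right]⟩
  have unique : ∀ i j (γ : Γ'), rep i = mapGL ℝ (γ : SL(2, ℤ)) * rep j → i = j := fun i j γ hγ =>
    hr.inj i j (by rw [hγ, mul_inv_cancel_right]; exact mapGL_mem_img.2 γ.2)
  set S := mkSystem rep hpos cover unique
  have e : opOf hadm K (crossHomR K Γ' u v) = S.apply (crossHomR K Γ' u v) :=
    LinearMap.congr_fun ((opOf_congr hadm (admissible_heckeSystem S) (Equiv.refl ι)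
      fun i => by simp [S, mkSystem]).trans (opOf_heckeSystem S)) _
  rw [e]
  have key := apply_crossHom S (fun _ : Unit => δ) (fun _ => hδ) (fun _ => B) (fun _ => hB)
    (fun g i => ?_) (fun _ k => ?_) (fun _ _ _ _ => rfl) u v
  · rw [apply_crossHomR (R := K) _ key, Fintype.sum_unique]
  · obtain ⟨k, hk⟩ := hr.mem i
    obtain ⟨k', hk'⟩ := hl g
    exact ⟨(), k' * k, by
      show mapGL ℝ (g : SL(2, ℤ)) * rep i = _
      rw [hk, ← mul_assoc, hk', Subgroup.coe_mul, map_mul, mul_assoc]⟩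
  · obtain ⟨i, hi⟩ := hr.surj (δ * mapGL ℝ (k : SL(2, ℤ))) ⟨k, rfl⟩
    obtain ⟨g, hg⟩ := exists_of_mem_img hi
    exact ⟨g, i, by
      show mapGL ℝ (g : SL(2, ℤ)) * rep i = _
      rw [hg, inv_mul_cancel_right]⟩

theorem crossHomR_homEquiv {Γ₁ Γ₂ : Subgroup SL(2, ℤ)} (e : Γ₁ = Γ₂) (u v : Fin 2 → ℚ) :
    Lift.homEquiv K e (crossHomR K Γ₂ u v) = crossHomR K Γ₁ u v := by
  subst e
  rfl

variable {P q : ℕ} [hq : Fact q.Prime] (hqP : q ∣ P)

theorem corSq_crossHomR [NeZero P] (u v : Fin 2 → ℚ) :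
    corSq hqP K (crossHomR K (gTop (P * q)) u v) = crossHomR K (gTop P) u v := by
  have e : {g : GLR | ∃ k : gTop P, g = 1 * mapGL ℝ (k : SL(2, ℤ))} = img (gTop P) := by
    ext g
    simp only [one_mul, Set.mem_ofPred_eq, SetLike.mem_coe]
    exact ⟨fun ⟨k, hk⟩ => hk ▸ mapGL_mem_img.2 k.2, fun hg =>
      (exists_of_mem_img hg).imp fun _ hk => hk.symm⟩
  have h := opOf_crossHomR (K := K) (admissible_cRepSq hqP) (fun i => by simp [cRepSq]) 1 (by simp)
    1 ⟨1, one_ne_zero, by simp⟩ (e ▸ isReps_cRepSq hqP)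
    (fun g => ⟨⟨g, mem_gTop.2 ((Int.natCast_dvd_natCast.2 (dvd_mul_right P q)).trans
      (mem_gTop.1 g.2))⟩, by simp⟩) u v
  simp only [Matrix.one_mulVec] at h
  exact h

theorem starSq_crossHomR (u v : Fin 2 → ℚ) :
    starSq hqP K (crossHomR K (gTop (P * q)) u v) =
      crossHomR K (gTop P) (actM (alphaMat q) u) (actM (alphaMat q) v) := by
  have hpos : ∀ i : ℕ, 0 < (ModularForm.heckeMatrix q i : GLR).det.val := fun i => by
    rw [Matrix.GeneralLinearGroup.val_det_apply, ModularForm.val_heckeMatrix hq.out.ne_zero,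
      Matrix.det_fin_two_of, one_mul, mul_zero, sub_zero]
    exact Nat.cast_pos.2 hq.out.pos
  refine opOf_crossHomR (admissible_sRepSq hqP) (fun i => hpos i)
    (ModularForm.heckeMatrix q 0) (hpos 0) ((alphaMat q).map fun x : ℤ => (x : ℚ)) ?_
    (isReps_sRepSq hqP) (fun g => ?_) u v
  · refine ⟨q, Nat.cast_ne_zero.2 hq.out.ne_zero, ?_⟩
    rw [ModularForm.val_heckeMatrix hq.out.ne_zero]
    ext a b
    fin_cases a <;> fin_cases b <;> simp [alphaMat, Matrix.mul_apply, Fin.sum_univ_two]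
  · obtain ⟨c, hc⟩ := mem_gTop.1 g.2
    push_cast at hc
    refine ⟨⟨⟨!![(g : SL(2, ℤ)) 0 0, (g : SL(2, ℤ)) 0 1 * q; (P : ℤ) * c,
      (g : SL(2, ℤ)) 1 1], ?_⟩, mem_gTop.2 (by simp)⟩, ?_⟩
    · have hd := sl_det_eq (g : SL(2, ℤ))
      rw [hc] at hd
      rw [Matrix.det_fin_two_of]
      linear_combination hd
    · refine ((isIntMat_mapGL _).mul (isIntMat_heckeMatrix (n := q) 0)).ext ?_
      convert (isIntMat_heckeMatrix (n := q) 0).mul (isIntMat_mapGL _) using 1
      ext a b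
      fin_cases a <;> fin_cases b <;> simp [Matrix.mul_apply, Fin.sum_univ_two, hc] <;> ring

end Cross

section Relations

variable {M q : ℕ} [hq : Fact q.Prime] (hqM : ¬ q ∣ M)

omit hq in
theorem q_dvd_level : q ∣ M * q := dvd_mul_left q M

variable {A : Type*} [AddCommGroup A] (R : Type*) [Semiring R] [Module R A]

/-- The splitting of the representatives of `T_q`. -/
def tIdx : (Unit × HIdx (M * q) q) ⊕ Unit ≃ HIdx M q × Unit where
  toFun
    | Sum.inl (_, ⟨some x, _⟩) => (⟨some x, fun hx => by simp at hx⟩, ())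
    | Sum.inl (_, ⟨none, hx⟩) => absurd q_dvd_level (hx rfl)
    | Sum.inr _ => (⟨none, fun _ => hqM⟩, ())
  invFun
    | (⟨some x, _⟩, _) => Sum.inl ((), ⟨some x, fun hx => by simp at hx⟩)
    | (⟨none, _⟩, _) => Sum.inr ()
  left_inv := by
    rintro (⟨⟨⟩, ⟨_ | x, hx⟩⟩ | ⟨⟩)
    · exact absurd q_dvd_level (hx rfl)
    · rfl
    · rfl
  right_inv := by rintro ⟨⟨_ | x, hx⟩, ⟨⟩⟩ <;> rfl

include hqM in
/-- `U_q res + conj = res T_q`. -/
theorem hecke_res_add_conj (φ : Additive (gTop M) →+ A) :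
    hecke (M * q) ⊤ q R (degOp (one_dvd_step (q := q)) R φ) +
        degOp (q_dvd_step (P := M) (q := q)) R φ =
      degOp (one_dvd_step (q := q)) R (hecke M ⊤ q R φ) := by
  unfold hecke degOp
  rw [opOf_comp, opOf_comp, ← LinearMap.add_apply, ← opOf_sum]
  refine LinearMap.congr_fun (opOf_congr _ _ (tIdx hqM) fun p => ?_) φ
  rcases p with ⟨⟨⟩, ⟨_ | x, hx⟩⟩ | ⟨⟩
  · exact absurd q_dvd_level (hx rfl)
  · simp [tIdx, hRep, heckeDiagMatrix_one]
  · simp only [tIdx, Sum.elim_inr, Equiv.coe_fn_mk, hRep, heckeDiagMatrix_one, mul_one, mul_inv_rev]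
    rw [← map_inv, mul_inv_cancel_left]
    exact mapGL_mem_img.2 (inv_mem (gammaH_top.ge (gamma0Elt_mem _)))

omit hq in
theorem qq_dvd_step : q * q * M ∣ M * q * q := (by ring : q * q * M = M * q * q).dvd

/-- The index map of the second relation. -/
def tIdxStar (q M : ℕ) [Fact q.Prime] (hqM : ¬ q ∣ M) : Fin q ⊕ Unit → HIdx M q
  | Sum.inl x => if (x : ℕ) = 0 then ⟨none, fun _ => hqM⟩ else
      ⟨some ⟨(((M : ZMod q) * ((x : ℕ) : ZMod q))⁻¹).val, ZMod.val_lt _⟩, fun hx => by simp at hx⟩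
  | Sum.inr _ => ⟨some ⟨0, (Fact.out : q.Prime).pos⟩, fun hx => by simp at hx⟩

include hqM in
theorem tIdxStar_bijective : Function.Bijective (tIdxStar q M hqM) := by
  have hM : (M : ZMod q) ≠ 0 := fun h0 => hqM ((ZMod.natCast_eq_zero_iff _ _).1 h0)
  have hx : ∀ x : Fin q, (x : ℕ) ≠ 0 → (((x : ℕ) : ℕ) : ZMod q) ≠ 0 := fun x hx h0 =>
    hx (Nat.eq_zero_of_dvd_of_lt ((ZMod.natCast_eq_zero_iff _ _).1 h0) x.isLt)
  rw [Fintype.bijective_iff_injective_and_card]
  constructor
  · rintro (x | ⟨⟩) (y | ⟨⟩) hxy <;> simp only [tIdxStar] at hxy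
    · by_cases hx0 : (x : ℕ) = 0 <;> by_cases hy0 : (y : ℕ) = 0 <;>
        simp only [hx0, hy0, if_true, if_false] at hxy
      · exact congrArg Sum.inl (Fin.ext (hx0.trans hy0.symm))
      · exact absurd (congrArg Subtype.val hxy) (by simp)
      · exact absurd (congrArg Subtype.val hxy) (by simp)
      · have h1 := ZMod.val_injective q (congrArg Fin.val (Option.some_injective _
          (congrArg Subtype.val hxy)))
        have h2 := mul_left_cancel₀ hM (inv_injective h1)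
        rw [ZMod.natCast_eq_natCast_iff'] at h2
        rw [Nat.mod_eq_of_lt x.isLt, Nat.mod_eq_of_lt y.isLt] at h2
        exact congrArg Sum.inl (Fin.ext h2)
    · by_cases hx0 : (x : ℕ) = 0 <;> simp only [hx0, if_true, if_false] at hxy
      · exact absurd (congrArg Subtype.val hxy) (by simp)
      · have h1 := congrArg Fin.val (Option.some_injective _ (congrArg Subtype.val hxy))
        simp only [ZMod.val_eq_zero, inv_eq_zero, mul_eq_zero] at h1
        exact absurd h1 (by simp [hM, hx x hx0])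
    · by_cases hy0 : (y : ℕ) = 0 <;> simp only [hy0, if_true, if_false] at hxy
      · exact absurd (congrArg Subtype.val hxy) (by simp)
      · have h1 := congrArg Fin.val (Option.some_injective _ (congrArg Subtype.val hxy))
        have h2 := h1.symm
        simp only [ZMod.val_eq_zero, inv_eq_zero, mul_eq_zero] at h2
        exact absurd h2 (by simp [hM, hx y hy0])
    · rfl
  · have e : HIdx M q ≃ Option (Fin q) := Equiv.subtypeUnivEquiv fun _ _ => hqM
    rw [Fintype.card_congr e]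
    simp

include hqM in
/-- `cor conj conj + res = conj T_q`. -/
theorem corSq_conj_add_res [NeZero M] (φ : Additive (gTop M) →+ A) :
    corSq (q_dvd_level (M := M) (q := q)) R (degOp (qq_dvd_step (M := M) (q := q)) R φ) +
        degOp (one_dvd_step (q := q)) R φ =
      degOp (q_dvd_step (P := M) (q := q)) R (hecke M ⊤ q R φ) := by
  have : NeZero q := ⟨hq.out.ne_zero⟩
  have : NeZero (M * q) := ⟨mul_ne_zero (NeZero.ne M) hq.out.ne_zero⟩
  set z : GLR := ModularForm.heckeMatrix q 0 * ModularForm.heckeDiagMatrix q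
  have hzm : IsIntMat z !![(q : ℤ), 0; 0, (q : ℤ)] := by
    convert (isIntMat_heckeMatrix (n := q) 0).mul (isIntMat_degDiag q) using 1
    ext a b
    fin_cases a <;> fin_cases b <;> simp [Matrix.mul_apply, Fin.sum_univ_two]
  have hz : ∀ g, Commute z g := fun g => by
    refine Units.ext ?_
    have hzm' : (z : Matrix (Fin 2) (Fin 2) ℝ) = _ := hzm
    rw [Units.val_mul, Units.val_mul g, hzm']
    ext a b
    fin_cases a <;> fin_cases b <;> simp [Matrix.mul_apply, Fin.sum_univ_two, mul_comm]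
  unfold hecke degOp corSq
  rw [opOf_comp, opOf_comp,
    ← opOf_mul_central (R := R) (A := A) hz
      (admissible_deg (one_dvd_step (P := M) (q := q))),
    ← LinearMap.add_apply, ← opOf_sum]
  refine LinearMap.congr_fun (opOf_congr _ _
    (((Equiv.punitProd _).sumCongr (Equiv.refl Unit)).trans
      ((Equiv.ofBijective _ (tIdxStar_bijective hqM)).trans (Equiv.prodPUnit _).symm))
    fun p => ?_) φ
  rcases p with ⟨⟨⟩, x⟩ | ⟨⟩
  swap
  · simp [tIdxStar, hRep, heckeDiagMatrix_one, z]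
  simp only [Sum.elim_inl, Equiv.trans_apply, Equiv.sumCongr_apply, Sum.map_inl,
    Equiv.punitProd_apply, Equiv.ofBijective_apply, Equiv.prodPUnit_symm_apply, tIdxStar]
  by_cases hx : (x : ℕ) = 0
  · have e1 : cRepSq (M * q) x = 1 := by
      rw [cRepSq, show cSq (M * q) x = 1 by
        ext a b; fin_cases a <;> fin_cases b <;> simp [cSq, hx], map_one]
    rw [if_pos hx]
    simp only [hRep, e1, mul_one, mul_assoc, mul_inv_rev]
    rw [← heckeDiagMatrix_mul, mul_assoc, mul_inv_cancel_left, mul_inv_cancel_left, ← map_inv]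
    exact mapGL_mem_img.2 (inv_mem (gammaH_top.ge (gamma0Elt_mem _)))
  · rw [if_neg hx]
    simp only [hRep]
    set j : ZMod q := ((M : ZMod q) * ((x : ℕ) : ZMod q))⁻¹
    have hne : (M : ZMod q) * ((x : ℕ) : ZMod q) ≠ 0 := mul_ne_zero
      (fun h0 => hqM ((ZMod.natCast_eq_zero_iff _ _).1 h0)) fun h0 =>
      hx (Nat.eq_zero_of_dvd_of_lt ((ZMod.natCast_eq_zero_iff _ _).1 h0) x.isLt)
    obtain ⟨w, hw⟩ : (q : ℤ) ∣ 1 - (M : ℤ) * (x : ℕ) * (j.val : ℤ) := by
      rw [← ZMod.intCast_zmod_eq_zero_iff_dvd]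
      push_cast
      rw [ZMod.natCast_zmod_val]
      simp only [j]
      rw [mul_inv_cancel₀ hne, sub_self]
    refine (mul_inv_mem_img_iff ((isIntMat_degDiag _).mul (isIntMat_mapGL _))
      ((isIntMat_heckeMatrix _).mul (isIntMat_degDiag q))).2
      ⟨⟨!![(q : ℤ), -(j.val : ℤ); (M : ℤ) * (x : ℕ), w], ?_⟩, mem_gTop.2 (by simp), ?_⟩
    · rw [Matrix.det_fin_two_of]
      linear_combination -hw
    · ext a b
      fin_cases a <;> fin_cases b <;>
        simp [cSq, Matrix.mul_apply, Fin.sum_univ_two, -ZMod.natCast_val]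
      · ring
      · ring
      · linear_combination hw

end Relations

end Fermat.Agent.RT.Lifting.Square
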